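import Fermat.Agent.LevelM.Expansion
import Mathlib.NumberTheory.ModularForms.NormTrace
import Mathlib.NumberTheory.ModularForms.CongruenceSubgroups

/-!
# Rings of modular functions with integral expansions at all cusps

`modularRing Γ h O` consists of the `Γ`-invariant holomorphic functions with `O`-integral
expansions in `q_h` at all cusps. A function with no poles is constant, and pole subtraction
bounds the ring by the subring of functions with simple poles (`modularRing_le_of_pole_reducers`).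
-/

set_option autoImplicit false

noncomputable section

open scoped UpperHalfPlane Topology Manifold MatrixGroups ModularForm
open Filter UpperHalfPlane Matrix.SpecialLinearGroup

namespace FLTAgent.LevelM

local notation "𝕢" => Function.Periodic.qParam

/-! ## Coefficient estimates -/

section Coeff

variable {R : Type*} [CommRing R]

/-- A product vanishes below the sum of the bounds. -/
theorem coeff_mul_below {s t : LaurentSeries R} {a b : ℤ} (hs : ∀ n < a, s.coeff n = 0)
    (ht : ∀ n < b, t.coeff n = 0) {n : ℤ} (hn : n < a + b) : (s * t).coeff n = 0 := by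
  rw [HahnSeries.coeff_mul]
  refine Finset.sum_eq_zero fun x hx => ?_
  obtain ⟨h1, h2, h3⟩ := Finset.mem_antidiagonal.mp hx
  exfalso
  rcases lt_or_ge x.1 a with h | h
  · exact h1 (hs _ h)
  · exact h2 (ht _ (by omega))

/-- The leading coefficient of a product. -/
theorem coeff_mul_lead {s t : LaurentSeries R} {a b : ℤ} (hs : ∀ n < a, s.coeff n = 0)
    (ht : ∀ n < b, t.coeff n = 0) : (s * t).coeff (a + b) = s.coeff a * t.coeff b := by
  rw [HahnSeries.coeff_mul, Finset.sum_eq_single (a, b)]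
  · intro x hx hne
    obtain ⟨h1, h2, h3⟩ := Finset.mem_antidiagonal.mp hx
    exfalso
    rcases lt_or_ge x.1 a with h | h
    · exact h1 (hs _ h)
    rcases lt_or_ge x.2 b with h' | h'
    · exact h2 (ht _ h')
    exact hne (Prod.ext (by omega) (by omega))
  · intro hne
    by_contra hc
    exact hne (Finset.mem_antidiagonal.mpr
      ⟨fun h => hc (by simp [h]), fun h => hc (by simp [h]), rfl⟩)

/-- The leading coefficient of a power. -/
theorem coeff_pow_below {s : LaurentSeries R} {a : ℤ} (hs : ∀ n < a, s.coeff n = 0) (k : ℕ) :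
    (∀ n < (k : ℤ) * a, (s ^ k).coeff n = 0) ∧ (s ^ k).coeff ((k : ℤ) * a) = s.coeff a ^ k := by
  induction k with
  | zero =>
    refine ⟨fun n hn => ?_, by simp⟩
    rw [pow_zero, HahnSeries.coeff_one, if_neg (by simp at hn; omega)]
  | succ k ih =>
    rw [show ((k + 1 : ℕ) : ℤ) * a = (k : ℤ) * a + a by push_cast; ring, pow_succ, pow_succ]
    exact ⟨fun n hn => coeff_mul_below ih.1 hs hn, by rw [coeff_mul_lead ih.1 hs, ih.2]⟩

end Coeff

/-! ## The action of `SL(2, ℤ)` on functions -/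

/-- `act γ f = f ∘ (γ • ·)`. -/
def act (γ : SL(2, ℤ)) : (ℍ → ℂ) →+* (ℍ → ℂ) where
  toFun f := fun τ => f (γ • τ)
  map_one' := rfl
  map_mul' _ _ := rfl
  map_zero' := rfl
  map_add' _ _ := rfl

/-- The value of the action on functions. -/
@[simp] theorem act_apply (γ : SL(2, ℤ)) (f : ℍ → ℂ) (τ : ℍ) : act γ f τ = f (γ • τ) := rfl

/-- The identity acts trivially on functions. -/
theorem act_one (f : ℍ → ℂ) : act 1 f = f := by
  funext τ; rw [act_apply, one_smul]

/-- The action on functions is a right action. -/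
theorem act_mul (γ δ : SL(2, ℤ)) (f : ℍ → ℂ) : act (γ * δ) f = act δ (act γ f) := by
  funext τ; simp [mul_smul]

theorem act_inv (γ : SL(2, ℤ)) (f : ℍ → ℂ) : act γ⁻¹ (act γ f) = f := by
  rw [← act_mul, mul_inv_cancel, act_one]

theorem act_neg_one (f : ℍ → ℂ) : act (-1) f = f := by
  funext τ
  rw [act_apply, ModularGroup.SL_neg_smul, one_smul]

theorem act_neg (γ : SL(2, ℤ)) (f : ℍ → ℂ) : act (-γ) f = act γ f := by
  funext τ
  rw [act_apply, ModularGroup.SL_neg_smul, act_apply]

theorem act_eq_slash (γ : SL(2, ℤ)) (f : ℍ → ℂ) : act γ f = f ∣[(0 : ℤ)] γ := by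
  funext τ
  simp [ModularForm.SL_slash_apply]

theorem act_T_zpow_apply (f : ℍ → ℂ) (j : ℤ) (τ : ℍ) :
    act (ModularGroup.T ^ j) f τ = f ((j : ℝ) +ᵥ τ) := by
  rw [act_apply, modular_T_zpow_smul]

/-- The action preserves holomorphy. -/
theorem mdifferentiable_act (γ : SL(2, ℤ)) {f : ℍ → ℂ} (hf : MDiff f) : MDiff (act γ f) := by
  rw [act_eq_slash, ModularForm.SL_slash]
  exact hf.slash 0 _

/-- Expansion of a translate by `T ^ j`. -/
theorem HasExp.act_T {h : ℕ} {f : ℍ → ℂ} {s : LaurentSeries ℂ} (hs : HasExp h f s) (j : ℤ) :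
    HasExp h (act (ModularGroup.T ^ j) f)
      (twist (Complex.exp (2 * Real.pi * Complex.I * j / h)) s) := by
  have := hs.subst (φ := fun τ => (j : ℝ) +ᵥ τ) (h' := h) (d := 1)
    (Complex.exp (2 * Real.pi * Complex.I * j / h))
    (by
      refine tendsto_comap_iff.mpr ?_
      have he : (UpperHalfPlane.im ∘ fun τ : ℍ => (j : ℝ) +ᵥ τ) = UpperHalfPlane.im := by
        funext τ; simp
      rw [he]
      exact tendsto_comap)
    (fun τ => by
      rw [pow_one, Function.Periodic.qParam, Function.Periodic.qParam, ← Complex.exp_add]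
      congr 1
      simp only [UpperHalfPlane.coe_vadd]
      push_cast
      ring)
  rw [ModularCurve.qExpand_one_apply] at this
  refine this.congr (Eventually.of_forall fun τ => ?_)
  rw [act_T_zpow_apply]; rfl

/-! ## Integral expansions -/

/-- `f` has an expansion with coefficients in `O`. -/
def IntExp (h : ℕ) (O : Subring ℂ) (f : ℍ → ℂ) : Prop :=
  ∃ s : LaurentSeries O, HasExp h f (ModularCurve.coeffMap O.subtype s)

/-- An integral expansion is an expansion with coefficients in the ring. -/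
theorem intExp_iff {h : ℕ} {O : Subring ℂ} {f : ℍ → ℂ} :
    IntExp h O f ↔ ∃ s, HasExp h f s ∧ ∀ n, s.coeff n ∈ O := by
  constructor
  · rintro ⟨s, hs⟩
    exact ⟨_, hs, fun n => by rw [ModularCurve.coeffMap_coeff]; exact (s.coeff n).2⟩
  · rintro ⟨s, hs, hO⟩
    refine ⟨⟨fun n => ⟨s.coeff n, hO n⟩, s.isPWO_support'.mono fun n hn h0 => hn ?_⟩, ?_⟩
    · exact Subtype.ext h0
    · convert hs using 1
      ext n
      rfl

theorem HasExp.coeff_mem {h : ℕ} {O : Subring ℂ} {f : ℍ → ℂ} {s : LaurentSeries ℂ} (hh : 0 < h)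
    (hs : HasExp h f s) (hf : IntExp h O f) (n : ℤ) : s.coeff n ∈ O := by
  obtain ⟨t, ht, hO⟩ := intExp_iff.mp hf
  rw [hs.unique hh ht]; exact hO n

variable {h : ℕ} {O : Subring ℂ} {f g : ℍ → ℂ}

theorem intExp_const {c : ℂ} (hc : c ∈ O) : IntExp h O (fun _ => c) :=
  intExp_iff.mpr ⟨_, hasExp_C h c, fun n => by
    rw [HahnSeries.C_apply, HahnSeries.coeff_single]; split <;> simp [hc]⟩

theorem IntExp.add (hf : IntExp h O f) (hg : IntExp h O g) : IntExp h O (f + g) := by
  obtain ⟨s, hs⟩ := hf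
  obtain ⟨t, ht⟩ := hg
  exact ⟨s + t, by rw [map_add]; exact hs.add ht⟩

theorem IntExp.neg (hf : IntExp h O f) : IntExp h O (-f) := by
  obtain ⟨s, hs⟩ := hf
  exact ⟨-s, by rw [map_neg]; exact hs.neg⟩

theorem IntExp.mul (hf : IntExp h O f) (hg : IntExp h O g) : IntExp h O (f * g) := by
  obtain ⟨s, hs⟩ := hf
  obtain ⟨t, ht⟩ := hg
  exact ⟨s * t, by rw [map_mul]; exact hs.mul ht⟩

theorem IntExp.inv (hh : 0 < h) {s : LaurentSeries ℂ} (hs : HasExp h f s) (hO : ∀ n, s.coeff n ∈ O)
    {m : ℤ} (hm : ∀ n < m, s.coeff n = 0) (hne : s.coeff m ≠ 0) (hinv : (s.coeff m)⁻¹ ∈ O) :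
    IntExp h O f⁻¹ := by
  obtain ⟨s', hs'⟩ : IntExp h O f := intExp_iff.mpr ⟨s, hs, hO⟩
  have heq := hs.unique hh hs'
  have hs0 : s' ≠ 0 := fun h0 => hne (by rw [heq, h0]; simp)
  have hord : s'.order = m := by
    refine le_antisymm (HahnSeries.order_le_of_coeff_ne_zero fun h0 => hne ?_) ?_
    · rw [heq, ModularCurve.coeffMap_coeff, h0, map_zero]
    · by_contra hlt
      push Not at hlt
      refine HahnSeries.coeff_order_eq_zero.not.mpr hs0 (Subtype.ext ?_)
      have := hm _ hlt
      rwa [heq, ModularCurve.coeffMap_coeff] at this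
  have hunit : IsUnit s' := by
    refine HahnSeries.isUnit_iff.mpr (isUnit_iff_exists_inv.mpr ⟨⟨_, hinv⟩, Subtype.ext ?_⟩)
    have hl : s'.leadingCoeff = s'.coeff m := by rw [HahnSeries.leadingCoeff_eq, hord]
    rw [Subring.coe_mul, Subring.coe_one, hl]
    show O.subtype (s'.coeff m) * (s.coeff m)⁻¹ = 1
    rw [← ModularCurve.coeffMap_coeff O.subtype, ← heq]
    exact mul_inv_cancel₀ hne
  obtain ⟨u, rfl⟩ := hunit
  refine ⟨↑u⁻¹, ?_⟩
  have hc : ModularCurve.coeffMap O.subtype ↑u⁻¹ =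
      (ModularCurve.coeffMap O.subtype (↑u : LaurentSeries O))⁻¹ := by
    refine eq_inv_of_mul_eq_one_left ?_
    rw [← map_mul, Units.inv_mul, map_one]
  rw [hc, ← heq]
  exact hs.inv hh fun h0 => hne (by simp [h0])

/-! ## The rings -/

/-- Functions holomorphic on `ℍ`, invariant under `Γ`, with `O`-integral Laurent expansions
in `exp (2πiτ/h)` at every cusp. -/
def modularRing (Γ : Subgroup SL(2, ℤ)) (h : ℕ) (O : Subring ℂ) : Subring (ℍ → ℂ) where
  carrier := {f | MDiff f ∧ (∀ γ ∈ Γ, act γ f = f) ∧ ∀ γ, IntExp h O (act γ f)}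
  mul_mem' := fun ha hb => ⟨ha.1.mul hb.1, fun γ hγ => by rw [map_mul, ha.2.1 γ hγ, hb.2.1 γ hγ],
    fun γ => by rw [map_mul]; exact (ha.2.2 γ).mul (hb.2.2 γ)⟩
  one_mem' := ⟨mdifferentiable_const, fun γ _ => map_one _,
    fun γ => by rw [map_one]; exact intExp_const O.one_mem⟩
  add_mem' := fun ha hb => ⟨ha.1.add hb.1, fun γ hγ => by rw [map_add, ha.2.1 γ hγ, hb.2.1 γ hγ],
    fun γ => by rw [map_add]; exact (ha.2.2 γ).add (hb.2.2 γ)⟩
  zero_mem' := ⟨mdifferentiable_const, fun γ _ => map_zero _,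
    fun γ => by rw [map_zero]; exact intExp_const O.zero_mem⟩
  neg_mem' := fun ha => ⟨ha.1.neg, fun γ hγ => by rw [map_neg, ha.2.1 γ hγ],
    fun γ => by rw [map_neg]; exact (ha.2.2 γ).neg⟩

variable {Γ : Subgroup SL(2, ℤ)}

theorem const_mem_modularRing {c : ℂ} (hc : c ∈ O) : (fun _ => c) ∈ modularRing Γ h O :=
  ⟨mdifferentiable_const, fun _ _ => rfl, fun _ => intExp_const hc⟩

/-- Translates: `γ₀` maps the ring of `Γ` to that of a group `Γ'` with `γ₀ Γ' γ₀⁻¹ ⊆ Γ`. -/
theorem act_mem_modularRing {Γ' : Subgroup SL(2, ℤ)} {γ₀ : SL(2, ℤ)}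
    (hΓ : ∀ g ∈ Γ', γ₀ * g * γ₀⁻¹ ∈ Γ) (hf : f ∈ modularRing Γ h O) :
    act γ₀ f ∈ modularRing Γ' h O := by
  refine ⟨mdifferentiable_act _ hf.1, fun g hg => ?_, fun γ => ?_⟩
  · conv_rhs => rw [← hf.2.1 _ (hΓ g hg), ← act_mul, inv_mul_cancel_right]
    rw [← act_mul]
  · rw [← act_mul]; exact hf.2.2 _

/-- A function with nonnegative order at every cusp is constant (weight `0`). -/
theorem eq_const_of_orders_nonneg [Γ.FiniteIndex] (hh : 0 < h) (hf : MDiff f)
    (hinv : ∀ γ ∈ Γ, act γ f = f)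
    (hord : ∀ γ, ∃ s, HasExp h (act γ f) s ∧ ∀ n < 0, s.coeff n = 0) :
    ∃ c, f = Function.const ℍ c := by
  let F : ModularForm (Γ : Subgroup (GL (Fin 2) ℝ)) 0 :=
    { toFun := f
      slash_action_eq' := by
        rintro _ ⟨γ, hγ, rfl⟩
        have := hinv γ hγ
        rwa [act_eq_slash, ModularForm.SL_slash] at this
      holo' := hf
      bdd_at_cusps' := by
        intro c hc
        rw [Subgroup.IsArithmetic.isCusp_iff_isCusp_SL2Z] at hc
        rw [OnePoint.isBoundedAt_iff_forall_SL2Z hc]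
        intro γ _
        obtain ⟨s, hs, hs0⟩ := hord γ
        obtain ⟨G, hG, -, hGeq⟩ := hs.exists_analyticAt hh hs0
        rw [← act_eq_slash]
        have hlim : Tendsto (act γ f) atImInfty (𝓝 (G 0)) := by
          refine (hG.continuousAt.tendsto.comp
            (qParam_tendsto_atImInfty (by exact_mod_cast hh : (0:ℝ) < h))).congr' ?_
          filter_upwards [hGeq] with τ hτ
          simp [hτ]
        exact hlim.isBigO_one ℝ }
  exact ModularForm.eq_const_of_weight_zero F

/-- **Pole subtraction.**  If `r i` covers all cusps of `Γ` and `g i` has a simple pole with unit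
leading coefficient at the `i`-th cusp and no other poles, then `modularRing Γ h O` is contained
in any subring containing the constants of `O` and all `g i`. -/
theorem modularRing_le_of_pole_reducers [Γ.FiniteIndex] {ι : Type*} [Fintype ι] [DecidableEq ι]
    (hh : 0 < h) (r : ι → SL(2, ℤ))
    (hr : ∀ δ : SL(2, ℤ), ∃ i, ∃ j : ℤ, ∀ u : ℍ → ℂ, (∀ γ ∈ Γ, act γ u = u) →
      act δ u = act (ModularGroup.T ^ j) (act (r i) u))
    (g : ι → ℍ → ℂ) (hg : ∀ i, g i ∈ modularRing Γ h O)
    (lead : ι → ℂ) (hlead : ∀ i, lead i ≠ 0 ∧ (lead i)⁻¹ ∈ O)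
    (hpole : ∀ i, ∃ s, HasExp h (act (r i) (g i)) s ∧ (∀ n < -1, s.coeff n = 0) ∧
      s.coeff (-1) = lead i)
    (hnopole : ∀ i k, k ≠ i → ∃ s, HasExp h (act (r k) (g i)) s ∧ ∀ n < 0, s.coeff n = 0)
    (S : Subring (ℍ → ℂ)) (hgS : ∀ i, g i ∈ S) (hOS : ∀ c ∈ O, (fun _ => c) ∈ S) :
    ∀ f ∈ modularRing Γ h O, f ∈ S := by
  suffices H : ∀ (N : ℕ) (u : ℍ → ℂ), u ∈ modularRing Γ h O → ∀ b : ι → ℕ, ∑ i, b i = N →
      (∀ i, ∃ s, HasExp h (act (r i) u) s ∧ ∀ n < -(b i : ℤ), s.coeff n = 0) → u ∈ S by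
    intro u hu
    choose s hs using fun i => intExp_iff.mp (hu.2.2 (r i))
    refine H _ u hu (fun i => (-(s i).order).toNat) rfl fun i => ⟨s i, (hs i).1, fun n hn => ?_⟩
    exact HahnSeries.coeff_eq_zero_of_lt_order (by omega)
  intro N
  induction N using Nat.strong_induction_on with
  | _ N ih =>
    intro u hu b hb hbound
    by_cases hall : ∀ i, b i = 0
    · have hord : ∀ δ, ∃ s, HasExp h (act δ u) s ∧ ∀ n < 0, s.coeff n = 0 := by
        intro δ
        obtain ⟨i, j, hij⟩ := hr δ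
        obtain ⟨s, hs, hs0⟩ := hbound i
        refine ⟨_, (hij u hu.2.1) ▸ hs.act_T j, fun n hn => ?_⟩
        rw [twist_coeff, hs0 n (by rw [hall i]; simpa using hn), zero_mul]
      obtain ⟨c, rfl⟩ := eq_const_of_orders_nonneg hh hu.1 hu.2.1 hord
      refine hOS c ?_
      have := (hasExp_C h c).coeff_mem hh (hu.2.2 1) 0
      simpa [HahnSeries.C_apply] using this
    push Not at hall
    obtain ⟨i, hi⟩ := hall
    obtain ⟨s, hs, hs0⟩ := hbound i
    obtain ⟨p, hp, hp0, hp1⟩ := hpole i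
    set n := b i with hn
    set a := s.coeff (-(n : ℤ)) * (lead i)⁻¹ ^ n with ha
    have haO : a ∈ O := O.mul_mem (hs.coeff_mem hh (hu.2.2 _) _) (O.pow_mem (hlead i).2 n)
    set v := u - (fun _ => a) * g i ^ n with hv
    have hvmem : v ∈ modularRing Γ h O :=
      sub_mem hu (mul_mem (const_mem_modularRing haO) (pow_mem (hg i) n))
    have hvS : v ∈ S := by
      let b' := Function.update b i (n - 1)
      refine ih _ ?_ v hvmem b' rfl fun k => ?_
      · rw [← hb]
        refine Finset.sum_lt_sum (fun k _ => ?_) ⟨i, Finset.mem_univ i, ?_⟩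
        · rcases eq_or_ne k i with rfl | hk
          · simp [b', hn]
          · simp [b', hk]
        · simp only [b', Function.update_self]; omega
      have hact : act (r k) v = act (r k) u - (fun _ => a) * act (r k) (g i) ^ n := by
        rw [hv, map_sub, map_mul, map_pow]; rfl
      rcases eq_or_ne k i with rfl | hk
      · refine ⟨s - HahnSeries.C a * p ^ n, ?_, fun m hm => ?_⟩
        · rw [hact]; exact hs.sub ((hasExp_C h a).mul (hp.pow n))
        · simp only [b', Function.update_self] at hm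
          rw [HahnSeries.coeff_sub, HahnSeries.C_mul_eq_smul, HahnSeries.coeff_smul, smul_eq_mul]
          rcases lt_or_ge m (-(n : ℤ)) with hlt | hge
          · rw [hs0 m hlt, (coeff_pow_below hp0 n).1 m (by omega), mul_zero, sub_zero]
          · obtain rfl : m = -(n : ℤ) := by omega
            have hc := (coeff_pow_below hp0 n).2
            rw [show (n : ℤ) * -1 = -(n : ℤ) by ring] at hc
            rw [hc, hp1, ha, mul_assoc, ← mul_pow, inv_mul_cancel₀ (hlead _).1, one_pow, mul_one,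
              sub_self]
      · obtain ⟨t, ht, ht0⟩ := hbound k
        obtain ⟨w, hw, hw0⟩ := hnopole i k hk
        refine ⟨t - HahnSeries.C a * w ^ n, ?_, fun m hm => ?_⟩
        · rw [hact]; exact ht.sub ((hasExp_C h a).mul (hw.pow n))
        · simp only [b', Function.update_of_ne hk] at hm
          rw [HahnSeries.coeff_sub, HahnSeries.C_mul_eq_smul, HahnSeries.coeff_smul, smul_eq_mul,
            ht0 m hm, (coeff_pow_below hw0 n).1 m (by omega), mul_zero, sub_zero]
    have : u = v + (fun _ => a) * g i ^ n := by rw [hv]; ring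
    rw [this]
    exact add_mem hvS (mul_mem (hOS a haO) (pow_mem (hgS i) n))

end FLTAgent.LevelM
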