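import Fermat.Agent.LevelM.Hauptmodul

/-!
# The level `M` ring is a Galois extension of the ring of `Γ(K)`

For `K ∈ {2, 3}` dividing `M` and `O` containing `ζ_M, 1/M` there are finitely many `x_i, y_i` in
`modularRing Γ(M) M O` with `∑ x_i γ(y_i) = 1` for `γ ∈ ± Γ(M)` and `= 0` for the other `γ ∈ Γ(K)`.
-/

set_option autoImplicit false

noncomputable section

open Filter Complex
open UpperHalfPlane hiding I
open scoped UpperHalfPlane Real MatrixGroups Manifold

namespace FLTAgent.LevelM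

variable {O : Subring ℂ} {K M : ℕ}

/-- `± Γ(M)`, as a predicate. -/
def IsTrivMod (M : ℕ) (γ : SL(2, ℤ)) : Prop := redMat M γ = 1 ∨ redMat M γ = -1

theorem redMat_neg (γ : SL(2, ℤ)) : redMat M (-γ) = -redMat M γ := by
  ext i j
  simp [redMat]

/-- `Γ(M)` is the kernel of reduction modulo `M`. -/
theorem mem_Gamma_iff_redMat (γ : SL(2, ℤ)) :
    γ ∈ CongruenceSubgroup.Gamma M ↔ redMat M γ = 1 := by
  rw [CongruenceSubgroup.Gamma_mem]
  constructor
  · intro h
    ext i j
    fin_cases i <;> fin_cases j <;> simp [redMat, h.1, h.2.1, h.2.2.1, h.2.2.2]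
  · intro h
    have := fun i j => congrFun (congrFun h i) j
    exact ⟨by simpa [redMat] using this 0 0, by simpa [redMat] using this 0 1,
      by simpa [redMat] using this 1 0, by simpa [redMat] using this 1 1⟩

theorem IsTrivMod.act_eq {γ : SL(2, ℤ)} (h : IsTrivMod M γ) {f : ℍ → ℂ}
    (hf : ∀ g ∈ CongruenceSubgroup.Gamma M, act g f = f) : act γ f = f := by
  rcases h with h | h
  · exact hf γ ((mem_Gamma_iff_redMat γ).mpr h)
  · rw [← act_neg]
    exact hf _ ((mem_Gamma_iff_redMat _).mpr (by rw [redMat_neg, h, neg_neg]))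

/-- A matrix moving no line of `(ℤ/M)²` is `± 1`. -/
theorem eq_one_or_neg_one_of_fix_lines {g : Matrix (Fin 2) (Fin 2) (ZMod M)}
    (h : ∀ T : Fin 2 → ZMod M, T ≠ 0 → Matrix.vecMul T g = T ∨ Matrix.vecMul T g = -T) :
    g = 1 ∨ g = -1 := by
  rcases subsingleton_or_nontrivial (ZMod M) with hs | hn
  · exact Or.inl (Subsingleton.elim _ _)
  have hrow : ∀ T : Fin 2 → ZMod M, ∀ j, Matrix.vecMul T g j = T 0 * g 0 j + T 1 * g 1 j := by
    intro T j
    simp [Matrix.vecMul, dotProduct, Fin.sum_univ_two]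
  have hneg : ∀ (T : Fin 2 → ZMod M), T ≠ 0 →
      ∃ s : ZMod M, (s = 1 ∨ s = -1) ∧ ∀ j, T 0 * g 0 j + T 1 * g 1 j = s * T j := by
    intro T hT
    rcases h T hT with h' | h'
    · exact ⟨1, Or.inl rfl, fun j => by rw [← hrow, h', one_mul]⟩
    · exact ⟨-1, Or.inr rfl, fun j => by rw [← hrow, h', Pi.neg_apply, neg_one_mul]⟩
  obtain ⟨s1, -, h1⟩ := hneg ![1, 0] fun h0 => one_ne_zero (congrFun h0 0)
  obtain ⟨s2, -, h2⟩ := hneg ![0, 1] fun h0 => one_ne_zero (congrFun h0 1)
  obtain ⟨s, hs, h3⟩ := hneg ![1, 1] fun h0 => one_ne_zero (congrFun h0 0)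
  have a00 := h1 0; have a01 := h1 1; have a10 := h2 0; have a11 := h2 1
  have b0 := h3 0; have b1 := h3 1
  simp at a00 a01 a10 a11 b0 b1
  rw [a10, add_zero] at b0
  rw [a01, zero_add] at b1
  rcases hs with rfl | rfl
  · left
    ext i j; fin_cases i <;> fin_cases j <;> simp [a01, a10, b0, b1]
  · right
    ext i j; fin_cases i <;> fin_cases j <;> simp [a01, a10, b0, b1]

/-- A nontrivial element moves some point, also up to sign. -/
theorem exists_moved {g : Matrix (Fin 2) (Fin 2) (ZMod M)} (h : ¬(g = 1 ∨ g = -1)) :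
    ∃ T : Fin 2 → ZMod M, T ≠ 0 ∧ Matrix.vecMul T g ≠ T ∧ Matrix.vecMul T g ≠ -T := by
  by_contra hcon
  push Not at hcon
  refine h (eq_one_or_neg_one_of_fix_lines fun T hT => ?_)
  by_cases h1 : Matrix.vecMul T g = T
  · exact Or.inl h1
  · exact Or.inr (hcon T hT h1)

theorem vact_liftTors [NeZero M] [NeZero K] (h : K ∣ M) {γ : SL(2, ℤ)}
    (hγ : γ ∈ CongruenceSubgroup.Gamma K) (T : Fin 2 → ZMod K) :
    vact (liftTors M K T) γ = liftTors M K T := by
  obtain ⟨d, rfl⟩ := h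
  have hdK : ((d : ℕ) : ZMod (K * d)) * (K : ZMod (K * d)) = 0 := by
    rw [mul_comm, ← Nat.cast_mul, ZMod.natCast_self]
  have hK : 0 < K := Nat.pos_of_ne_zero (NeZero.ne K)
  have hm : ∀ i j, ∃ m : ℤ, γ i j = (if i = j then 1 else 0) + (K : ℤ) * m := by
    have hred := (mem_Gamma_iff_redMat γ).mp hγ
    intro i j
    have h1 := congrFun (congrFun hred i) j
    simp only [redMat, Matrix.map_apply, Matrix.one_apply] at h1
    have h2 : ((γ i j - if i = j then 1 else 0 : ℤ) : ZMod K) = 0 := by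
      push_cast
      rw [h1]
      split <;> simp
    obtain ⟨m, hm⟩ := (ZMod.intCast_zmod_eq_zero_iff_dvd _ _).mp h2
    exact ⟨m, by rw [← hm]; ring⟩
  ext j
  simp only [vact, Matrix.vecMul, dotProduct, Fin.sum_univ_two, redMat, Matrix.map_apply,
    liftTors, Nat.mul_div_cancel_left d hK]
  obtain ⟨m0, hm0⟩ := hm 0 j
  obtain ⟨m1, hm1⟩ := hm 1 j
  rw [hm0, hm1]
  fin_cases j <;> simp [-ZMod.natCast_val] <;>
    linear_combination (((T 0).val : ZMod (K * d)) * (m0 : ZMod (K * d)) +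
      ((T 1).val : ZMod (K * d)) * (m1 : ZMod (K * d))) * hdK

theorem liftTors_add [NeZero M] [NeZero K] (h : K ∣ M) (T U : Fin 2 → ZMod K) :
    liftTors M K T + liftTors M K U = liftTors M K (T + U) := by
  obtain ⟨d, rfl⟩ := h
  ext i
  simp only [liftTors, Pi.add_apply, Nat.mul_div_cancel_left d (Nat.pos_of_ne_zero (NeZero.ne K))]
  rw [← Nat.cast_add, ← mul_add, ZMod.natCast_eq_natCast_iff, ZMod.val_add, Nat.mul_comm K d]
  exact ((Nat.mod_modEq _ _).mul_left' d).symm

theorem liftTors_injective [NeZero M] [NeZero K] (h : K ∣ M) :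
    Function.Injective (liftTors M K) := by
  intro T U hTU
  obtain ⟨d, rfl⟩ := h
  have hd : 0 < d := Nat.pos_of_mul_pos_left (Nat.pos_of_ne_zero (NeZero.ne (K * d)))
  ext i
  have hi := congrFun hTU i
  simp only [liftTors, Nat.mul_div_cancel_left d (Nat.pos_of_ne_zero (NeZero.ne K))] at hi
  rw [ZMod.natCast_eq_natCast_iff'] at hi
  rw [Nat.mul_comm K d, Nat.mul_mod_mul_left, Nat.mul_mod_mul_left,
    Nat.mod_eq_of_lt (ZMod.val_lt _),
    Nat.mod_eq_of_lt (ZMod.val_lt _)] at hi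
  exact ZMod.val_injective K (Nat.eq_of_mul_eq_mul_left hd hi)

theorem liftTors_zero : liftTors M K 0 = 0 := by
  ext i; simp [liftTors]

theorem XPair.liftTors [NeZero M] [NeZero K] (h : K ∣ M) {V W : Fin 2 → ZMod K} (hVW : XPair V W) :
    XPair (liftTors M K V) (liftTors M K W) := by
  have hz : ∀ {X : Fin 2 → ZMod K}, X ≠ 0 → LevelM.liftTors M K X ≠ 0 := fun hX h0 =>
    hX (liftTors_injective h (h0.trans liftTors_zero.symm))
  refine ⟨hz hVW.1, hz hVW.2.1, fun he => hVW.2.2.1 (liftTors_injective h he), fun he => ?_⟩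
  refine hVW.2.2.2 (eq_neg_iff_add_eq_zero.mpr (liftTors_injective h ?_))
  rw [← liftTors_add h, liftTors_zero, he, neg_add_cancel]

/-- The normalised coordinate `(x_T - x_A) / (x_B - x_A)` of a point of order dividing `M`. -/
def coordFun (M K : ℕ) (T : Fin 2 → ZMod M) : ℍ → ℂ :=
  xratio M T (liftTors M K (linePt K 1)) (liftTors M K (linePt K 0)) (liftTors M K (linePt K 1))

theorem linePt_one_pair (hK : SmallLevel K) : XPair (linePt K 0) (linePt K 1) :=
  linePt_pair hK (by rcases hK with rfl | rfl <;> decide)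

theorem coordFun_mem [NeZero M] [NeZero K] (hK : SmallLevel K) (h : K ∣ M) (hO : GoodRing M O)
    {T : Fin 2 → ZMod M} (hT : T ≠ 0) :
    coordFun M K T ∈ modularRing (CongruenceSubgroup.Gamma M) M O :=
  xratio_mem hO hT ((linePt_one_pair hK).liftTors h).2.1 ((linePt_one_pair hK).liftTors h)

theorem act_coordFun [NeZero M] [NeZero K] (h : K ∣ M) {γ : SL(2, ℤ)}
    (hγ : γ ∈ CongruenceSubgroup.Gamma K) (T : Fin 2 → ZMod M) :
    act γ (coordFun M K T) = coordFun M K (vact T γ) := by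
  rw [coordFun, act_xratio, vact_liftTors h hγ, vact_liftTors h hγ]
  rfl

/-- **The Galois identity.** -/
theorem exists_galois_identity [NeZero M] [NeZero K] (hK : SmallLevel K) (h : K ∣ M)
    (hO : GoodRing M O) :
    ∃ (n : ℕ) (x y : Fin n → ℍ → ℂ),
      (∀ i, x i ∈ modularRing (CongruenceSubgroup.Gamma M) M O) ∧
      (∀ i, y i ∈ modularRing (CongruenceSubgroup.Gamma M) M O) ∧
      ∀ γ ∈ CongruenceSubgroup.Gamma K,
        (IsTrivMod M γ → ∑ i, x i * act γ (y i) = 1) ∧
        (¬IsTrivMod M γ → ∑ i, x i * act γ (y i) = 0) := by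
  classical
  set R := modularRing (CongruenceSubgroup.Gamma M) M O
  -- the nontrivial classes
  let Q : Finset (Matrix (Fin 2) (Fin 2) (ZMod M)) := Finset.univ.filter fun g =>
    ¬(g = 1 ∨ g = -1) ∧ ∃ γ ∈ CongruenceSubgroup.Gamma K, redMat M γ = g
  have hQ : ∀ g : Q, ∃ T : Fin 2 → ZMod M, XPair (Matrix.vecMul T g.1) T := by
    intro g
    obtain ⟨hg, γ, -, hγ⟩ := (Finset.mem_filter.mp g.2).2
    obtain ⟨T, hT0, h1, h2⟩ := exists_moved hg
    refine ⟨T, ?_, hT0, h1, h2⟩
    rw [← hγ]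
    exact vact_ne_zero hT0 γ
  choose T hT using hQ
  have hBA := (linePt_one_pair hK).liftTors (M := M) h
  let a : Q → ℍ → ℂ := fun g => coordFun M K (Matrix.vecMul (T g) g.1)
  let b : Q → ℍ → ℂ := fun g => coordFun M K (T g)
  have ha : ∀ g, a g ∈ R := fun g => coordFun_mem hK h hO (hT g).1
  have hb : ∀ g, b g ∈ R := fun g => coordFun_mem hK h hO (hT g).2.1
  -- the inverse of the value at the identity
  let v : ℍ → ℂ := ∏ g : Q, xratio M (liftTors M K (linePt K 0)) (liftTors M K (linePt K 1))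
    (Matrix.vecMul (T g) g.1) (T g)
  have hv : v ∈ R := prod_mem fun g _ => xratio_mem hO hBA.1 hBA.2.1 (hT g)
  let e := Fintype.equivFin (Finset (↥Q))
  refine ⟨_, fun i => v * (∏ g ∈ e.symm i, a g) * (-1) ^ (Finset.univ \ e.symm i).card,
    fun i => ∏ g ∈ Finset.univ \ e.symm i, b g, fun i => ?_, fun i => ?_, fun γ hγ => ?_⟩
  · exact mul_mem (mul_mem hv (prod_mem fun g _ => ha g)) (pow_mem (neg_mem (one_mem R)) _)
  · exact prod_mem fun g _ => hb g
  have hsum : ∑ i, v * (∏ g ∈ e.symm i, a g) * (-1) ^ (Finset.univ \ e.symm i).card *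
      act γ (∏ g ∈ Finset.univ \ e.symm i, b g) = v * ∏ g : Q, (a g - act γ (b g)) := by
    have hp : ∏ g : Q, (a g - act γ (b g)) = ∏ g : Q, (a g + -(act γ (b g))) := by
      simp only [sub_eq_add_neg]
    rw [hp, Finset.prod_add, Finset.powerset_univ, Finset.mul_sum, ← e.symm.sum_comp]
    refine Finset.sum_congr rfl fun i _ => ?_
    rw [map_prod, Finset.prod_neg]
    ring
  have hdiff : ∀ g : Q, a g - act γ (b g) = xratio M (Matrix.vecMul (T g) g.1) (vact (T g) γ)
      (liftTors M K (linePt K 0)) (liftTors M K (linePt K 1)) := by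
    intro g
    simp only [a, b, act_coordFun h hγ]
    exact xratio_sub
  refine ⟨fun htriv => ?_, fun hnt => ?_⟩
  · rw [hsum]
    simp only [v]
    rw [← Finset.prod_mul_distrib]
    refine Finset.prod_eq_one fun g _ => ?_
    rw [show act γ (b g) = b g from htriv.act_eq (hb g).2.1]
    simp only [a, b, coordFun]
    rw [xratio_sub]
    exact xratio_mul_swap hBA (hT g)
  · rw [hsum]
    have hmem : redMat M γ ∈ Q := Finset.mem_filter.mpr ⟨Finset.mem_univ _, hnt, γ, hγ, rfl⟩
    rw [Finset.prod_eq_zero (Finset.mem_univ (⟨_, hmem⟩ : Q)), mul_zero]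
    rw [hdiff]
    funext τ
    simp [vact, xratio, xdiff]

/-- An invariant function under `Γ(M)` only sees the reduction of the acting matrix. -/
theorem act_eq_of_congr {γ γ' : SL(2, ℤ)} (he : redMat M γ = redMat M γ') {f : ℍ → ℂ}
    (hf : ∀ g ∈ CongruenceSubgroup.Gamma M, act g f = f) : act γ f = act γ' f := by
  have hmem : γ * γ'⁻¹ ∈ CongruenceSubgroup.Gamma M := by
    rw [mem_Gamma_iff_redMat, redMat_mul, he, ← redMat_mul, mul_inv_cancel, redMat_one]
  conv_lhs => rw [show γ = γ * γ'⁻¹ * γ' by group, act_mul, hf _ hmem]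

end FLTAgent.LevelM
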