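import Fermat.Agent.LevelM.TorsionLead

/-!
# Changing the width of expansions, and groups modulo `M`

For functions invariant under `Γ(K)` integrality of expansions can be tested in `q_K` or in
`q_{dK}`; `liftTors` embeds `K`-torsion into `M`-torsion.
-/

set_option autoImplicit false

noncomputable section

open Filter Complex
open UpperHalfPlane hiding I
open scoped UpperHalfPlane Real MatrixGroups Manifold

namespace FLTAgent.LevelM

variable {O : Subring ℂ}

local notation "𝕢" => Function.Periodic.qParam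

/-- An expansion in `q_{dK}` of a `K`-periodic function comes from one in `q_K`. -/
theorem HasExp.exists_descend {d K : ℕ} [NeZero d] (hK : 0 < K) {f : ℍ → ℂ} {s : LaurentSeries ℂ}
    (hs : HasExp (d * K) f s) (hper : act (ModularGroup.T ^ (K : ℤ)) f = f) :
    ∃ t : LaurentSeries ℂ, HasExp K f t ∧ ∀ n, t.coeff n = s.coeff ((d : ℤ) * n) := by
  have hd : 0 < d := Nat.pos_of_ne_zero (NeZero.ne d)
  have hdK : 0 < d * K := Nat.mul_pos hd hK
  have htw := hs.act_T (K : ℤ)
  rw [hper] at htw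
  have heq := htw.unique hdK hs
  have hzero : ∀ n : ℤ, ¬(d : ℤ) ∣ n → s.coeff n = 0 := by
    intro n hn
    have h := congrArg (fun u : LaurentSeries ℂ => u.coeff n) heq
    simp only [twist_coeff] at h
    by_contra hne
    refine hn ((zetaM_zpow_eq_one_iff hd n).mp ?_)
    have h1 := mul_left_cancel₀ hne (h.trans (mul_one _).symm)
    rw [← h1, zetaM]
    congr 2
    have hKc : (K : ℂ) ≠ 0 := by exact_mod_cast hK.ne'
    push_cast
    field_simp
  let t : LaurentSeries ℂ := HahnSeries.ofSuppBddBelow (fun n => s.coeff ((d : ℤ) * n))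
    ⟨min 0 s.order, fun n hn => by
      by_contra hlt
      push Not at hlt
      refine hn (HahnSeries.coeff_eq_zero_of_lt_order ?_)
      have hd' : (1 : ℤ) ≤ d := by exact_mod_cast hd
      have h0 : n < 0 := lt_of_lt_of_le hlt (min_le_left _ _)
      nlinarith [min_le_right (0 : ℤ) s.order]⟩
  have ht : ∀ n, t.coeff n = s.coeff ((d : ℤ) * n) := fun n => rfl
  refine ⟨t, ?_, ht⟩
  filter_upwards [hs] with τ hτ
  have hinj : Function.Injective (fun n : ℤ => (d : ℤ) * n) :=
    mul_right_injective₀ (by exact_mod_cast hd.ne')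
  refine HasSum.congr_fun ((hinj.hasSum_iff ?_).mpr hτ) fun n => ?_
  · intro k hk
    rw [hzero k fun ⟨c, hc⟩ => hk ⟨c, hc.symm⟩, zero_mul]
  · have hq : 𝕢 ((d * K : ℕ) : ℝ) (τ : ℂ) ^ d = 𝕢 (K : ℝ) (τ : ℂ) := by
      rw [Function.Periodic.qParam, Function.Periodic.qParam, ← Complex.exp_nat_mul]
      congr 1
      have hdc : (d : ℂ) ≠ 0 := by exact_mod_cast hd.ne'
      push_cast
      field_simp
    simp only [Function.comp, ht]
    rw [zpow_mul, zpow_natCast, hq]

theorem IntExp.descend {d K : ℕ} [NeZero d] (hK : 0 < K) {f : ℍ → ℂ}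
    (hf : IntExp (d * K) O f) (hper : act (ModularGroup.T ^ (K : ℤ)) f = f) : IntExp K O f := by
  obtain ⟨s, hs, hO⟩ := intExp_iff.mp hf
  obtain ⟨t, ht, hts⟩ := hs.exists_descend hK hper
  exact intExp_iff.mpr ⟨t, ht, fun n => hts n ▸ hO _⟩

theorem IntExp.qExpand {d K : ℕ} [NeZero d] {f : ℍ → ℂ} (hf : IntExp K O f) :
    IntExp (d * K) O f := by
  obtain ⟨s, hs, hO⟩ := intExp_iff.mp hf
  refine intExp_iff.mpr ⟨_, hs.qExpand d, fun n => ?_⟩
  by_cases hn : (d : ℤ) ∣ n
  · obtain ⟨m, rfl⟩ := hn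
    rw [ModularCurve.qExpand_coeff_mul]; exact hO m
  · rw [ModularCurve.qExpand_coeff_of_not_dvd _ _ hn]; exact O.zero_mem

theorem T_zpow_mem_Gamma (K : ℕ) : (ModularGroup.T ^ (K : ℤ)) ∈ CongruenceSubgroup.Gamma K := by
  rw [CongruenceSubgroup.Gamma_mem, ModularGroup.coe_T_zpow]
  simp

/-- For functions invariant under `Γ(K)`, integrality can be tested in `q_K` or in `q_{dK}`. -/
theorem modularRing_Gamma_width {d K : ℕ} [NeZero d] (hK : 0 < K) :
    modularRing (CongruenceSubgroup.Gamma K) (d * K) O =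
      modularRing (CongruenceSubgroup.Gamma K) K O := by
  ext f
  refine ⟨fun hf => ⟨hf.1, hf.2.1, fun γ => ?_⟩, fun hf =>
    ⟨hf.1, hf.2.1, fun γ => (hf.2.2 γ).qExpand⟩⟩
  refine (hf.2.2 γ).descend hK ?_
  have hmem : γ * ModularGroup.T ^ (K : ℤ) * γ⁻¹ ∈ CongruenceSubgroup.Gamma K :=
    (CongruenceSubgroup.Gamma_normal K).conj_mem _ (T_zpow_mem_Gamma K) γ
  rw [← act_mul,
    show γ * ModularGroup.T ^ (K : ℤ) = γ * ModularGroup.T ^ (K : ℤ) * γ⁻¹ * γ by group,
    act_mul, hf.2.1 _ hmem]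

/-- A good coefficient ring for `M` is good for its divisors. -/
theorem GoodRing.of_dvd {K M : ℕ} (hO : GoodRing M O) (h : K ∣ M) : GoodRing K O := by
  obtain ⟨d, rfl⟩ := h
  have hK : 0 < K := Nat.pos_of_mul_pos_right hO.pos
  have hd : 0 < d := Nat.pos_of_mul_pos_left hO.pos
  refine ⟨hK, ?_, ?_⟩
  · have : zetaM K = zetaM (K * d) ^ d := by
      rw [zetaM, zetaM, ← Complex.exp_nat_mul]
      congr 1
      have hdc : (d : ℂ) ≠ 0 := by exact_mod_cast hd.ne'
      push_cast
      field_simp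
    rw [this]
    exact O.pow_mem hO.zeta_mem d
  · have hdc : (d : ℂ) ≠ 0 := by exact_mod_cast hd.ne'
    have : (K : ℂ)⁻¹ = (d : ℂ) * ((K * d : ℕ) : ℂ)⁻¹ := by push_cast; field_simp
    rw [this]
    exact O.mul_mem (natCast_mem O d) hO.inv_mem

/-- Embedding of `K`-torsion into `M`-torsion, `M = d * K`. -/
def liftTors (M K : ℕ) (T : Fin 2 → ZMod K) : Fin 2 → ZMod M :=
  fun i => (((M / K) * (T i).val : ℕ) : ZMod M)

end FLTAgent.LevelM
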