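import Fermat.Agent.LevelM.TorsionLead

/-!
# Ratios of torsion differences: units of the level `M` rings

`xratio T U V W = (x_T - x_U) / (x_V - x_W)` is permuted by `SL(2, ℤ)` through `vact`, has
integral expansions with unit leading terms, and is a unit when both pairs are `XPair`s.
-/

set_option autoImplicit false

noncomputable section

open Filter Complex
open UpperHalfPlane hiding I
open scoped UpperHalfPlane Real MatrixGroups Manifold

namespace FLTAgent.LevelM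

variable {M : ℕ} {O : Subring ℂ}

theorem redMat_mul (γ δ : SL(2, ℤ)) : redMat M (γ * δ) = redMat M γ * redMat M δ := by
  rw [redMat, redMat, redMat, Matrix.SpecialLinearGroup.coe_mul]
  exact Matrix.map_mul (f := Int.castRingHom (ZMod M))

theorem redMat_one : redMat M 1 = 1 := by
  rw [redMat, Matrix.SpecialLinearGroup.coe_one]
  exact Matrix.map_one _ Int.cast_zero Int.cast_one

/-- The right action of `SL(2, ℤ)` on `(ℤ/M)²`. -/
def vact (T : Fin 2 → ZMod M) (γ : SL(2, ℤ)) : Fin 2 → ZMod M := Matrix.vecMul T (redMat M γ)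

theorem vact_one (T : Fin 2 → ZMod M) : vact T 1 = T := by rw [vact, redMat_one, Matrix.vecMul_one]

theorem vact_mul (T : Fin 2 → ZMod M) (γ δ : SL(2, ℤ)) : vact T (γ * δ) = vact (vact T γ) δ := by
  rw [vact, vact, vact, redMat_mul, Matrix.vecMul_vecMul]

theorem vact_injective (γ : SL(2, ℤ)) : Function.Injective fun T : Fin 2 → ZMod M => vact T γ := by
  intro T U h
  have := congrArg (fun V => vact V γ⁻¹) h
  simpa [← vact_mul, vact_one] using this

theorem vact_zero (γ : SL(2, ℤ)) : vact (0 : Fin 2 → ZMod M) γ = 0 := Matrix.zero_vecMul _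

/-- A nonzero torsion vector stays nonzero under the action. -/
theorem vact_ne_zero {T : Fin 2 → ZMod M} (hT : T ≠ 0) (γ : SL(2, ℤ)) : vact T γ ≠ 0 :=
  fun h => hT (vact_injective γ (by simpa [vact_zero] using h))

theorem vact_neg (T : Fin 2 → ZMod M) (γ : SL(2, ℤ)) : vact (-T) γ = -vact T γ :=
  Matrix.neg_vecMul _ _

theorem vact_eq_self_of_mem_Gamma {γ : SL(2, ℤ)} (hγ : γ ∈ CongruenceSubgroup.Gamma M)
    (T : Fin 2 → ZMod M) : vact T γ = T := by
  rw [CongruenceSubgroup.Gamma_mem] at hγ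
  have : redMat M γ = 1 := by
    ext i j
    fin_cases i <;> fin_cases j <;> simp [redMat, hγ.1, hγ.2.1, hγ.2.2.1, hγ.2.2.2]
  rw [vact, this, Matrix.vecMul_one]

variable [NeZero M]

theorem xdiff_smul (γ : SL(2, ℤ)) (T U : Fin 2 → ZMod M) (τ : ℍ) :
    xdiff M T U (γ • τ) = ((γ 1 0 : ℂ) * τ + γ 1 1) ^ 2 * xdiff M (vact T γ) (vact U γ) τ := by
  simp only [xdiff, Pi.sub_apply, xval_smul, vact]
  ring

theorem autFactor_ne_zero (γ : SL(2, ℤ)) (τ : ℍ) : (γ 1 0 : ℂ) * τ + γ 1 1 ≠ 0 := by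
  have := UpperHalfPlane.denom_ne_zero (Matrix.SpecialLinearGroup.mapGL ℝ γ) τ
  simpa [UpperHalfPlane.denom] using this

theorem xdiff_ne_zero {T U : Fin 2 → ZMod M} (hT : T ≠ 0) (hU : U ≠ 0) (hTU : T ≠ U)
    (hTU' : T ≠ -U) (τ : ℍ) : xdiff M T U τ ≠ 0 := by
  have hM : 0 < M := Nat.pos_of_ne_zero (NeZero.ne M)
  obtain ⟨a, b, rfl⟩ := exists_lift T
  obtain ⟨a', b', rfl⟩ := exists_lift U
  rw [Ne, lift_eq_zero_iff] at hT hU
  rw [xdiff, Pi.sub_apply, xval_intCast, xval_intCast, sub_ne_zero, Ne, xvalZ_eq_iff hM hT hU]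
  rintro (⟨h0, h1⟩ | ⟨h0, h1⟩)
  · rw [← ZMod.intCast_eq_intCast_iff_dvd_sub] at h0 h1
    exact hTU (by rw [h0, h1])
  · rw [← ZMod.intCast_zmod_eq_zero_iff_dvd] at h0 h1
    push_cast at h0 h1
    refine hTU' (funext fun i => ?_)
    fin_cases i
    · show (a : ZMod M) = -(a' : ZMod M)
      linear_combination h0
    · show (b : ZMod M) = -(b' : ZMod M)
      linear_combination h1

theorem mdifferentiable_xdiff {T U : Fin 2 → ZMod M} (hT : T ≠ 0) (hU : U ≠ 0) :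
    MDiff (xdiff M T U) := by
  obtain ⟨a, b, rfl⟩ := exists_lift T
  obtain ⟨a', b', rfl⟩ := exists_lift U
  rw [Ne, lift_eq_zero_iff] at hT hU
  rw [xdiff, xval_intCast, xval_intCast]
  exact mdifferentiable_xvalZ_sub (Nat.pos_of_ne_zero (NeZero.ne M)) hT hU

theorem intExp_xdiff (hO : GoodRing M O) {T U : Fin 2 → ZMod M} (hT : T ≠ 0) (hU : U ≠ 0) :
    IntExp M O (xdiff M T U) := by
  obtain ⟨a, b, rfl⟩ := exists_lift T
  obtain ⟨a', b', rfl⟩ := exists_lift U
  rw [Ne, lift_eq_zero_iff] at hT hU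
  rw [xdiff, xval_intCast, xval_intCast]
  exact intExp_iff.mpr ⟨_, hasExp_xvalZ_sub hO.pos hT hU, hasExp_sub_mem hO hT hU⟩

theorem mdifferentiable_fun_inv {f : ℍ → ℂ} (hf : MDiff f) (h0 : ∀ τ, f τ ≠ 0) :
    MDiff f⁻¹ := by
  rw [UpperHalfPlane.mdifferentiable_iff] at hf ⊢
  exact hf.inv fun z _ => h0 _

variable (M)

/-- `(x_T - x_U) / (x_V - x_W)`. -/
def xratio (T U V W : Fin 2 → ZMod M) : ℍ → ℂ := xdiff M T U / xdiff M V W

variable {M}

theorem act_xratio (γ : SL(2, ℤ)) (T U V W : Fin 2 → ZMod M) :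
    act γ (xratio M T U V W) = xratio M (vact T γ) (vact U γ) (vact V γ) (vact W γ) := by
  funext τ
  simp only [act_apply, xratio, Pi.div_apply, xdiff_smul]
  exact mul_div_mul_left _ _ (pow_ne_zero 2 (autFactor_ne_zero γ τ))

/-- The data `(V, W)` of a legal denominator. -/
def XPair (V W : Fin 2 → ZMod M) : Prop := V ≠ 0 ∧ W ≠ 0 ∧ V ≠ W ∧ V ≠ -W

omit [NeZero M] in
theorem XPair.vact {V W : Fin 2 → ZMod M} (h : XPair V W) (γ : SL(2, ℤ)) :
    XPair (vact V γ) (vact W γ) :=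
  ⟨vact_ne_zero h.1 γ, vact_ne_zero h.2.1 γ, fun he => h.2.2.1 (vact_injective γ he),
    fun he => h.2.2.2 (vact_injective γ (by simpa [vact_neg] using he))⟩

theorem intExp_xratio (hO : GoodRing M O) {T U V W : Fin 2 → ZMod M} (hT : T ≠ 0) (hU : U ≠ 0)
    (hVW : XPair V W) : IntExp M O (xratio M T U V W) := by
  obtain ⟨c, hc, hL⟩ := exists_lead_xdiff hO hVW.1 hVW.2.1 hVW.2.2.1 hVW.2.2.2
  rw [xratio, div_eq_mul_inv]
  exact (intExp_xdiff hO hT hU).mul (hL.inv hO.pos hc).intExp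

/-- The order at `i∞` of `x_T - x_U`. -/
def xord (T U : Fin 2 → ZMod M) : ℕ := min (T 0).valMinAbs.natAbs (U 0).valMinAbs.natAbs

omit [NeZero M] in
theorem exists_lead_xratio (hO : GoodRing M O) {T U V W : Fin 2 → ZMod M} (hTU : XPair T U)
    (hVW : XPair V W) :
    ∃ c, IsUnitIn O c ∧ Lead M O (xratio M T U V W) ((xord T U : ℤ) - xord V W) c := by
  obtain ⟨c, hc, hL⟩ := exists_lead_xdiff hO hTU.1 hTU.2.1 hTU.2.2.1 hTU.2.2.2
  obtain ⟨d, hd, hL'⟩ := exists_lead_xdiff hO hVW.1 hVW.2.1 hVW.2.2.1 hVW.2.2.2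
  exact ⟨c / d, hc.div hd, hL.div hO.pos hL' hd⟩

theorem mdifferentiable_xratio {T U V W : Fin 2 → ZMod M} (hT : T ≠ 0) (hU : U ≠ 0)
    (hVW : XPair V W) : MDiff (xratio M T U V W) := by
  rw [xratio, div_eq_mul_inv]
  exact (mdifferentiable_xdiff hT hU).mul (mdifferentiable_fun_inv
    (mdifferentiable_xdiff hVW.1 hVW.2.1) (xdiff_ne_zero hVW.1 hVW.2.1 hVW.2.2.1 hVW.2.2.2))

/-- Torsion ratios lie in the ring of any group fixing them. -/
theorem xratio_mem_of_fixed (hO : GoodRing M O) {Γ : Subgroup SL(2, ℤ)}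
    {T U V W : Fin 2 → ZMod M} (hT : T ≠ 0) (hU : U ≠ 0) (hVW : XPair V W)
    (hfix : ∀ γ ∈ Γ, act γ (xratio M T U V W) = xratio M T U V W) :
    xratio M T U V W ∈ modularRing Γ M O := by
  refine ⟨mdifferentiable_xratio hT hU hVW, hfix, fun γ => ?_⟩
  rw [act_xratio]
  exact intExp_xratio hO (vact_ne_zero hT γ) (vact_ne_zero hU γ) (hVW.vact γ)

theorem xratio_mem (hO : GoodRing M O) {T U V W : Fin 2 → ZMod M} (hT : T ≠ 0) (hU : U ≠ 0)
    (hVW : XPair V W) : xratio M T U V W ∈ modularRing (CongruenceSubgroup.Gamma M) M O := by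
  refine xratio_mem_of_fixed hO hT hU hVW fun γ hγ => ?_
  rw [act_xratio]
  simp only [vact_eq_self_of_mem_Gamma hγ]

theorem xratio_mul_swap {T U V W : Fin 2 → ZMod M} (hTU : XPair T U) (hVW : XPair V W) :
    xratio M T U V W * xratio M V W T U = 1 := by
  funext τ
  have h1 := xdiff_ne_zero hTU.1 hTU.2.1 hTU.2.2.1 hTU.2.2.2 τ
  have h2 := xdiff_ne_zero hVW.1 hVW.2.1 hVW.2.2.1 hVW.2.2.2 τ
  simp only [xratio, Pi.mul_apply, Pi.div_apply, Pi.one_apply]
  field_simp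

omit [NeZero M] in
theorem xratio_sub {T U X V W : Fin 2 → ZMod M} :
    xratio M T X V W - xratio M U X V W = xratio M T U V W := by
  funext τ
  simp only [xratio, xdiff, Pi.sub_apply, Pi.div_apply]
  rw [← sub_div]
  ring

end FLTAgent.LevelM
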