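import Mathlib.RingTheory.IntegralClosure.IntegrallyClosed
import Mathlib.RingTheory.Polynomial.ScaleRoots
import Mathlib.Algebra.Polynomial.Lifts

/-!
# Integral closedness of the image of a localised integrally closed domain

A fraction integral over a ring of fractions with denominator a power of `D` is itself such a
fraction (`exists_mul_pow_mem_range_of_isIntegralElem`); used for the level rings and in
`CarayolSquare`.
-/

set_option autoImplicit false

noncomputable section

namespace FLTAgent.LevelM

/-- Let `φ : S →+* F` be injective, `S` integrally closed, and `R ⊆ F` a subring all of whose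
elements become elements of `φ S` after multiplication by a power of `δ = φ D`.  An element of the
fraction field of `φ S` integral over `R` becomes an element of `φ S` in the same way. -/
theorem exists_mul_pow_mem_range_of_isIntegralElem {S F T : Type*} [CommRing S] [IsDomain S]
    [IsIntegrallyClosed S] [Field F] [CommRing T] (φ : S →+* F) (hφ : Function.Injective φ)
    (ρ : T →+* F) (D : S)
    (hρ : ∀ t, ∃ (n : ℕ) (p : S), ρ t * φ D ^ n = φ p)
    {z : F} {a b : S} (hb : b ≠ 0) (hz : z * φ b = φ a) (hint : ρ.IsIntegralElem z) :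
    ∃ (n : ℕ) (p : S), z * φ D ^ n = φ p := by
  classical
  obtain ⟨P, hPm, hP⟩ := hint
  choose e p hp using hρ
  set N := ∑ i ∈ Finset.range (P.natDegree + 1), e (P.coeff i) with hN
  set δ := φ D ^ N with hδ
  set Q : Polynomial F := (P.map ρ).scaleRoots δ with hQ
  have hQm : Q.Monic := (Polynomial.monic_scaleRoots_iff _).mpr (hPm.map _)
  have hroot : Q.eval (δ * z) = 0 := by
    rw [hQ, Polynomial.scaleRoots_eval_mul, Polynomial.eval_map, hP, mul_zero]
  have hlift : Q ∈ Polynomial.lifts φ := by
    rw [Polynomial.lifts_iff_coeff_lifts]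
    intro i
    rw [hQ, Polynomial.coeff_scaleRoots, Polynomial.coeff_map, hPm.natDegree_map]
    rcases lt_trichotomy i P.natDegree with hi | rfl | hi
    · have hle : e (P.coeff i) ≤ N :=
        Finset.single_le_sum (f := fun i => e (P.coeff i)) (fun _ _ => Nat.zero_le _)
          (Finset.mem_range.mpr (by omega))
      refine ⟨p (P.coeff i) * D ^ (N * (P.natDegree - i) - e (P.coeff i)), ?_⟩
      rw [map_mul, map_pow, ← hp, mul_assoc, ← pow_add, hδ, ← pow_mul]
      congr 2
      have : N ≤ N * (P.natDegree - i) := Nat.le_mul_of_pos_right N (by omega)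
      omega
    · exact ⟨1, by rw [map_one, Nat.sub_self, pow_zero, mul_one, hPm.coeff_natDegree, map_one]⟩
    · exact ⟨0, by rw [map_zero, Polynomial.coeff_eq_zero_of_natDegree_lt hi, map_zero, zero_mul]⟩
  obtain ⟨q, hqQ, -, hqm⟩ := Polynomial.lifts_and_natDegree_eq_and_monic hlift hQm
  let ψ : FractionRing S →+* F := IsFractionRing.lift hφ
  set x : FractionRing S :=
    algebraMap S (FractionRing S) (D ^ N * a) / algebraMap S (FractionRing S) b with hx
  have hψx : ψ x = δ * z := by
    rw [hx, map_div₀]
    simp only [ψ, IsFractionRing.lift_algebraMap, map_mul, map_pow, ← hδ, ← hz]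
    have : φ b ≠ 0 := fun h0 => hb (hφ (h0.trans φ.map_zero.symm))
    field_simp
  have hxint : IsIntegral S x := by
    refine ⟨q, hqm, ψ.injective ?_⟩
    rw [map_zero, Polynomial.hom_eval₂, hψx]
    have : ψ.comp (algebraMap S (FractionRing S)) = φ :=
      RingHom.ext fun s => IsFractionRing.lift_algebraMap hφ s
    rw [this, Polynomial.eval₂_eq_eval_map, hqQ, hroot]
  obtain ⟨s, hs⟩ := IsIntegrallyClosed.isIntegral_iff.mp hxint
  refine ⟨N, s, ?_⟩
  rw [mul_comm, ← hδ, ← hψx, ← hs]
  exact IsFractionRing.lift_algebraMap hφ s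

end FLTAgent.LevelM
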