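import Fermat.Agent.LevelM.ConcreteRing
import Fermat.Agent.LevelM.LocalisedNormal
import Fermat.Agent.GoodReduction.Divisible

/-!
# The level `M` ring satisfies `GoodReduction.LevelData`

`levelJ` is `j` in the level `M` ring. For `K ∈ {2, 3}` dividing `M` the ring is Galois over
the ring of `Γ(K)`, whose structure is known, and its level one elements are polynomials in `j`;
together these give `levelData`.
-/

set_option autoImplicit false

noncomputable section

open Filter Complex
open UpperHalfPlane hiding I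
open scoped UpperHalfPlane Real MatrixGroups Manifold
open FLTAgent.GoodReduction

namespace FLTAgent.LevelM

variable {L : Type*} [Field L] {A : ValuationSubring L} {ι : L →+* ℂ} {M K : ℕ}

local notation "k_A" => IsLocalRing.ResidueField A

/-- The function `j` in the level `M` ring. -/
def levelJ (A : ValuationSubring L) (ι : L →+* ℂ) (M : ℕ) [NeZero M] : LevelRing A ι M :=
  ⟨FLTAgent.ModularFF.jFun, jFun_mem _ M⟩

theorem levelExp_levelJ [NeZero M] :
    levelExp A ι M (levelJ A ι M) = ModularCurve.qExpand A M (ModularCurve.jqModC A) := by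
  refine levelExp_eq _ ?_
  have h := hasExp_jFun.qExpand M
  rw [mul_one] at h
  rw [ModularCurve.coeffMap_qExpand, ModularCurve.coeffMap_jqModC]
  exact h

theorem levelExp_levelJ_lead [NeZero M] :
    (levelExp A ι M (levelJ A ι M)).coeff (-(M : ℤ)) = 1 ∧
      ∀ n : ℤ, n < -(M : ℤ) → (levelExp A ι M (levelJ A ι M)).coeff n = 0 := by
  rw [levelExp_levelJ]
  refine ⟨?_, fun n hn => ?_⟩
  · rw [show -(M : ℤ) = (M : ℤ) * (-1) by ring, ModularCurve.qExpand_coeff_mul,
      ModularCurve.coeff_jqModC_neg_one]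
  · by_cases hd : (M : ℤ) ∣ n
    · obtain ⟨m, rfl⟩ := hd
      rw [ModularCurve.qExpand_coeff_mul]
      refine ModularCurve.coeff_jqModC_of_lt A ?_
      have hM : (0 : ℤ) < M := by exact_mod_cast Nat.pos_of_ne_zero (NeZero.ne M)
      nlinarith
    · exact ModularCurve.qExpand_coeff_of_not_dvd _ _ hd

theorem levelGroup_smul_eq_self_iff (γ : SL(2, ℤ)) (f : LevelRing A ι M) :
    ((levelAutHom A ι M).rangeRestrict γ) • f = f ↔ act γ⁻¹ (f : ℍ → ℂ) = f :=
  Subtype.ext_iff

theorem smul_levelAlgebraMap (g : LevelGroup A ι M) (a : A) :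
    g • algebraMap A (LevelRing A ι M) a = algebraMap A (LevelRing A ι M) a := by
  obtain ⟨γ, rfl⟩ := exists_smul_eq g
  exact (levelGroup_smul_eq_self_iff γ _).mpr rfl

theorem smul_levelJ [NeZero M] (g : LevelGroup A ι M) : g • levelJ A ι M = levelJ A ι M := by
  obtain ⟨γ, rfl⟩ := exists_smul_eq g
  exact (levelGroup_smul_eq_self_iff γ _).mpr (act_jFun _)

theorem coe_eval₂_levelRing (f : LevelRing A ι M) (P : Polynomial A) :
    ((Polynomial.eval₂ (algebraMap A (LevelRing A ι M)) f P : LevelRing A ι M) : ℍ → ℂ) =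
      Polynomial.aeval (f : ℍ → ℂ) (P.map (coeffHom A ι)) := by
  show (levelSubring A ι M).subtype _ = _
  rw [Polynomial.hom_eval₂, Polynomial.aeval_def, Polynomial.eval₂_map]
  rfl

/-- Lift to `A` of a polynomial with coefficients in the image. -/
theorem exists_map_eq {P : Polynomial ℂ} (hP : ∀ i, P.coeff i ∈ coeffRing A ι) :
    ∃ Q : Polynomial A, Q.map (coeffHom A ι) = P :=
  (Polynomial.mem_lifts _).mp ((Polynomial.lifts_iff_coeff_lifts _).mpr fun i => by
    obtain ⟨a, ha, hai⟩ := hP i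
    exact ⟨⟨a, ha⟩, hai⟩)

variable [NeZero M]

/-- **Level one elements are polynomials in `j`.** -/
theorem levelOne_polynomial (f : LevelRing A ι M) (hf : ∀ g : LevelGroup A ι M, g • f = f) :
    ∃ P : Polynomial A,
      f = Polynomial.eval₂ (algebraMap A (LevelRing A ι M)) (levelJ A ι M) P := by
  obtain ⟨P, hP, hfP⟩ := exists_polynomial_of_invariant f.2 fun γ => by
    have := (levelGroup_smul_eq_self_iff γ⁻¹ f).mp (hf _)
    rwa [inv_inv] at this
  obtain ⟨Q, rfl⟩ := exists_map_eq hP
  refine ⟨Q, Subtype.ext ?_⟩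
  rw [coe_eval₂_levelRing]
  funext τ
  rw [hfP τ, Polynomial.aeval_fn_apply, Polynomial.aeval_def, Polynomial.eval₂_eq_eval_map]
  simp [levelJ]

/-- The Galois identity, in terms of the finite group. -/
theorem levelRing_galois [NeZero K] (hK : SmallLevel K) (hdvd : K ∣ M)
    (hO : GoodRing M (coeffRing A ι)) :
    ∃ (I : Type) (_ : Fintype I) (x y : I → LevelRing A ι M), ∑ i, x i * y i = 1 ∧
      ∀ g : levelSubgroup A ι M K, g ≠ 1 → ∑ i, x i * g • y i = 0 := by
  obtain ⟨n, x, y, hx, hy, hid⟩ := exists_galois_identity hK hdvd hO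
  let X : Fin n → LevelRing A ι M := fun i => ⟨x i, hx i⟩
  let Y : Fin n → LevelRing A ι M := fun i => ⟨y i, hy i⟩
  refine ⟨Fin n, inferInstance, X, Y, ?_, ?_⟩
  · refine Subtype.ext ?_
    show (levelSubring A ι M).subtype _ = 1
    rw [map_sum]
    simp only [map_mul, Subring.subtype_apply, X, Y]
    have := (hid 1 (one_mem _)).1 (Or.inl redMat_one)
    simpa [act_one] using this
  · rintro ⟨g, hg⟩ hne
    obtain ⟨γ, hγ, rfl⟩ := Subgroup.mem_map.mp hg
    have hnt : ¬IsTrivMod M γ⁻¹ := by
      intro ht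
      refine hne (Subtype.ext (Subtype.ext (RingEquiv.ext fun f => Subtype.ext ?_)))
      exact ht.act_eq f.2.2.1
    refine Subtype.ext ?_
    show (levelSubring A ι M).subtype _ = 0
    rw [map_sum]
    have := (hid γ⁻¹ (inv_mem hγ)).2 hnt
    rw [← this]
    refine Finset.sum_congr rfl fun i _ => ?_
    rfl

/-- Invariant elements lie in the ring of `Γ(K)`. -/
theorem coe_mem_of_invariant [NeZero K] (hK : SmallLevel K) (hdvd : K ∣ M) {r : LevelRing A ι M}
    (hr : ∀ g : levelSubgroup A ι M K, g • r = r) :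
    (r : ℍ → ℂ) ∈ modularRing (CongruenceSubgroup.Gamma K) K (coeffRing A ι) := by
  obtain ⟨d, hd⟩ := hdvd
  have : NeZero d := ⟨fun h0 => NeZero.ne M (by rw [hd, h0, mul_zero])⟩
  rw [← modularRing_Gamma_width (d := d) hK.pos, mul_comm d K, ← hd]
  refine ⟨r.2.1, fun γ hγ => ?_, r.2.2.2⟩
  have hmem : (levelAutHom A ι M).rangeRestrict γ⁻¹ ∈ levelSubgroup A ι M K :=
    Subgroup.mem_map.mpr ⟨γ⁻¹, inv_mem hγ, rfl⟩
  have := congrArg Subtype.val (hr ⟨_, hmem⟩)
  rw [Subgroup.mk_smul, levelGroup_smul, inv_inv] at this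
  exact this

/-- Everything needed about the ring of `Γ(K)` inside the level `M` ring. -/
theorem exists_hauptmodul_data [NeZero K] (hK : SmallLevel K) (hdvd : K ∣ M)
    (hO : GoodRing M (coeffRing A ι)) :
    ∃ (u w : LevelRing A ι M) (D : Polynomial A),
      (∀ g : levelSubgroup A ι M K, g • u = u) ∧ (∀ g : levelSubgroup A ι M K, g • w = w) ∧
      w * Polynomial.eval₂ (algebraMap A (LevelRing A ι M)) u D = 1 ∧
      (∀ P : Polynomial A, (redHom (levelExp A ι M))
          (Polynomial.eval₂ (algebraMap A (LevelRing A ι M)) u P) = 0 →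
        ∀ i, P.coeff i ∈ IsLocalRing.maximalIdeal A) ∧
      ∀ r : LevelRing A ι M, (∀ g : levelSubgroup A ι M K, g • r = r) →
        ∃ (n : ℕ) (P : Polynomial A),
          r * Polynomial.eval₂ (algebraMap A (LevelRing A ι M)) u D ^ n =
            Polynomial.eval₂ (algebraMap A (LevelRing A ι M)) u P := by
  have hOK := hO.of_dvd hdvd
  obtain ⟨c, d, hc, hd, hrel, -⟩ := exists_hmod_relation hK hOK
  obtain ⟨w, hw, hwD⟩ := exists_cuspPoly_inv hK hOK hd hrel
  obtain ⟨e, rfl⟩ := hdvd
  have : NeZero e := ⟨fun h0 => NeZero.ne (K * e) (by rw [h0, mul_zero])⟩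
  have hlift : ∀ f ∈ modularRing (CongruenceSubgroup.Gamma K) K (coeffRing A ι),
      f ∈ levelSubring A ι (K * e) := by
    intro f hf
    rw [← modularRing_Gamma_width (d := e) hK.pos, mul_comm e K] at hf
    refine ⟨hf.1, fun γ hγ => hf.2.1 γ ?_, hf.2.2⟩
    rw [mem_Gamma_iff_redMat] at hγ ⊢
    have h := congrArg (fun m : Matrix (Fin 2) (Fin 2) (ZMod (K * e)) =>
      m.map (ZMod.castHom (dvd_mul_right K e) (ZMod K))) hγ
    simp only [redMat, Matrix.map_map] at h
    rw [Matrix.map_one _ (map_zero _) (map_one _)] at h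
    rw [redMat, ← h]
    ext i j
    simp
  let u : LevelRing A ι (K * e) := ⟨hmod K, hlift _ (hgen_mem hK hOK 0)⟩
  let W : LevelRing A ι (K * e) := ⟨w, hlift _ hw⟩
  obtain ⟨D, hD⟩ := exists_map_eq (cuspPoly_coeff_mem hc)
  have hfix : ∀ {f : ℍ → ℂ} (hf : f ∈ modularRing (CongruenceSubgroup.Gamma K) K (coeffRing A ι))
      (g : levelSubgroup A ι (K * e) K), g • (⟨f, hlift f hf⟩ : LevelRing A ι (K * e)) =
        ⟨f, hlift f hf⟩ := by
    rintro f hf ⟨g, hg⟩
    obtain ⟨γ, hγ, rfl⟩ := Subgroup.mem_map.mp hg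
    exact Subtype.ext (hf.2.1 _ (inv_mem hγ))
  refine ⟨u, W, D, hfix (hgen_mem hK hOK 0), hfix hw, Subtype.ext ?_, fun P hP => ?_,
    fun r hr => ?_⟩
  · rw [Subring.coe_mul, coe_eval₂_levelRing, hD]
    exact hwD
  · -- coefficients of a polynomial in the Hauptmodul can be read off at `∞`
    obtain ⟨l, hl, s, hs, hsO, hs1, hs2⟩ := lead_hgen hK hOK 0 0
    rw [if_pos rfl] at hs1 hs2
    rw [cuspRep, if_pos rfl, act_one] at hs
    let I : AddSubgroup ℂ := (IsLocalRing.maximalIdeal A).toAddSubgroup.map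
      (coeffHom A ι).toAddMonoidHom
    have hmulI : ∀ a ∈ coeffRing A ι, ∀ x ∈ I, a * x ∈ I := by
      rintro a ⟨b, hb, rfl⟩ x ⟨y, hy, rfl⟩
      exact ⟨⟨b, hb⟩ * y, Ideal.mul_mem_left _ _ hy, map_mul (coeffHom A ι) _ _⟩
    have key : ∀ i, (P.map (coeffHom A ι)).coeff i ∈ I := by
      refine coeff_mem_of_polySeries hmulI hsO hs1 (hs2 ▸ hl) _ fun m => ?_
      have h1 := (hs.aeval (P.map (coeffHom A ι))).qExpand e
      have h2 := hasExp_levelExp (Polynomial.eval₂ (algebraMap A (LevelRing A ι (K * e))) u P)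
      rw [coe_eval₂_levelRing] at h2
      rw [mul_comm e K] at h1
      have h3 := congrArg (fun t : LaurentSeries ℂ => t.coeff ((e : ℤ) * m))
        (h1.unique (Nat.pos_of_ne_zero (NeZero.ne (K * e))) h2)
      simp only [ModularCurve.qExpand_coeff_mul, ModularCurve.coeffMap_coeff] at h3
      exact ⟨_, (redHom_eq_zero_iff _ _).mp hP ((e : ℤ) * m), h3.symm⟩
    intro i
    obtain ⟨y, hy, hyi⟩ := key i
    rw [Polynomial.coeff_map] at hyi
    rwa [← coeffHom_injective A ι hyi]
  · obtain ⟨n, P, hP, hrP⟩ := exists_polynomial_repr hK hOK hc hd hrel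
      (coe_mem_of_invariant hK (dvd_mul_right K e) hr)
    obtain ⟨Q, rfl⟩ := exists_map_eq hP
    refine ⟨n, Q, Subtype.ext ?_⟩
    rw [Subring.coe_mul, SubmonoidClass.coe_pow, coe_eval₂_levelRing, coe_eval₂_levelRing, hD]
    exact hrP

/-- **The level `M` data.** -/
theorem levelData [NeZero K] (hK : SmallLevel K) (hdvd : K ∣ M)
    (hO : GoodRing M (coeffRing A ι))
    (hrk : ∀ ϖ : A, ϖ ∈ IsLocalRing.maximalIdeal A → ∀ a : A, a ≠ 0 → ∃ n : ℕ, a ∣ ϖ ^ n)
    (hmax : ∃ ϖ : A, ϖ ∈ IsLocalRing.maximalIdeal A ∧ ϖ ≠ 0)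
    [Fintype (levelSubgroup A ι M K)] :
    LevelData (levelSubgroup A ι M K) (levelExp A ι M) (levelJ A ι M) := by
  classical
  obtain ⟨u, w, D, hu, hw, hwD, hread, hrepr⟩ := exists_hauptmodul_data hK hdvd hO
  set φA := Polynomial.eval₂RingHom (algebraMap A (LevelRing A ι M)) u with hφA
  have hev : ∀ P : Polynomial A, Polynomial.eval₂ (algebraMap A (LevelRing A ι M)) u P = φA P :=
    fun _ => rfl
  simp only [hev] at hwD hread hrepr
  have hinvφ : ∀ (g : levelSubgroup A ι M K) (P : Polynomial A), g • φA P = φA P := by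
    intro g P
    induction P using Polynomial.induction_on' with
    | add p q hp hq => rw [map_add, smul_add, hp, hq]
    | monomial n a =>
      rw [hφA, Polynomial.coe_eval₂RingHom, Polynomial.eval₂_monomial, smul_mul', smul_pow', hu,
        Subgroup.smul_def, smul_levelAlgebraMap]
  refine
    { ev_algebraMap := levelExp_algebraMap
      ev_injective := levelExp_injective
      smul_algebraMap := smul_levelAlgebraMap
      rank_one := hrk
      exists_maximal_ne_zero := hmax
      galois := levelRing_galois hK hdvd hO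
      red_invariant := fun r hr hr0 => ?_
      normal_invariant := fun z r₁ r₂ h₁ h₂ hne hz hint => ?_
      level_one := levelOne_polynomial
      smul_j := smul_levelJ
      ev_j := ⟨M, Nat.pos_of_ne_zero (NeZero.ne M), levelExp_levelJ_lead.1,
        levelExp_levelJ_lead.2⟩ }
  · -- divisibility of invariants with zero reduction
    obtain ⟨n, P, hP⟩ := hrepr r hr
    have hP0 : redHom (levelExp A ι M) (φA P) = 0 := by rw [← hP, map_mul, hr0, zero_mul]
    have hcoeff := hread P hP0
    obtain ⟨a, ha, -, hdiv⟩ := exists_common_divisor P.support (fun i => P.coeff i)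
      (fun i _ => hcoeff i) hmax
    obtain ⟨Q, hQ⟩ : ∃ Q : Polynomial A, P = Polynomial.C a * Q := by
      refine (Polynomial.C_dvd_iff_dvd_coeff a P).mpr fun i => ?_
      by_cases hi : i ∈ P.support
      · exact hdiv i hi
      · rw [Polynomial.notMem_support_iff.mp hi]; exact dvd_zero a
    refine ⟨a, ha, φA Q * w ^ n, ?_⟩
    calc r = r * (w * φA D) ^ n := by rw [hwD, one_pow, mul_one]
      _ = (r * φA D ^ n) * w ^ n := by rw [mul_pow]; ring
      _ = algebraMap A (LevelRing A ι M) a * (φA Q * w ^ n) := by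
        rw [hP, hQ, map_mul]
        simp only [hφA, Polynomial.coe_eval₂RingHom, Polynomial.eval₂_C]
        ring
  · -- normality of the reduction
    let red := redHom (levelExp A ι M)
    let φk : Polynomial k_A →+* LaurentSeries k_A := Polynomial.eval₂RingHom HahnSeries.C (red u)
    have hfac : ∀ P : Polynomial A, red (φA P) = φk (P.map (IsLocalRing.residue A)) := by
      intro P
      simp only [φk, hφA, Polynomial.coe_eval₂RingHom, Polynomial.eval₂_map]
      rw [Polynomial.hom_eval₂]
      congr 1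
      refine RingHom.ext fun a => ?_
      rw [RingHom.comp_apply, RingHom.comp_apply, redHom_apply, levelExp_algebraMap,
        HahnSeries.C_apply, ModularCurve.coeffMap_single, HahnSeries.C_apply]
    have hinj : Function.Injective φk := by
      rw [injective_iff_map_eq_zero]
      intro p hp
      obtain ⟨P, rfl⟩ := Polynomial.map_surjective _ IsLocalRing.residue_surjective p
      ext i
      rw [Polynomial.coeff_map, Polynomial.coeff_zero, IsLocalRing.residue_eq_zero_iff]
      exact hread P ((hfac P).trans hp) i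
    set Dk := D.map (IsLocalRing.residue A)
    have hwk : red w * φk Dk = 1 := by rw [← hfac, ← map_mul, hwD, map_one]
    have hrep : ∀ t : FixedPoints.subring (LevelRing A ι M) (levelSubgroup A ι M K),
        ∃ (n : ℕ) (p : Polynomial k_A),
          (red.comp (FixedPoints.subring (LevelRing A ι M) (levelSubgroup A ι M K)).subtype) t *
            φk Dk ^ n = φk p := by
      rintro ⟨t, ht⟩
      obtain ⟨n, P, hP⟩ := hrepr t ht
      refine ⟨n, P.map (IsLocalRing.residue A), ?_⟩
      rw [← hfac, ← hfac, ← map_pow, ← hP, RingHom.comp_apply, map_mul]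
      rfl
    obtain ⟨n₁, P₁, hP₁⟩ := hrepr r₁ h₁
    obtain ⟨n₂, P₂, hP₂⟩ := hrepr r₂ h₂
    have hb : (P₁.map (IsLocalRing.residue A)) * Dk ^ n₂ ≠ 0 := by
      intro h0
      have := congrArg φk h0
      rw [map_mul, map_pow, ← hfac, ← hP₁, map_mul, map_pow, hfac, map_zero, mul_assoc,
        ← pow_add] at this
      have hne' : φk Dk ≠ 0 := fun h => by rw [h, mul_zero] at hwk; exact zero_ne_one hwk
      exact (mul_eq_zero.mp this).elim hne (pow_ne_zero _ hne')
    obtain ⟨n, p, hp⟩ := exists_mul_pow_mem_range_of_isIntegralElem φk hinj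
      (red.comp (FixedPoints.subring (LevelRing A ι M) (levelSubgroup A ι M K)).subtype) Dk hrep
      (z := z) (a := P₂.map (IsLocalRing.residue A) * Dk ^ n₁) hb (by
        simp only [map_mul, map_pow]
        rw [← hfac P₁, ← hfac P₂, ← hP₁, ← hP₂, map_mul, map_mul, map_pow, map_pow, hfac]
        rw [show red r₂ = z * red r₁ from hz.symm]
        ring) hint
    obtain ⟨P, rfl⟩ := Polynomial.map_surjective _ IsLocalRing.residue_surjective p
    refine ⟨φA P * w ^ n, fun g => ?_, ?_⟩
    · rw [smul_mul', smul_pow', hw, hinvφ]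
    · show red _ = z
      rw [map_mul, map_pow, hfac, ← hp, mul_assoc, ← mul_pow, mul_comm (φk Dk), hwk, one_pow,
        mul_one]

end FLTAgent.LevelM
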