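import Mathlib.NumberTheory.ModularForms.QExpansion
import Mathlib.RingTheory.LaurentSeries
import Fermat.Prelude.Def_ModularCurve_LaurentCoeff
import Fermat.Prelude.Def_ModularCurve_X0

/-!
# Laurent `q`-expansions of functions on the upper half plane

`HasExp h f s` says that `f τ = ∑ s_n q^n` with `q = exp (2πiτ/h)` for `Im τ` large.
-/

set_option autoImplicit false

noncomputable section

open scoped UpperHalfPlane Topology
open Filter UpperHalfPlane Function.Periodic

namespace FLTAgent.LevelM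

local notation "𝕢" => Function.Periodic.qParam

/-- `f` is given near `i∞` by the Laurent series `s` in `q_h = exp (2πiτ/h)`. -/
def HasExp (h : ℕ) (f : ℍ → ℂ) (s : LaurentSeries ℂ) : Prop :=
  ∀ᶠ τ : ℍ in atImInfty, HasSum (fun n : ℤ => s.coeff n * 𝕢 (h : ℝ) τ ^ n) (f τ)

variable {h : ℕ} {f g : ℍ → ℂ} {s t : LaurentSeries ℂ}

/-- Expansions only depend on the function near the cusp. -/
theorem HasExp.congr (hs : HasExp h f s) (hfg : f =ᶠ[atImInfty] g) : HasExp h g s := by
  filter_upwards [hs, hfg] with τ h1 h2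
  rwa [← h2]

theorem hasExp_single (h : ℕ) (m : ℤ) (c : ℂ) :
    HasExp h (fun τ => c * 𝕢 (h : ℝ) τ ^ m) (HahnSeries.single m c) := by
  refine Eventually.of_forall fun τ => ?_
  have := hasSum_single m (f := fun n : ℤ => (HahnSeries.single m c).coeff n * 𝕢 (h : ℝ) τ ^ n)
    (fun n hn => by rw [HahnSeries.coeff_single_of_ne hn, zero_mul])
  simpa using this

/-- The expansion of a constant. -/
theorem hasExp_C (h : ℕ) (c : ℂ) : HasExp h (fun _ => c) (HahnSeries.C c) := by
  simpa [HahnSeries.C_apply] using hasExp_single h 0 c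

/-- The expansion of zero. -/
theorem hasExp_zero (h : ℕ) : HasExp h 0 0 := by
  refine Eventually.of_forall fun τ => ?_
  simp

/-- The expansion of one. -/
theorem hasExp_one (h : ℕ) : HasExp h 1 1 := by
  have := hasExp_single h 0 1
  simpa [Pi.one_def] using this

theorem HasExp.add (hs : HasExp h f s) (ht : HasExp h g t) : HasExp h (f + g) (s + t) := by
  filter_upwards [hs, ht] with τ h1 h2
  simpa [add_mul] using h1.add h2

theorem HasExp.neg (hs : HasExp h f s) : HasExp h (-f) (-s) := by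
  filter_upwards [hs] with τ h1
  simpa [neg_mul] using h1.neg

theorem HasExp.sub (hs : HasExp h f s) (ht : HasExp h g t) : HasExp h (f - g) (s - t) := by
  simpa [sub_eq_add_neg] using hs.add ht.neg

theorem HasExp.mul (hs : HasExp h f s) (ht : HasExp h g t) : HasExp h (f * g) (s * t) := by
  filter_upwards [hs, ht] with τ h1 h2
  set q := 𝕢 (h : ℝ) (τ : ℂ) with hq
  have hq0 : q ≠ 0 := Complex.exp_ne_zero _
  let P : ℤ × ℤ → ℂ := fun x => (s.coeff x.1 * q ^ x.1) * (t.coeff x.2 * q ^ x.2)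
  have hsum : Summable P := summable_mul_of_summable_norm
    (f := fun n : ℤ => s.coeff n * q ^ n) (g := fun n : ℤ => t.coeff n * q ^ n)
    h1.summable.norm h2.summable.norm
  have hprod : HasSum P (f τ * g τ) :=
    HasSum.mul (f := fun n : ℤ => s.coeff n * q ^ n) 
      (g := fun n : ℤ => t.coeff n * q ^ n) h1 h2 hsum
  let e : (Σ n : ℤ, {x : ℤ × ℤ // x.1 + x.2 = n}) ≃ ℤ × ℤ :=
    Equiv.sigmaFiberEquiv fun x : ℤ × ℤ => x.1 + x.2
  have hfib : ∀ n : ℤ, HasSum (fun x : {x : ℤ × ℤ // x.1 + x.2 = n} => P x.1)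
      ((s * t).coeff n * q ^ n) := by
    intro n
    classical
    let A : Finset {x : ℤ × ℤ // x.1 + x.2 = n} :=
      (Finset.antidiagonal s.isPWO_support t.isPWO_support n).subtype _
    have hA : (s * t).coeff n * q ^ n = ∑ x ∈ A, P x.1 := by
      rw [Finset.sum_subtype_of_mem P (fun x hx => (Finset.mem_antidiagonal.mp hx).2.2),
        HahnSeries.coeff_mul, Finset.sum_mul]
      refine Finset.sum_congr rfl fun x hx => ?_
      have hx' : x.1 + x.2 = n := (Finset.mem_antidiagonal.mp hx).2.2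
      show _ = (s.coeff x.1 * q ^ x.1) * (t.coeff x.2 * q ^ x.2)
      rw [← hx', zpow_add₀ hq0]
      ring
    rw [hA]
    refine hasSum_sum_of_ne_finset_zero fun x hx => ?_
    show (s.coeff x.1.1 * q ^ x.1.1) * (t.coeff x.1.2 * q ^ x.1.2) = 0
    by_cases h1' : s.coeff x.1.1 = 0
    · simp [h1']
    by_cases h2' : t.coeff x.1.2 = 0
    · simp [h2']
    exact absurd (Finset.mem_subtype.mpr (Finset.mem_antidiagonal.mpr ⟨h1', h2', x.2⟩)) hx
  have hsig : HasSum (fun x : (Σ n : ℤ, {x : ℤ × ℤ // x.1 + x.2 = n}) => P x.2.1) (f τ * g τ) :=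
    (e.hasSum_iff (f := P)).2 hprod
  exact hsig.sigma hfib

/-- The expansion of a constant multiple. -/
theorem HasExp.const_mul (c : ℂ) (hs : HasExp h f s) :
    HasExp h (fun τ => c * f τ) (HahnSeries.C c * s) :=
  (hasExp_C h c).mul hs

theorem HasExp.pow (hs : HasExp h f s) (n : ℕ) : HasExp h (f ^ n) (s ^ n) := by
  induction n with
  | zero => simpa using hasExp_one h
  | succ n ih => simpa [pow_succ] using ih.mul hs

theorem hasExp_finset_sum {ι : Type*} (A : Finset ι) {F : ι → ℍ → ℂ} {S : ι → LaurentSeries ℂ}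
    (H : ∀ i ∈ A, HasExp h (F i) (S i)) : HasExp h (∑ i ∈ A, F i) (∑ i ∈ A, S i) := by
  induction A using Finset.cons_induction with
  | empty => simpa using hasExp_zero h
  | cons a A ha ih =>
    rw [Finset.sum_cons, Finset.sum_cons]
    exact (H a (Finset.mem_cons_self a A)).add (ih fun i hi => H i (Finset.mem_cons_of_mem hi))

theorem hasExp_finset_prod {ι : Type*} (A : Finset ι) {F : ι → ℍ → ℂ} {S : ι → LaurentSeries ℂ}
    (H : ∀ i ∈ A, HasExp h (F i) (S i)) : HasExp h (∏ i ∈ A, F i) (∏ i ∈ A, S i) := by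
  induction A using Finset.cons_induction with
  | empty => simpa using hasExp_one h
  | cons a A ha ih =>
    rw [Finset.prod_cons, Finset.prod_cons]
    exact (H a (Finset.mem_cons_self a A)).mul (ih fun i hi => H i (Finset.mem_cons_of_mem hi))

/-- Every sufficiently small nonzero `q` is the parameter of a point of large imaginary part. -/
theorem exists_radius {P : ℍ → Prop} (hh : 0 < h) (hP : ∀ᶠ τ in atImInfty, P τ) :
    ∃ r : ℝ, 0 < r ∧ ∀ q : ℂ, q ≠ 0 → ‖q‖ < r → ∃ τ : ℍ, 𝕢 (h : ℝ) τ = q ∧ P τ := by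
  obtain ⟨A, hA⟩ := (atImInfty_mem _).mp hP
  have hh' : (0 : ℝ) < h := by exact_mod_cast hh
  refine ⟨Real.exp (-2 * Real.pi * (max A 0) / h), Real.exp_pos _, fun q hq hlt => ?_⟩
  have him : max A 0 < (invQParam (h : ℝ) q).im := by
    rw [← norm_qParam_lt_iff hh', qParam_right_inv hh'.ne' hq]
    exact hlt
  exact ⟨⟨_, (le_max_right A 0).trans_lt him⟩, qParam_right_inv hh'.ne' hq,
    hA _ ((le_max_left A 0).trans him.le)⟩

theorem eventually_qParam_mem (hh : 0 < h) {U : Set ℂ} (hU : U ∈ 𝓝 (0 : ℂ)) :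
    ∀ᶠ τ : ℍ in atImInfty, 𝕢 (h : ℝ) τ ∈ U :=
  (qParam_tendsto_atImInfty (by exact_mod_cast hh)).eventually hU

/-- A function of the form `q^m g(q)` with `g` analytic at `0` has a Laurent expansion. -/
theorem exists_hasExp_of_analyticAt (hh : 0 < h) {G : ℂ → ℂ} (hG : AnalyticAt ℂ G 0) (m : ℤ)
    (hf : ∀ᶠ τ : ℍ in atImInfty, f τ = 𝕢 (h : ℝ) τ ^ m * G (𝕢 (h : ℝ) τ)) :
    ∃ s : LaurentSeries ℂ, HasExp h f s ∧ (∀ n < m, s.coeff n = 0) ∧ s.coeff m = G 0 := by
  obtain ⟨p, hp⟩ := hG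
  refine ⟨HahnSeries.single m 1 *
    HahnSeries.ofPowerSeries ℤ ℂ (PowerSeries.mk fun n => p.coeff n), ?_, ?_, ?_⟩
  · have hU := eventually_qParam_mem hh (hasFPowerSeriesAt_iff.mp hp)
    filter_upwards [hf, hU] with τ h1 h2
    set q := 𝕢 (h : ℝ) (τ : ℂ) with hq
    simp only [zero_add] at h2
    have hinj : Function.Injective (fun n : ℕ => m + (n : ℤ)) := fun a b hab => by simpa using hab
    rw [h1]
    refine (hinj.hasSum_iff ?_).mp ?_
    · intro k hk
      rw [HahnSeries.coeff_single_mul]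
      rcases lt_or_ge (k - m) 0 with hneg | hpos
      · simp [ModularCurve.ofPowerSeries_coeff_of_neg _ hneg]
      · exact absurd ⟨(k - m).toNat, by simp [Int.toNat_of_nonneg hpos]⟩ hk
    · convert! (h2.mul_left (q ^ m)) using 1
      funext n
      simp only [Function.comp, HahnSeries.coeff_single_mul, add_sub_cancel_left, one_mul,
        HahnSeries.ofPowerSeries_apply_coeff, PowerSeries.coeff_mk, smul_eq_mul]
      rw [zpow_add₀ (show q ≠ 0 from Complex.exp_ne_zero _), zpow_natCast]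
      ring
  · intro n hn
    rw [HahnSeries.coeff_single_mul, ModularCurve.ofPowerSeries_coeff_of_neg _ (by omega)]
    simp
  · have h0 : (HahnSeries.ofPowerSeries ℤ ℂ (PowerSeries.mk fun n => p.coeff n)).coeff 0 =
        p.coeff 0 := by
      rw [show (0 : ℤ) = ((0 : ℕ) : ℤ) from rfl, HahnSeries.ofPowerSeries_apply_coeff,
        PowerSeries.coeff_mk]
    rw [HahnSeries.coeff_single_mul, sub_self, h0, one_mul]
    exact hp.coeff_zero _

/-- Conversely, an expansion vanishing below `m` is `q^m` times a function analytic at `0`. -/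
theorem HasExp.exists_analyticAt (hh : 0 < h) (hs : HasExp h f s) {m : ℤ}
    (hm : ∀ n < m, s.coeff n = 0) :
    ∃ G : ℂ → ℂ, AnalyticAt ℂ G 0 ∧ G 0 = s.coeff m ∧
      ∀ᶠ τ : ℍ in atImInfty, f τ = 𝕢 (h : ℝ) τ ^ m * G (𝕢 (h : ℝ) τ) := by
  let p : FormalMultilinearSeries ℂ ℂ ℂ := .ofScalars ℂ fun n : ℕ => s.coeff (m + n)
  let G : ℂ → ℂ := fun z => ∑' n : ℕ, z ^ n • p.coeff n
  have hinj : Function.Injective (fun n : ℕ => m + (n : ℤ)) := fun a b hab => by simpa using hab
  obtain ⟨r, hr, hP⟩ := exists_radius hh hs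
  have hsum : ∀ z : ℂ, ‖z‖ < r → Summable fun n : ℕ => z ^ n • p.coeff n := by
    intro z hz
    rcases eq_or_ne z 0 with rfl | hz0
    · exact summable_of_ne_finset_zero (s := {0}) fun n hn => by
        simp [zero_pow (Finset.notMem_singleton.mp hn)]
    obtain ⟨τ, rfl, hτ⟩ := hP z hz0 hz
    have h' := hτ.summable.comp_injective hinj
    refine ((h'.mul_left ((𝕢 (h : ℝ) (τ : ℂ) ^ m)⁻¹))).congr fun n => ?_
    simp only [Function.comp, p, FormalMultilinearSeries.coeff_ofScalars, smul_eq_mul]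
    rw [zpow_add₀ hz0, zpow_natCast]
    field_simp [zpow_ne_zero m (Complex.exp_ne_zero _ : 𝕢 (h : ℝ) (τ : ℂ) ≠ 0)]
  have hfp : HasFPowerSeriesAt G p 0 := by
    rw [hasFPowerSeriesAt_iff]
    filter_upwards [Metric.ball_mem_nhds (0 : ℂ) hr] with z hz
    simpa [G] using (hsum z (by simpa using hz)).hasSum
  refine ⟨G, ⟨p, hfp⟩, ?_, ?_⟩
  · simp only [G]
    rw [tsum_eq_single 0 fun n hn => by simp [zero_pow hn]]
    simp [p, FormalMultilinearSeries.coeff_ofScalars]
  · filter_upwards [hs] with τ hτ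
    set q := 𝕢 (h : ℝ) (τ : ℂ) with hq
    have hq0 : q ≠ 0 := Complex.exp_ne_zero _
    have h' : HasSum (fun n : ℕ => s.coeff (m + n) * q ^ (m + (n : ℤ))) (f τ) := by
      refine (hinj.hasSum_iff (f := fun k : ℤ => s.coeff k * q ^ k) ?_).mpr hτ
      intro k hk
      rcases lt_or_ge k m with hlt | hge
      · simp [hm k hlt]
      · exact absurd ⟨(k - m).toNat, by simp [Int.toNat_of_nonneg (sub_nonneg.mpr hge)]⟩ hk
    rw [← h'.tsum_eq, ← tsum_mul_left]
    refine tsum_congr fun n => ?_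
    simp only [p, FormalMultilinearSeries.coeff_ofScalars, smul_eq_mul]
    rw [zpow_add₀ hq0, zpow_natCast]
    ring

theorem HasExp.unique (hh : 0 < h) (hs : HasExp h f s) (ht : HasExp h f t) : s = t := by
  by_contra hne
  set d := s - t with hd
  have hd0 : d ≠ 0 := sub_ne_zero.mpr hne
  have h0 : HasExp h 0 d := by simpa [hd] using hs.sub ht
  obtain ⟨G, hG, hG0, hGeq⟩ :=
    h0.exists_analyticAt hh (m := d.order) fun n hn => HahnSeries.coeff_eq_zero_of_lt_order hn
  obtain ⟨r, hr, hP⟩ := exists_radius hh hGeq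
  have hzero : G =ᶠ[𝓝[≠] 0] fun _ => (0 : ℂ) := by
    filter_upwards [self_mem_nhdsWithin, nhdsWithin_le_nhds (Metric.ball_mem_nhds (0 : ℂ) hr)]
      with z hz hzr
    obtain ⟨τ, rfl, hτ⟩ := hP z hz (by simpa using hzr)
    simpa [zpow_ne_zero d.order hz] using hτ.symm
  have hlim : Tendsto G (𝓝[≠] 0) (𝓝 0) := tendsto_const_nhds.congr' hzero.symm
  have := tendsto_nhds_unique (hG.continuousAt.tendsto.mono_left nhdsWithin_le_nhds) hlim
  rw [hG0] at this
  exact HahnSeries.coeff_order_eq_zero.not.mpr hd0 this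

theorem HasExp.inv (hh : 0 < h) (hs : HasExp h f s) (hs0 : s ≠ 0) : HasExp h f⁻¹ s⁻¹ := by
  obtain ⟨G, hG, hG0, hGeq⟩ :=
    hs.exists_analyticAt hh (m := s.order) fun n hn => HahnSeries.coeff_eq_zero_of_lt_order hn
  have hG0' : G 0 ≠ 0 := hG0 ▸ HahnSeries.coeff_order_eq_zero.not.mpr hs0
  have hne : ∀ᶠ τ : ℍ in atImInfty, G (𝕢 (h : ℝ) τ) ≠ 0 :=
    eventually_qParam_mem hh (hG.continuousAt.eventually_ne hG0')
  obtain ⟨t, ht, -, -⟩ := exists_hasExp_of_analyticAt (f := f⁻¹) hh (hG.fun_inv hG0') (-s.order) (by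
    filter_upwards [hGeq] with τ hτ
    rw [Pi.inv_apply, hτ, mul_inv, zpow_neg])
  have h1 : HasExp h 1 (s * t) := by
    refine (hs.mul ht).congr ?_
    filter_upwards [hGeq, hne] with τ hτ hτ0
    rw [Pi.mul_apply, Pi.inv_apply, Pi.one_apply, hτ]
    exact mul_inv_cancel₀ (mul_ne_zero (zpow_ne_zero _ (Complex.exp_ne_zero _)) hτ0)
  have : s * t = 1 := h1.unique hh (hasExp_one h)
  rwa [← eq_inv_of_mul_eq_one_right this]

/-- The series with coefficients `s_n a^n`. -/
def twist (a : ℂ) (s : LaurentSeries ℂ) : LaurentSeries ℂ where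
  coeff n := s.coeff n * a ^ n
  isPWO_support' := s.isPWO_support'.mono fun n hn => by
    simp only [Function.mem_support, ne_eq] at hn ⊢
    exact fun h0 => hn (by simp [h0])

/-- The coefficients of a series twisted in `q`. -/
@[simp] theorem twist_coeff (a : ℂ) (s : LaurentSeries ℂ) (n : ℤ) :
    (twist a s).coeff n = s.coeff n * a ^ n := rfl

/-- Substitution: if `q_h (φ τ) = a q_{h'}(τ) ^ d` then `f ∘ φ` has the expansion
`qExpand d (twist a s)`. -/
theorem HasExp.subst {h' : ℕ} {d : ℕ} [NeZero d] {φ : ℍ → ℍ} (a : ℂ) (hs : HasExp h f s)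
    (hφ : Tendsto φ atImInfty atImInfty)
    (hq : ∀ τ : ℍ, 𝕢 (h : ℝ) (φ τ) = a * 𝕢 (h' : ℝ) τ ^ (d : ℕ)) :
    HasExp h' (f ∘ φ) (ModularCurve.qExpand ℂ d (twist a s)) := by
  filter_upwards [hφ.eventually hs] with τ hτ
  have hinj : Function.Injective (fun n : ℤ => (d : ℤ) * n) :=
    mul_right_injective₀ (by exact_mod_cast NeZero.ne d)
  refine (hinj.hasSum_iff ?_).mp ?_
  · intro k hk
    rw [ModularCurve.qExpand_coeff_of_not_dvd, zero_mul]
    exact fun ⟨c, hc⟩ => hk ⟨c, hc.symm⟩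
  · rw [Function.comp_apply]
    convert hτ using 1
    funext n
    simp only [Function.comp, ModularCurve.qExpand_coeff_mul, twist_coeff, hq τ]
    rw [zpow_mul, zpow_natCast, mul_zpow]
    ring

/-- Pull an expansion back to the larger width `d * h`. -/
theorem HasExp.qExpand (hs : HasExp h f s) (d : ℕ) [NeZero d] :
    HasExp (d * h) f (ModularCurve.qExpand ℂ d s) := by
  have := hs.subst (φ := id) (h' := d * h) (d := d) 1 tendsto_id fun τ => by
    rw [one_mul, id_eq, Function.Periodic.qParam, Function.Periodic.qParam, ← Complex.exp_nat_mul]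
    congr 1
    rcases eq_or_ne h 0 with rfl | hh
    · simp
    · push_cast
      have : (d : ℂ) ≠ 0 := by exact_mod_cast NeZero.ne d
      field_simp
  have htw : twist 1 s = s := by ext n; simp
  simpa [htw] using this

end FLTAgent.LevelM
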