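import Fermat.Agent.LevelM.Galois
import Fermat.Agent.ModularFF.JFunction
import Fermat.Prelude.Def_ModularCurve_X0ModL
import Mathlib.Algebra.Polynomial.AlgebraMap

/-!
# The Hauptmodul `j` of level one

`j` lies in every `modularRing`, and a function of the level `h` ring invariant under `SL(2, ℤ)`
is an `O`-polynomial in `j` (`exists_polynomial_of_invariant`).
-/

set_option autoImplicit false

noncomputable section

open Filter Complex
open UpperHalfPlane hiding I
open scoped UpperHalfPlane Real MatrixGroups Manifold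

namespace FLTAgent.LevelM

local notation "𝕢" => Function.Periodic.qParam

variable {O : Subring ℂ}

theorem hasExp_of_hasLaurent {h : ℕ} {f : ℍ → ℂ} {S : LaurentSeries ℂ}
    (hf : FLTAgent.ModularFF.HasLaurent (h : ℝ) f S) : HasExp h f S := by
  obtain ⟨n, P, hS, hP⟩ := hf
  refine Eventually.of_forall fun τ => ?_
  set q := 𝕢 (h : ℝ) (τ : ℂ) with hq
  have hq0 : q ≠ 0 := Complex.exp_ne_zero _
  have hcoeff : ∀ k : ℤ, S.coeff k =
      (HahnSeries.ofPowerSeries ℤ ℂ P).coeff (k + n) := fun k => by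
    rw [hS, HahnSeries.coeff_single_mul, one_mul, add_sub_cancel_right]
  have hinj : Function.Injective (fun m : ℕ => (m : ℤ) - n) := fun a b hab => by simpa using hab
  refine (hinj.hasSum_iff fun k hk => ?_).mp ?_
  · have : k + n < 0 := by
      by_contra hneg
      exact hk ⟨(k + n).toNat, by simp [Int.toNat_of_nonneg (not_lt.mp hneg)]⟩
    rw [hcoeff, ModularCurve.ofPowerSeries_coeff_of_neg _ this, zero_mul]
  · have hmul := (hP τ).mul_left (q ^ n)⁻¹
    rw [← mul_assoc, inv_mul_cancel₀ (pow_ne_zero n hq0), one_mul] at hmul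
    refine hmul.congr_fun fun m => ?_
    simp only [Function.comp, hcoeff, sub_add_cancel, HahnSeries.ofPowerSeries_apply_coeff]
    rw [zpow_sub₀ hq0, zpow_natCast, zpow_natCast]
    ring

theorem hasExp_jFun : HasExp 1 FLTAgent.ModularFF.jFun (ModularCurve.jqModC ℂ) := by
  refine hasExp_of_hasLaurent ?_
  simpa using FLTAgent.ModularFF.hasLaurent_jFun

theorem jqModC_coeff_mem (O : Subring ℂ) (n : ℤ) : (ModularCurve.jqModC ℂ).coeff n ∈ O := by
  rw [ModularCurve.coeff_jqModC_eq_intCast]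
  exact intCast_mem O _

theorem act_jFun (γ : SL(2, ℤ)) : act γ FLTAgent.ModularFF.jFun = FLTAgent.ModularFF.jFun := by
  funext τ
  exact FLTAgent.ModularFF.jFun_smul γ τ

theorem jFun_mem_one (Γ : Subgroup SL(2, ℤ)) :
    FLTAgent.ModularFF.jFun ∈ modularRing Γ 1 O :=
  ⟨FLTAgent.ModularFF.mdiff_jFun, fun γ _ => act_jFun γ,
    fun γ => by rw [act_jFun]; exact intExp_iff.mpr ⟨_, hasExp_jFun, jqModC_coeff_mem O⟩⟩

theorem jFun_mem (Γ : Subgroup SL(2, ℤ)) (h : ℕ) [NeZero h] :
    FLTAgent.ModularFF.jFun ∈ modularRing Γ h O := by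
  refine ⟨FLTAgent.ModularFF.mdiff_jFun, fun γ _ => act_jFun γ, fun γ => ?_⟩
  have := ((jFun_mem_one (O := O) Γ).2.2 γ).qExpand (d := h)
  rwa [mul_one] at this

/-- **Level one.**  A function in the level `h` ring invariant under all of `SL(2, ℤ)` is an
`O`-polynomial in `j`. -/
theorem exists_polynomial_of_invariant {h : ℕ} [NeZero h] {Γ : Subgroup SL(2, ℤ)} {f : ℍ → ℂ}
    (hf : f ∈ modularRing Γ h O) (hinv : ∀ γ, act γ f = f) :
    ∃ P : Polynomial ℂ, (∀ i, P.coeff i ∈ O) ∧ ∀ τ, f τ = P.eval (FLTAgent.ModularFF.jFun τ) := by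
  let S : Subring (ℍ → ℂ) :=
    { carrier := {g | ∃ P : Polynomial ℂ, (∀ i, P.coeff i ∈ O) ∧
        ∀ τ, g τ = P.eval (FLTAgent.ModularFF.jFun τ)}
      one_mem' := ⟨1, fun i => by rw [Polynomial.coeff_one]; split <;> simp, fun τ => by simp⟩
      zero_mem' := ⟨0, fun i => by simp, fun τ => by simp⟩
      add_mem' := by
        rintro a b ⟨P, hP, hP'⟩ ⟨Q, hQ, hQ'⟩
        exact ⟨P + Q, fun i => by simpa using O.add_mem (hP i) (hQ i), fun τ => by simp [hP', hQ']⟩
      mul_mem' := by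
        rintro a b ⟨P, hP, hP'⟩ ⟨Q, hQ, hQ'⟩
        refine ⟨P * Q, fun i => ?_, fun τ => by simp [hP', hQ']⟩
        rw [Polynomial.coeff_mul]
        exact O.sum_mem fun x _ => O.mul_mem (hP _) (hQ _)
      neg_mem' := by
        rintro a ⟨P, hP, hP'⟩
        exact ⟨-P, fun i => by simpa using O.neg_mem (hP i), fun τ => by simp [hP']⟩ }
  have hjS : FLTAgent.ModularFF.jFun ∈ S :=
    ⟨Polynomial.X, fun i => by rw [Polynomial.coeff_X]; split <;> simp, fun τ => by simp⟩
  have hOS : ∀ c ∈ O, (fun _ : ℍ => c) ∈ S := fun c hc =>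
    ⟨Polynomial.C c, fun i => by rw [Polynomial.coeff_C]; split <;> simp [hc], fun τ => by simp⟩
  have hper : ∀ γ : SL(2, ℤ), act (ModularGroup.T ^ ((1 : ℕ) : ℤ)) (act γ f) =
    act γ f := fun γ => by
    rw [hinv γ, hinv]
  have hf1 : f ∈ modularRing (CongruenceSubgroup.Gamma 1) 1 O := by
    refine ⟨hf.1, fun γ _ => hinv γ, fun γ => IntExp.descend (d := h) one_pos ?_ (hper γ)⟩
    rw [mul_one]
    exact hf.2.2 γ
  refine modularRing_le_of_pole_reducers (ι := Unit) one_pos (fun _ => 1) (fun δ => ?_)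
    (fun _ => FLTAgent.ModularFF.jFun) (fun _ => jFun_mem_one _) (fun _ => 1)
    (fun _ => ⟨one_ne_zero, by rw [inv_one]; exact O.one_mem⟩) (fun _ => ?_)
    (fun i k hk => absurd (Subsingleton.elim k i) hk) S (fun _ => hjS) hOS f hf1
  · refine ⟨(), 0, fun u hu => ?_⟩
    rw [zpow_zero, act_one, act_one]
    exact hu δ (by simp [CongruenceSubgroup.Gamma_one_top])
  · refine ⟨_,
      by rw [act_one]; exact hasExp_jFun, fun n hn => ?_, ModularCurve.coeff_jqModC_neg_one ℂ⟩
    exact ModularCurve.coeff_jqModC_of_lt ℂ hn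

end FLTAgent.LevelM
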