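import Fermat.Agent.LevelM.HauptPoly
import Fermat.Agent.LevelM.LevelOne
import Mathlib.RingTheory.Valuation.ValuationSubring
import Mathlib.FieldTheory.IsAlgClosed.Basic
import Mathlib.GroupTheory.Index
import Mathlib.Analysis.Calculus.Deriv.Basic

/-!
# The level `M` ring over a valuation subring, with its finite group of automorphisms

For a valuation subring `A` of a field `L` and `ι : L →+* ℂ` the coefficient ring is the image of
`A`.  `LevelRing A ι M` is the ring of level `M` modular functions holomorphic on `ℍ` with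
`A`-integral expansions at all cusps.
-/

set_option autoImplicit false

noncomputable section

open Filter Complex
open UpperHalfPlane hiding I
open scoped UpperHalfPlane Real MatrixGroups Manifold Topology

namespace FLTAgent.LevelM

variable {L : Type*} [Field L] (A : ValuationSubring L) (ι : L →+* ℂ) (M : ℕ)

/-- The image of `A` in `ℂ`. -/
def coeffRing : Subring ℂ := A.toSubring.map ι

/-- `A` as the coefficient ring. -/
def coeffEquiv : A ≃+* coeffRing A ι := A.toSubring.equivMapOfInjective ι ι.injective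

theorem coe_coeffEquiv (a : A) : ((coeffEquiv A ι a : coeffRing A ι) : ℂ) = ι a := rfl

theorem coeffEquiv_mem (a : A) : ι a ∈ coeffRing A ι := ⟨a, a.2, rfl⟩

/-- The inclusion of `A` into `ℂ`. -/
def coeffHom : A →+* ℂ := ι.comp A.subtype

theorem coeffHom_injective : Function.Injective (coeffHom A ι) :=
  ι.injective.comp Subtype.val_injective

/-- `ζ_M` and `1/M` lie in the coefficient ring when `L` is algebraically closed and `M` is a unit
of `A`. -/
theorem goodRing_coeffRing [IsAlgClosed L] (hM : 0 < M) (hu : IsUnit (M : A)) :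
    GoodRing M (coeffRing A ι) := by
  have : CharZero L := ι.charZero
  have : NeZero (M : L) := ⟨Nat.cast_ne_zero.mpr hM.ne'⟩
  obtain ⟨ζ, hζ⟩ := HasEnoughRootsOfUnity.exists_primitiveRoot L M
  have : NeZero M := ⟨hM.ne'⟩
  obtain ⟨k, -, hk⟩ := (hζ.map_of_injective ι.injective).eq_pow_of_pow_eq_one
    ((zetaM_isPrimitiveRoot hM).pow_eq_one)
  refine ⟨hM, ?_, ?_⟩
  · rw [← hk]
    refine (coeffRing A ι).pow_mem ⟨ζ, ?_, rfl⟩ k
    show ζ ∈ A
    rw [← A.valuation_le_one_iff]
    have h1 : A.valuation ζ ^ M = 1 := by rw [← map_pow, hζ.pow_eq_one, map_one]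
    exact ((pow_eq_one_iff.mp h1).resolve_right hM.ne').le
  · obtain ⟨u, hu'⟩ := hu
    refine ⟨((↑u⁻¹ : A) : L), (↑u⁻¹ : A).2, ?_⟩
    have h2 : (M : L) * ((↑u⁻¹ : A) : L) = 1 := by
      have h3 := congrArg (fun a : A => (a : L)) (Units.mul_inv u)
      rw [hu'] at h3
      simpa using h3
    refine eq_inv_of_mul_eq_one_right ?_
    rw [← map_natCast ι, ← map_mul, h2, map_one]

/-- The level `M` ring. -/
abbrev levelSubring : Subring (ℍ → ℂ) :=
  modularRing (CongruenceSubgroup.Gamma M) M (coeffRing A ι)

/-- The level `M` ring as a type. -/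
abbrev LevelRing : Type := ↥(levelSubring A ι M)

/-- The constants. -/
def levelConst : A →+* LevelRing A ι M where
  toFun a := ⟨fun _ => ι a, const_mem_modularRing (coeffEquiv_mem A ι a)⟩
  map_one' := Subtype.ext (funext fun _ => map_one ι)
  map_mul' _ _ := Subtype.ext (funext fun _ => map_mul ι _ _)
  map_zero' := Subtype.ext (funext fun _ => map_zero ι)
  map_add' _ _ := Subtype.ext (funext fun _ => map_add ι _ _)

instance levelAlgebra : Algebra A (LevelRing A ι M) := (levelConst A ι M).toAlgebra

theorem coe_algebraMap_levelRing (a : A) :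
    ((algebraMap A (LevelRing A ι M) a : LevelRing A ι M) : ℍ → ℂ) = fun _ => ι a := rfl

variable {A ι M}

theorem eq_zero_of_eventuallyEq_zero {f : ℍ → ℂ} (hf : MDiff f) (h0 : f =ᶠ[atImInfty] 0) :
    f = 0 := by
  obtain ⟨B, hB⟩ := (atImInfty_mem _).mp h0
  set H : Set ℂ := upperHalfPlaneSet
  have hopen : IsOpen H := isOpen_upperHalfPlaneSet
  have hconn : IsPreconnected H :=
    (convex_halfSpace_im_gt 0).isPreconnected
  have han : AnalyticOnNhd ℂ (f ∘ ofComplex) H :=
    (UpperHalfPlane.mdifferentiable_iff.mp hf).analyticOnNhd hopen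
  set z₀ : ℂ := (max B 0 + 1 : ℝ) * Complex.I with hz₀
  have him : z₀.im = max B 0 + 1 := by simp [hz₀]
  have hz₀H : z₀ ∈ H := by
    show 0 < z₀.im
    rw [him]; have := le_max_right B 0; linarith
  have hev : f ∘ ofComplex =ᶠ[𝓝 z₀] 0 := by
    have hU : {z : ℂ | max B 0 < z.im} ∈ 𝓝 z₀ :=
      (isOpen_lt continuous_const Complex.continuous_im).mem_nhds (by
        show max B 0 < z₀.im
        rw [him]; linarith)
    filter_upwards [hU] with z hz
    have hz' : 0 < z.im := (le_max_right B 0).trans_lt hz
    simp only [Function.comp, ofComplex_apply_of_im_pos hz', Pi.zero_apply]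
    exact hB ⟨z, hz'⟩ ((le_max_left B 0).trans hz.le)
  have := han.eqOn_of_preconnected_of_eventuallyEq
    (analyticOnNhd_const (v := (0 : ℂ))) hconn hz₀H hev
  funext τ
  simpa using this τ.im_pos

theorem exists_expansion (f : LevelRing A ι M) :
    ∃ s : LaurentSeries A, HasExp M (f : ℍ → ℂ) (ModularCurve.coeffMap (coeffHom A ι) s) := by
  obtain ⟨s, hs⟩ := f.2.2.2 1
  refine ⟨ModularCurve.coeffMap (coeffEquiv A ι).symm.toRingHom s, ?_⟩
  rw [act_one] at hs
  convert hs using 1
  ext n
  simp only [ModularCurve.coeffMap_coeff]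
  show ι ((coeffEquiv A ι).symm (s.coeff n) : L) = (s.coeff n : ℂ)
  rw [← coe_coeffEquiv, RingEquiv.apply_symm_apply]

theorem coeffMap_coeffHom_injective :
    Function.Injective (ModularCurve.coeffMap (coeffHom A ι)) := fun x y h => by
  ext n
  refine congrArg Subtype.val (coeffHom_injective A ι (?_ : coeffHom A ι (x.coeff n) =
    coeffHom A ι (y.coeff n)))
  rw [← ModularCurve.coeffMap_coeff, ← ModularCurve.coeffMap_coeff, h]

variable (A ι M) in
/-- Expansion at `∞`. -/
def levelExp [NeZero M] : LevelRing A ι M →+* LaurentSeries A where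
  toFun f := (exists_expansion f).choose
  map_one' := coeffMap_coeffHom_injective (by
    rw [map_one]
    exact ((exists_expansion 1).choose_spec).unique
      (Nat.pos_of_ne_zero (NeZero.ne M)) (hasExp_one M))
  map_mul' f g := coeffMap_coeffHom_injective (by
    rw [map_mul]
    exact ((exists_expansion (f * g)).choose_spec).unique (Nat.pos_of_ne_zero (NeZero.ne M))
      ((exists_expansion f).choose_spec.mul (exists_expansion g).choose_spec))
  map_zero' := coeffMap_coeffHom_injective (by
    rw [map_zero]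
    exact ((exists_expansion 0).choose_spec).unique (Nat.pos_of_ne_zero (NeZero.ne M))
      (hasExp_zero M))
  map_add' f g := coeffMap_coeffHom_injective (by
    rw [map_add]
    exact ((exists_expansion (f + g)).choose_spec).unique (Nat.pos_of_ne_zero (NeZero.ne M))
      ((exists_expansion f).choose_spec.add (exists_expansion g).choose_spec))

/-- An element of the level ring has its expansion. -/
theorem hasExp_levelExp [NeZero M] (f : LevelRing A ι M) :
    HasExp M (f : ℍ → ℂ) (ModularCurve.coeffMap (coeffHom A ι) (levelExp A ι M f)) :=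
  (exists_expansion f).choose_spec

theorem levelExp_eq [NeZero M] (f : LevelRing A ι M) {s : LaurentSeries A}
    (hs : HasExp M (f : ℍ → ℂ) (ModularCurve.coeffMap (coeffHom A ι) s)) :
    levelExp A ι M f = s :=
  coeffMap_coeffHom_injective ((hasExp_levelExp f).unique (Nat.pos_of_ne_zero (NeZero.ne M)) hs)

theorem levelExp_injective [NeZero M] : Function.Injective (levelExp A ι M) := by
  rw [injective_iff_map_eq_zero]
  intro f hf
  have h := hasExp_levelExp f
  rw [hf, map_zero] at h
  refine Subtype.ext (eq_zero_of_eventuallyEq_zero f.2.1 ?_)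
  filter_upwards [h] with τ hτ
  exact (hτ.unique (by simp [hasSum_zero]))

theorem levelExp_algebraMap [NeZero M] (a : A) :
    levelExp A ι M (algebraMap A (LevelRing A ι M) a) = HahnSeries.C a := by
  refine levelExp_eq _ ?_
  rw [coe_algebraMap_levelRing, HahnSeries.C_apply, ModularCurve.coeffMap_single]
  have := hasExp_C M (coeffHom A ι a)
  rwa [HahnSeries.C_apply] at this

/-- The level ring is a domain. -/
theorem isDomain_levelRing [NeZero M] : IsDomain (LevelRing A ι M) :=
  levelExp_injective.isDomain (levelExp A ι M)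

/-! ## The group -/

variable (A ι M) in
/-- `γ ↦ (f ↦ f ∘ γ⁻¹)`. -/
def levelAutHom : SL(2, ℤ) →* RingAut (LevelRing A ι M) :=
  haveI hm : ∀ (γ : SL(2, ℤ)) (f : LevelRing A ι M), act γ (f : ℍ → ℂ) ∈ levelSubring A ι M :=
    fun γ f => act_mem_modularRing (fun g hg =>
      (CongruenceSubgroup.Gamma_normal M).conj_mem g hg γ) f.2
  { toFun := fun γ =>
      { toFun := fun f => ⟨act γ⁻¹ (f : ℍ → ℂ), hm _ f⟩
        invFun := fun f => ⟨act γ (f : ℍ → ℂ), hm _ f⟩
        left_inv := fun f => Subtype.ext (by
          show act γ (act γ⁻¹ (f : ℍ → ℂ)) = f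
          rw [← act_mul, inv_mul_cancel, act_one])
        right_inv := fun f => Subtype.ext (by
          show act γ⁻¹ (act γ (f : ℍ → ℂ)) = f
          exact act_inv γ _)
        map_mul' := fun f g => Subtype.ext (map_mul (act γ⁻¹) _ _)
        map_add' := fun f g => Subtype.ext (map_add (act γ⁻¹) _ _) }
    map_one' := RingEquiv.ext fun f => Subtype.ext (by
      show act (1 : SL(2, ℤ))⁻¹ (f : ℍ → ℂ) = f
      rw [inv_one, act_one])
    map_mul' := fun γ δ => RingEquiv.ext fun f => Subtype.ext (by
      show act (γ * δ)⁻¹ (f : ℍ → ℂ) = act γ⁻¹ (act δ⁻¹ (f : ℍ → ℂ))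
      rw [mul_inv_rev, act_mul]) }

theorem Gamma_le_ker : CongruenceSubgroup.Gamma M ≤ (levelAutHom A ι M).ker := fun _ hγ =>
  RingEquiv.ext fun f => Subtype.ext (f.2.2.1 _ (inv_mem hγ))

variable (A ι M) in
/-- The finite group acting on the level `M` ring. -/
abbrev LevelGroup : Type := ↥(levelAutHom A ι M).range

variable (A ι M) in
/-- The subgroup coming from `Γ(K)`. -/
def levelSubgroup (K : ℕ) : Subgroup (LevelGroup A ι M) :=
  (CongruenceSubgroup.Gamma K).map (levelAutHom A ι M).rangeRestrict

instance finite_levelGroup [NeZero M] : Finite (LevelGroup A ι M) := by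
  have : (levelAutHom A ι M).ker.FiniteIndex :=
    Subgroup.finiteIndex_of_le Gamma_le_ker
  exact Finite.of_equiv _ (QuotientGroup.quotientKerEquivRange (levelAutHom A ι M)).toEquiv

theorem levelGroup_smul (γ : SL(2, ℤ)) (f : LevelRing A ι M) :
    ((((levelAutHom A ι M).rangeRestrict γ) • f : LevelRing A ι M) : ℍ → ℂ) = act γ⁻¹ (f : ℍ → ℂ) :=
  rfl

/-- Every automorphism in the level group comes from `SL(2, ℤ)`. -/
theorem exists_smul_eq (g : LevelGroup A ι M) :
    ∃ γ : SL(2, ℤ), (levelAutHom A ι M).rangeRestrict γ = g :=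
  (levelAutHom A ι M).rangeRestrict_surjective g

end FLTAgent.LevelM
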