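import Fermat.Agent.LevelM.Hauptmodul
import Mathlib.Algebra.Polynomial.AlgebraMap
import Mathlib.Algebra.Polynomial.EraseLead

/-!
# `modularRing Γ(K) K O` as a localised polynomial ring

For `K ∈ {2, 3}` every element is `P(u) / D(u)ⁿ` with `u` the Hauptmodul and `D` the polynomial
cutting out the cusps other than `∞` (`exists_polynomial_repr`).
-/

set_option autoImplicit false

noncomputable section

open Filter Complex
open UpperHalfPlane hiding I
open scoped UpperHalfPlane Real MatrixGroups Manifold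

namespace FLTAgent.LevelM

variable {O : Subring ℂ} {K : ℕ}

/-- The series of `P(u)`. -/
def polySeries (s : LaurentSeries ℂ) : Polynomial ℂ →+* LaurentSeries ℂ :=
  Polynomial.eval₂RingHom HahnSeries.C s

/-- Expansions commute with polynomials. -/
theorem HasExp.aeval {h : ℕ} {f : ℍ → ℂ} {s : LaurentSeries ℂ} (hs : HasExp h f s)
    (P : Polynomial ℂ) : HasExp h (Polynomial.aeval f P) (polySeries s P) := by
  induction P using Polynomial.induction_on' with
  | add p q hp hq => rw [map_add, map_add]; exact hp.add hq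
  | monomial n a =>
    rw [Polynomial.aeval_monomial, polySeries, Polynomial.coe_eval₂RingHom,
      Polynomial.eval₂_monomial]
    exact (hasExp_C h a).mul (hs.pow n)

theorem polySeries_coeff (s : LaurentSeries ℂ) (P : Polynomial ℂ) (m : ℤ) :
    (polySeries s P).coeff m =
      ∑ i ∈ Finset.range (P.natDegree + 1), P.coeff i * (s ^ i).coeff m := by
  rw [polySeries, Polynomial.coe_eval₂RingHom, Polynomial.eval₂_eq_sum_range, HahnSeries.coeff_sum]
  refine Finset.sum_congr rfl fun i _ => ?_
  rw [HahnSeries.C_mul_eq_smul, HahnSeries.coeff_smul, smul_eq_mul]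

/-- Coefficients of `P` can be read off from the series of `P(u)` when `u` has a simple pole with
unit coefficient. -/
theorem coeff_mem_of_polySeries {I : AddSubgroup ℂ} (hI : ∀ c ∈ O, ∀ x ∈ I, c * x ∈ I)
    {s : LaurentSeries ℂ} (hsO : ∀ n, s.coeff n ∈ O) (hlow : ∀ n < -1, s.coeff n = 0)
    (hlead : IsUnitIn O (s.coeff (-1))) (P : Polynomial ℂ)
    (h : ∀ m, (polySeries s P).coeff m ∈ I) : ∀ i, P.coeff i ∈ I := by
  have hpowO : ∀ n m, (s ^ n).coeff m ∈ O := by
    intro n
    induction n with
    | zero => intro m; rw [pow_zero, HahnSeries.coeff_one]; split <;> simp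
    | succ n ih =>
      intro m
      rw [pow_succ, HahnSeries.coeff_mul]
      exact O.sum_mem fun x _ => O.mul_mem (ih _) (hsO _)
  induction hN : P.natDegree using Nat.strong_induction_on generalizing P with
  | _ N ih =>
    subst hN
    set N := P.natDegree with hN
    have hpow := coeff_pow_below hlow N
    rw [show (N : ℤ) * -1 = -(N : ℤ) by ring] at hpow
    have htop : P.coeff N ∈ I := by
      have hm := h (-(N : ℤ))
      rw [polySeries_coeff, ← hN, Finset.sum_range_succ, Finset.sum_eq_zero, zero_add, hpow.2] at hm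
      · have := hI _ (hlead.pow N).2.2 _ hm
        rwa [mul_left_comm, inv_mul_cancel₀ (hlead.pow N).1, mul_one] at this
      · intro i hi
        rw [(coeff_pow_below hlow i).1 _ (by have := Finset.mem_range.mp hi; omega), mul_zero]
    have herase : ∀ i, P.eraseLead.coeff i ∈ I := by
      rcases P.eraseLead_natDegree_lt_or_eraseLead_eq_zero with hlt | h0
      · refine ih _ hlt P.eraseLead (fun m => ?_) rfl
        rw [← Polynomial.self_sub_C_mul_X_pow, map_sub, HahnSeries.coeff_sub]
        refine I.sub_mem (h m) ?_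
        simp only [polySeries, Polynomial.coe_eval₂RingHom, Polynomial.eval₂_mul,
          Polynomial.eval₂_C, Polynomial.eval₂_X_pow]
        rw [HahnSeries.C_mul_eq_smul, HahnSeries.coeff_smul, smul_eq_mul, mul_comm,
          Polynomial.leadingCoeff, ← hN]
        exact hI _ (hpowO N m) _ htop
      · intro i; simp [h0, I.zero_mem]
    intro i
    rcases eq_or_ne i N with rfl | hne
    · exact htop
    · have := herase i
      rwa [Polynomial.eraseLead_coeff_of_ne _ (by rwa [← hN])] at this

/-- Distinguished polynomial cutting out the cusps other than `∞`. -/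
def cuspPoly (c : Fin (K + 1) → ℂ) : Polynomial ℂ :=
  ∏ i ∈ Finset.univ.erase 0, (Polynomial.X - Polynomial.C (c i))

theorem coeff_mul_mem {P Q : Polynomial ℂ} (hP : ∀ i, P.coeff i ∈ O) (hQ : ∀ i, Q.coeff i ∈ O) :
    ∀ i, (P * Q).coeff i ∈ O := fun i => by
  rw [Polynomial.coeff_mul]; exact O.sum_mem fun x _ => O.mul_mem (hP _) (hQ _)

theorem coeff_prod_mem {ι : Type*} (A : Finset ι) {F : ι → Polynomial ℂ}
    (hF : ∀ k ∈ A, ∀ i, (F k).coeff i ∈ O) : ∀ i, (∏ k ∈ A, F k).coeff i ∈ O := by
  induction A using Finset.cons_induction with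
  | empty => intro i; rw [Finset.prod_empty, Polynomial.coeff_one]; split <;> simp
  | cons a A ha ih =>
    rw [Finset.prod_cons]
    exact coeff_mul_mem (hF a (Finset.mem_cons_self a A))
      (ih fun k hk => hF k (Finset.mem_cons_of_mem hk))

theorem coeff_X_sub_C_mem {c : ℂ} (hc : c ∈ O) :
    ∀ i, (Polynomial.X - Polynomial.C c).coeff i ∈ O := fun i => by
  rw [Polynomial.coeff_sub, Polynomial.coeff_X, Polynomial.coeff_C]
  refine O.sub_mem ?_ ?_ <;> split <;> simp [hc]

theorem cuspPoly_coeff_mem {c : Fin (K + 1) → ℂ} (hc : ∀ i, c i ∈ O) :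
    ∀ i, (cuspPoly c).coeff i ∈ O :=
  coeff_prod_mem _ fun k _ => coeff_X_sub_C_mem (hc k)

variable [NeZero K]

/-- The inverse of `cuspPoly(u)` in the ring. -/
theorem exists_cuspPoly_inv (hK : SmallLevel K) (hO : GoodRing K O) {c d : Fin (K + 1) → ℂ}
    (hd : ∀ i, IsUnitIn O (d i))
    (hrel : ∀ i, i ≠ 0 → hgen K i * (hmod K - fun _ => c i) = fun _ => d i) :
    ∃ w ∈ modularRing (CongruenceSubgroup.Gamma K) K O,
      w * Polynomial.aeval (hmod K) (cuspPoly c) = 1 := by
  refine ⟨∏ i ∈ Finset.univ.erase 0, hgen K i * fun _ => (d i)⁻¹,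
    prod_mem fun i _ => mul_mem (hgen_mem hK hO i) (const_mem_modularRing (hd i).2.2), ?_⟩
  rw [cuspPoly, map_prod, ← Finset.prod_mul_distrib]
  refine Finset.prod_eq_one fun i hi => ?_
  funext τ
  have := congrFun (hrel i (Finset.ne_of_mem_erase hi)) τ
  simp only [Pi.mul_apply, Pi.sub_apply] at this
  simp only [map_sub, Polynomial.aeval_X, Polynomial.aeval_C, Pi.mul_apply, Pi.sub_apply,
    Pi.one_apply, Pi.algebraMap_apply, Algebra.algebraMap_self, RingHom.id_apply]
  rw [mul_right_comm, this, mul_inv_cancel₀ (hd i).1]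

/-- **Structure of the ring of `Γ(K)`**: every element is `P(u) / D(u)ⁿ`. -/
theorem exists_polynomial_repr (hK : SmallLevel K) (hO : GoodRing K O) {c d : Fin (K + 1) → ℂ}
    (hc : ∀ i, c i ∈ O) (hd : ∀ i, IsUnitIn O (d i))
    (hrel : ∀ i, i ≠ 0 → hgen K i * (hmod K - fun _ => c i) = fun _ => d i)
    {f : ℍ → ℂ} (hf : f ∈ modularRing (CongruenceSubgroup.Gamma K) K O) :
    ∃ (n : ℕ) (P : Polynomial ℂ), (∀ i, P.coeff i ∈ O) ∧
      f * Polynomial.aeval (hmod K) (cuspPoly c) ^ n = Polynomial.aeval (hmod K) P := by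
  set D := Polynomial.aeval (hmod K) (cuspPoly c) with hD
  have hDO := cuspPoly_coeff_mem hc
  have hpowO : ∀ n i, (cuspPoly c ^ n).coeff i ∈ O := fun n => by
    rw [← Finset.card_range n, ← Finset.prod_const]
    exact coeff_prod_mem _ fun _ _ => hDO
  let S : Subring (ℍ → ℂ) :=
    { carrier := {g | ∃ (n : ℕ) (P : Polynomial ℂ), (∀ i, P.coeff i ∈ O) ∧
        g * D ^ n = Polynomial.aeval (hmod K) P}
      one_mem' := ⟨0, 1, fun i => by rw [Polynomial.coeff_one]; split <;> simp, by simp⟩
      zero_mem' := ⟨0, 0, fun i => by simp, by simp⟩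
      add_mem' := by
        rintro a b ⟨n, P, hP, hP'⟩ ⟨m, Q, hQ, hQ'⟩
        refine ⟨n + m, P * cuspPoly c ^ m + Q * cuspPoly c ^ n, fun i => ?_, ?_⟩
        · rw [Polynomial.coeff_add]
          exact O.add_mem (coeff_mul_mem hP (hpowO m) i) (coeff_mul_mem hQ (hpowO n) i)
        · rw [map_add, map_mul, map_mul, map_pow, map_pow, ← hP', ← hQ', pow_add]
          ring
      mul_mem' := by
        rintro a b ⟨n, P, hP, hP'⟩ ⟨m, Q, hQ, hQ'⟩
        refine ⟨n + m, P * Q, coeff_mul_mem hP hQ, ?_⟩
        rw [map_mul, ← hP', ← hQ', pow_add]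
        ring
      neg_mem' := by
        rintro a ⟨n, P, hP, hP'⟩
        exact ⟨n, -P, fun i => by simpa using O.neg_mem (hP i), by rw [map_neg, ← hP', neg_mul]⟩ }
  refine modularRing_Gamma_le hK hO S (fun i => ?_) (fun a ha => ?_) f hf
  · rcases eq_or_ne i 0 with rfl | hi
    · exact ⟨0, Polynomial.X, fun i => by rw [Polynomial.coeff_X]; split <;> simp, by simp [hmod]⟩
    · refine ⟨1, Polynomial.C (d i) *
        ∏ k ∈ (Finset.univ.erase 0).erase i, (Polynomial.X - Polynomial.C (c k)), ?_, ?_⟩
      · exact coeff_mul_mem (fun j => by rw [Polynomial.coeff_C]; split <;> simp [(hd i).2.1])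
          (coeff_prod_mem _ fun k _ => coeff_X_sub_C_mem (hc k))
      · have hmem : i ∈ Finset.univ.erase (0 : Fin (K + 1)) :=
          Finset.mem_erase.mpr ⟨hi, Finset.mem_univ i⟩
        rw [pow_one, hD, cuspPoly, ← Finset.mul_prod_erase _ _ hmem, map_mul, map_mul, ← mul_assoc]
        congr 1
        have := hrel i hi
        simp only [map_sub, Polynomial.aeval_X, Polynomial.aeval_C]
        exact this
  · exact ⟨0, Polynomial.C a, fun i => by rw [Polynomial.coeff_C]; split <;> simp [ha],
      by simp; rfl⟩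

end FLTAgent.LevelM
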