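import Fermat.Agent.LevelM.XRatio
import Fermat.Agent.LevelM.Descend
import Mathlib.Algebra.Ring.Subring.Basic

/-!
# The rings of `Γ(2)` and `Γ(3)`

For `K ∈ {2, 3}` the ring `modularRing Γ(K) K O` is generated over `O` by `K + 1` functions
`hgen K i`, `hgen K i` having a simple pole with unit coefficient at the `i`-th cusp only, and
`hgen K i * (hgen K 0 - hval K i)` is a unit constant for `i ≠ 0`.
-/

set_option autoImplicit false

noncomputable section

open Filter Complex
open UpperHalfPlane hiding I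
open scoped UpperHalfPlane Real MatrixGroups Manifold

namespace FLTAgent.LevelM

variable {O : Subring ℂ} {K : ℕ}

/-- Representatives of the lines of `(ℤ/K)²`, indexed by `Fin (K + 1)`. -/
def linePt (K : ℕ) (i : Fin (K + 1)) : Fin 2 → ZMod K :=
  if i = 0 then ![0, 1] else ![1, ((i : ℕ) - 1 : ℕ)]

/-- An element of `SL(2, ℤ)` mapping the `i`-th line to `(0, 1)`. -/
def cuspRep (K : ℕ) (i : Fin (K + 1)) : SL(2, ℤ) :=
  if i = 0 then 1 else ⟨!![(((i : ℕ) - 1 : ℕ) : ℤ), 1; -1, 0], by simp [Matrix.det_fin_two]⟩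

/-- Explicit formula for the action of `cuspRep`. -/
def cuspRepAct (K : ℕ) (i : Fin (K + 1)) (T : Fin 2 → ZMod K) : Fin 2 → ZMod K :=
  if i = 0 then T else ![T 0 * ((i : ℕ) - 1 : ℕ) - T 1, T 0]

theorem vact_cuspRep (i : Fin (K + 1)) (T : Fin 2 → ZMod K) :
    vact T (cuspRep K i) = cuspRepAct K i T := by
  unfold cuspRep cuspRepAct
  split_ifs with h
  · exact vact_one T
  · ext j
    fin_cases j <;> simp [vact, redMat, Matrix.vecMul, dotProduct, Fin.sum_univ_two, sub_eq_add_neg]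

/-- `K ∈ {2, 3}`. -/
def SmallLevel (K : ℕ) : Prop := K = 2 ∨ K = 3

/-- A small level is positive. -/
theorem SmallLevel.pos (hK : SmallLevel K) : 0 < K := by rcases hK with rfl | rfl <;> norm_num

theorem linePt_ne_zero (hK : SmallLevel K) (i : Fin (K + 1)) : linePt K i ≠ 0 := by
  rcases hK with rfl | rfl <;> revert i <;> decide

theorem linePt_pair (hK : SmallLevel K) {i j : Fin (K + 1)} (hij : i ≠ j) :
    XPair (linePt K i) (linePt K j) := by
  refine ⟨linePt_ne_zero hK i, linePt_ne_zero hK j, ?_, ?_⟩ <;>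
    rcases hK with rfl | rfl <;> revert i j <;> decide

theorem linePt_exhaust (hK : SmallLevel K) (T : Fin 2 → ZMod K) (hT : T ≠ 0) :
    ∃ i, linePt K i = T ∨ linePt K i = -T := by
  rcases hK with rfl | rfl <;> revert T <;> decide

theorem cuspRepAct_first (hK : SmallLevel K) (i l : Fin (K + 1)) :
    (cuspRepAct K l (linePt K i) 0).valMinAbs.natAbs = if i = l then 0 else 1 := by
  rcases hK with rfl | rfl <;> revert i l <;> decide

theorem cuspRepAct_self (hK : SmallLevel K) (i : Fin (K + 1)) :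
    cuspRepAct K i (linePt K i) = ![0, 1] := by
  rcases hK with rfl | rfl <;> revert i <;> decide

/-- The index of the zero of the `i`-th generator. -/
def hzero (K : ℕ) (i : Fin (K + 1)) : Fin (K + 1) := if i = 0 then 2 else 0

/-- An index different from `i` and `hzero K i`. -/
def haux (K : ℕ) (i : Fin (K + 1)) : Fin (K + 1) := if i = 1 then 2 else 1

theorem haux_ne (hK : SmallLevel K) (i : Fin (K + 1)) :
    i ≠ haux K i ∧ i ≠ hzero K i ∧ hzero K i ≠ haux K i := by
  rcases hK with rfl | rfl <;> revert i <;> decide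

/-- The `i`-th generator: a simple pole at the `i`-th cusp, a simple zero at the cusp
`hzero K i`, a unit value at every other cusp. -/
def hgen (K : ℕ) (i : Fin (K + 1)) : ℍ → ℂ :=
  xratio K (linePt K i) (linePt K (haux K i)) (linePt K (hzero K i)) (linePt K (haux K i))

variable [NeZero K]

theorem hgen_mem (hK : SmallLevel K) (hO : GoodRing K O) (i : Fin (K + 1)) :
    hgen K i ∈ modularRing (CongruenceSubgroup.Gamma K) K O :=
  xratio_mem hO (linePt_ne_zero hK _) (linePt_ne_zero hK _) (linePt_pair hK (haux_ne hK i).2.2)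

theorem lead_hgen (hK : SmallLevel K) (hO : GoodRing K O) (i l : Fin (K + 1)) :
    ∃ c, IsUnitIn O c ∧ Lead K O (act (cuspRep K l) (hgen K i))
      (if l = i then -1 else if l = hzero K i then 1 else 0) c := by
  obtain ⟨h1, h2, h3⟩ := haux_ne hK i
  obtain ⟨c, hc, hL⟩ := exists_lead_xratio hO ((linePt_pair hK h1).vact (cuspRep K l))
    ((linePt_pair hK h3).vact (cuspRep K l))
  refine ⟨c, hc, ?_⟩
  rw [hgen, act_xratio]
  convert hL using 1
  simp only [xord, vact_cuspRep, cuspRepAct_first hK]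
  rcases eq_or_ne i l with rfl | hil
  · simp [Ne.symm h1, Ne.symm h2]
  rcases eq_or_ne (haux K i) l with rfl | h1l
  · simp [Ne.symm h1, hil, Ne.symm h3, h3]
  rcases eq_or_ne (hzero K i) l with rfl | h2l
  · simp [hil, Ne.symm h2, h1l]
  · simp [hil, h1l, h2l, Ne.symm hil, Ne.symm h2l]

/-- `cuspRep` covers all cusps of `Γ(K)`. -/
theorem cuspRep_cover (hK : SmallLevel K) (δ : SL(2, ℤ)) :
    ∃ i : Fin (K + 1), ∃ j : ℤ, ∀ u : ℍ → ℂ,
      (∀ γ ∈ CongruenceSubgroup.Gamma K, act γ u = u) →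
        act δ u = act (ModularGroup.T ^ j) (act (cuspRep K i) u) := by
  have he : (![0, 1] : Fin 2 → ZMod K) ≠ 0 := by
    rcases hK with rfl | rfl <;> decide
  obtain ⟨i, hi⟩ := linePt_exhaust hK _ (vact_ne_zero he δ⁻¹)
  set r := cuspRep K i
  set g := r⁻¹ * δ with hgdef
  have hr : vact (linePt K i) r = ![0, 1] := by rw [vact_cuspRep, cuspRepAct_self hK]
  have hg : vact (![0, 1] : Fin 2 → ZMod K) g = ![0, 1] ∨
      vact (![0, 1] : Fin 2 → ZMod K) g = -![0, 1] := by
    have h0 : vact (![0, 1] : Fin 2 → ZMod K) g = vact (linePt K i) δ := by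
      rw [hgdef, ← hr, ← vact_mul, mul_inv_cancel_left]
    rw [h0]
    rcases hi with h | h <;> rw [h]
    · left; rw [← vact_mul, inv_mul_cancel, vact_one]
    · right; rw [vact_neg, ← vact_mul, inv_mul_cancel, vact_one]
  -- `g ≡ ± T ^ j` modulo `K`
  have hgamma : ∃ j : ℤ, g * ModularGroup.T ^ (-j) ∈ CongruenceSubgroup.Gamma K ∨
      -(g * ModularGroup.T ^ (-j)) ∈ CongruenceSubgroup.Gamma K := by
    have hdet : ((g 0 0 : ℤ) : ZMod K) * (g 1 1 : ℤ) - (g 0 1 : ℤ) * (g 1 0 : ℤ) = 1 := by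
      have h := g.2
      rw [Matrix.det_fin_two] at h
      exact_mod_cast congrArg (fun z : ℤ => (z : ZMod K)) h
    have hrow : ∀ v : Fin 2 → ZMod K, vact (![0, 1] : Fin 2 → ZMod K) g = v →
        ((g 1 0 : ℤ) : ZMod K) = v 0 ∧ ((g 1 1 : ℤ) : ZMod K) = v 1 := by
      intro v hv
      subst hv
      simp [vact, redMat, Matrix.vecMul, dotProduct, Fin.sum_univ_two]
    have hentries : ∀ j : ℤ, ((g * ModularGroup.T ^ (-j) : SL(2, ℤ)) 0 0 = g 0 0) ∧
        ((g * ModularGroup.T ^ (-j) : SL(2, ℤ)) 0 1 = g 0 1 - j * g 0 0) ∧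
        ((g * ModularGroup.T ^ (-j) : SL(2, ℤ)) 1 0 = g 1 0) ∧
        ((g * ModularGroup.T ^ (-j) : SL(2, ℤ)) 1 1 = g 1 1 - j * g 1 0) := by
      intro j
      simp only [Matrix.SpecialLinearGroup.coe_mul, ModularGroup.coe_T_zpow, Matrix.mul_apply,
        Fin.sum_univ_two]
      simp
      ring_nf
      tauto
    rcases hg with hv | hv
    · obtain ⟨hc, hd⟩ := hrow _ hv
      simp at hc hd
      rw [hd, hc] at hdet
      simp at hdet
      refine ⟨g 0 1, Or.inl ?_⟩
      obtain ⟨e00, e01, e10, e11⟩ := hentries (g 0 1)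
      rw [CongruenceSubgroup.Gamma_mem, e00, e01, e10, e11]
      push_cast
      simp [hc, hd, hdet]
    · obtain ⟨hc, hd⟩ := hrow _ hv
      simp at hc hd
      rw [hd, hc] at hdet
      simp at hdet
      have h00 : ((g 0 0 : ℤ) : ZMod K) = -1 := by linear_combination -hdet
      refine ⟨-(g 0 1), Or.inr ?_⟩
      obtain ⟨e00, e01, e10, e11⟩ := hentries (-(g 0 1))
      rw [CongruenceSubgroup.Gamma_mem]
      simp only [Matrix.SpecialLinearGroup.coe_neg, Matrix.neg_apply, e00, e01, e10, e11]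
      push_cast
      simp [hc, hd, h00]
  obtain ⟨j, hj⟩ := hgamma
  refine ⟨i, j, fun u hu => ?_⟩
  set h := g * ModularGroup.T ^ (-j) with hhdef
  have hδ : δ = r * h * ModularGroup.T ^ j := by rw [hhdef, hgdef]; group
  have hnormal := CongruenceSubgroup.Gamma_normal K
  rw [hδ, act_mul]
  congr 1
  rcases hj with hj | hj
  · rw [show r * h = r * h * r⁻¹ * r by group, act_mul, hu _ (hnormal.conj_mem _ hj r)]
  · rw [← act_neg (r * h), ← mul_neg, show r * -h = r * -h * r⁻¹ * r by group, act_mul,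
      hu _ (hnormal.conj_mem _ hj r)]

/-- `modularRing Γ(K) K O` is the ring generated over `O` by the `hgen K i`. -/
theorem modularRing_Gamma_le (hK : SmallLevel K) (hO : GoodRing K O) (S : Subring (ℍ → ℂ))
    (hS : ∀ i, hgen K i ∈ S) (hOS : ∀ c ∈ O, (fun _ => c) ∈ S) :
    ∀ f ∈ modularRing (CongruenceSubgroup.Gamma K) K O, f ∈ S := by
  choose c hc hL using fun i => lead_hgen hK hO i i
  refine modularRing_le_of_pole_reducers hK.pos (cuspRep K) (cuspRep_cover hK) (hgen K)
    (hgen_mem hK hO) c (fun i => ⟨(hc i).1, (hc i).2.2⟩) (fun i => ?_) (fun i k hk => ?_) S hS hOS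
  · obtain ⟨s, hs, -, h1, h2⟩ := hL i
    simp only [↓reduceIte] at h1 h2
    exact ⟨s, hs, h1, h2⟩
  · obtain ⟨d, -, s, hs, -, h1, -⟩ := lead_hgen hK hO i k
    refine ⟨s, hs, fun n hn => h1 n ?_⟩
    rw [if_neg hk]
    split <;> omega

/-- The Hauptmodul. -/
def hmod (K : ℕ) : ℍ → ℂ := hgen K 0

theorem lead_hmod (hK : SmallLevel K) (hO : GoodRing K O) {l : Fin (K + 1)} (hl : l ≠ 0) :
    ∃ c ∈ O, Lead K O (act (cuspRep K l) (hmod K)) 0 c := by
  obtain ⟨e, -, s, hs, hsO, h1, -⟩ := lead_hgen hK hO 0 l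
  refine ⟨_, hsO 0, s, hs, hsO, fun n hn => h1 n ?_, rfl⟩
  rw [if_neg hl]; split <;> omega

/-- Relation of the generators with the Hauptmodul: `hgen K i * (hmod K - c_i) = d_i`,
with `c_i ∈ O` having unit differences and `d_i` a unit. -/
theorem exists_hmod_relation (hK : SmallLevel K) (hO : GoodRing K O) :
    ∃ c d : Fin (K + 1) → ℂ, (∀ i, c i ∈ O) ∧ (∀ i, IsUnitIn O (d i)) ∧
      (∀ i, i ≠ 0 → hgen K i * (hmod K - fun _ => c i) = fun _ => d i) ∧
      (∀ i k, i ≠ 0 → k ≠ 0 → i ≠ k → IsUnitIn O (c i - c k)) := by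
  have hh : 0 < K := hK.pos
  have key : ∀ i : Fin (K + 1), i ≠ 0 → ∃ c ∈ O, ∃ d, IsUnitIn O d ∧
      (hgen K i * (hmod K - fun _ => c) = fun _ => d) ∧
      Lead K O (act (cuspRep K i) (hmod K)) 0 c := by
    intro i hi
    obtain ⟨c, hcO, hLc⟩ := lead_hmod hK hO hi
    refine ⟨c, hcO, ?_⟩
    set v := hgen K i * (hmod K - fun _ => c) with hv
    have hvmem : v ∈ modularRing (CongruenceSubgroup.Gamma K) K O :=
      mul_mem (hgen_mem hK hO i) (sub_mem (hgen_mem hK hO 0) (const_mem_modularRing hcO))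
    have hz : hzero K i = 0 := by simp [hzero, hi]
    -- the leading term at the cusp of the Hauptmodul
    obtain ⟨e₁, he₁, hL₁⟩ := lead_hgen hK hO i 0
    rw [if_neg hi.symm, if_pos hz.symm] at hL₁
    obtain ⟨e₀, he₀, hL₀⟩ := lead_hgen hK hO 0 0
    rw [if_pos rfl] at hL₀
    have hL0c : Lead K O (act (cuspRep K 0) (hmod K - fun _ => c)) (-1) e₀ := by
      obtain ⟨s, hs, hsO, h1, h2⟩ := hL₀
      refine ⟨s - HahnSeries.C c, ?_, fun n => ?_, fun n hn => ?_, ?_⟩
      · rw [map_sub]; exact hs.sub (hasExp_C K c)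
      · rw [HahnSeries.coeff_sub, HahnSeries.C_apply, HahnSeries.coeff_single]
        refine O.sub_mem (hsO n) ?_
        split <;> simp [hcO]
      · rw [HahnSeries.coeff_sub, HahnSeries.C_apply, h1 n hn,
          HahnSeries.coeff_single_of_ne (by omega), sub_zero]
      · rw [HahnSeries.coeff_sub, HahnSeries.C_apply, h2,
          HahnSeries.coeff_single_of_ne (by omega), sub_zero]
    have hL0v : Lead K O (act (cuspRep K 0) v) 0 (e₁ * e₀) := by
      rw [hv, map_mul]
      simpa using hL₁.mul hh hL0c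
    have hrep : ∀ l, ∃ t, HasExp K (act (cuspRep K l) v) t ∧ ∀ n < 0, t.coeff n = 0 := by
      intro l
      rcases eq_or_ne l 0 with rfl | hl0
      · obtain ⟨t, ht, -, ht0, -⟩ := hL0v
        exact ⟨t, ht, ht0⟩
      obtain ⟨p1, -, p, hp, -, hp1, -⟩ := lead_hgen hK hO i l
      obtain ⟨c', -, w, hw, -, hw1, hw2⟩ := lead_hmod hK hO hl0
      refine ⟨p * (w - HahnSeries.C c), ?_, fun n hn => ?_⟩
      · rw [hv, map_mul, map_sub]
        exact hp.mul (hw.sub (hasExp_C K c))
      rcases eq_or_ne l i with rfl | hli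
      · obtain ⟨s, hs, -, hs0, hsc⟩ := hLc
        obtain rfl := hw.unique hh hs
        refine coeff_mul_below (a := -1) (b := 1) (fun m hm => hp1 m (by rwa [if_pos rfl]))
          (fun m hm => ?_) (by omega)
        rw [HahnSeries.coeff_sub, HahnSeries.C_apply]
        rcases lt_or_eq_of_le (show m ≤ 0 by omega) with h | rfl
        · rw [hs0 m h, HahnSeries.coeff_single_of_ne h.ne, sub_zero]
        · rw [hsc, HahnSeries.coeff_single_same, sub_self]
      · refine coeff_mul_below (a := 0) (b := 0) (fun m hm => hp1 m ?_) (fun m hm => ?_) (by omega)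
        · rw [if_neg hli, hz, if_neg hl0]; exact hm
        · rw [HahnSeries.coeff_sub, HahnSeries.C_apply, HahnSeries.coeff_single_of_ne hm.ne,
            sub_zero]
          exact hw1 m hm
    have hord : ∀ δ, ∃ t, HasExp K (act δ v) t ∧ ∀ n < 0, t.coeff n = 0 := by
      intro δ
      obtain ⟨l, j, hlj⟩ := cuspRep_cover hK δ
      obtain ⟨t, ht, ht0⟩ := hrep l
      refine ⟨_, (hlj v hvmem.2.1) ▸ ht.act_T j, fun n hn => ?_⟩
      rw [twist_coeff, ht0 n hn, zero_mul]
    obtain ⟨d, hd⟩ := eq_const_of_orders_nonneg hh hvmem.1 hvmem.2.1 hord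
    have hde : d = e₁ * e₀ := by
      obtain ⟨t, ht, -, -, ht2⟩ := hL0v
      rw [hd] at ht
      rw [← ht2, ht.unique hh (hasExp_C K d), HahnSeries.C_apply, HahnSeries.coeff_single_same]
    exact ⟨d, hde ▸ he₁.mul he₀, hd, hLc⟩
  choose c hc d hd hrel hLc using key
  refine ⟨fun i => if h : i = 0 then 0 else c i h, fun i => if h : i = 0 then 1 else d i h,
    fun i => ?_, fun i => ?_, fun i hi => ?_, fun i k hi hk hik => ?_⟩
  · dsimp only
    split
    · exact O.zero_mem
    · exact hc i _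
  · dsimp only
    split
    · exact isUnitIn_one
    · exact hd i _
  · simp only [dif_neg hi]; exact hrel i hi
  · simp only [dif_neg hi, dif_neg hk]
    obtain ⟨e, he, hL⟩ := lead_hgen hK hO k i
    rw [if_neg hik, if_neg (show i ≠ hzero K k by simp [hzero, hk, hi])] at hL
    have hsub : Lead K O (act (cuspRep K i) (hmod K - fun _ => c k hk)) 0 (c i hi - c k hk) := by
      rw [map_sub, sub_eq_add_neg, sub_eq_add_neg]
      exact (hLc i hi).add (lead_const (hc k hk)).neg
    have hprod : Lead K O (fun _ => d k hk) 0 (e * (c i hi - c k hk)) := by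
      have := hL.mul hh hsub
      rwa [← map_mul, hrel k hk, add_zero] at this
    obtain ⟨t, ht, -, -, ht2⟩ := hprod
    rw [ht.unique hh (hasExp_C K _), HahnSeries.C_apply, HahnSeries.coeff_single_same] at ht2
    have : c i hi - c k hk = d k hk / e := by
      rw [ht2, mul_div_cancel_left₀ _ he.1]
    rw [this]
    exact (hd k hk).div he

end FLTAgent.LevelM
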