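import Mathlib.NumberTheory.ModularForms.EisensteinSeries.QExpansion
import Mathlib.NumberTheory.ModularForms.EisensteinSeries.Summable
import Mathlib.Analysis.Normed.Group.Tannery

/-!
# The sum `∑_d (w + d)⁻²`

`invSqSum w` has the `q`-series `(2πi)² ∑ n qⁿ` in the upper half plane and is given by the same
rational function of `exp (2πiw)` at real non-integral `w`.
-/

set_option autoImplicit false

noncomputable section

open Filter Complex
open scoped Topology UpperHalfPlane Real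

namespace FLTAgent.LevelM

/-- `∑_{d ∈ ℤ} 1 / (w + d)²`. -/
def invSqSum (w : ℂ) : ℂ := ∑' d : ℤ, ((w + d) ^ 2)⁻¹

theorem summable_invSq (w : ℂ) : Summable fun d : ℤ => ((w + d) ^ 2)⁻¹ := by
  have := EisensteinSeries.linear_right_summable w 1 (k := 2) le_rfl
  simpa [zpow_ofNat] using this

theorem hasSum_invSqSum (w : ℂ) : HasSum (fun d : ℤ => ((w + d) ^ 2)⁻¹) (invSqSum w) :=
  (summable_invSq w).hasSum

theorem invSqSum_neg (w : ℂ) : invSqSum (-w) = invSqSum w := by
  rw [invSqSum, invSqSum, ← (Equiv.neg ℤ).tsum_eq]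
  refine tsum_congr fun d => ?_
  simp only [Equiv.neg_apply, Int.cast_neg]
  rw [show (-w + -(d : ℂ)) ^ 2 = (w + d) ^ 2 by ring]

/-- The `q`-series of `invSqSum` on the upper half plane. -/
theorem hasSum_invSqSum_geometric {w : ℂ} (hw : 0 < w.im) :
    HasSum (fun n : ℕ => (2 * π * I) ^ 2 * ((n : ℂ) * cexp (2 * π * I * w) ^ n)) (invSqSum w) := by
  have h := EisensteinSeries.qExpansion_identity (k := 1) le_rfl ⟨w, hw⟩
  have hnorm : ‖cexp (2 * π * I * w)‖ < 1 := UpperHalfPlane.norm_exp_two_pi_I_lt_one ⟨w, hw⟩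
  have hs := (hasSum_coe_mul_geometric_of_norm_lt_one hnorm).mul_left ((2 * (π : ℂ) * I) ^ 2)
  have key : invSqSum w =
      (2 * π * I) ^ 2 * (cexp (2 * π * I * w) / (1 - cexp (2 * π * I * w)) ^ 2) := by
    rw [← tsum_coe_mul_geometric_of_norm_lt_one hnorm, invSqSum]
    simp only [pow_one, Nat.factorial_one, Nat.cast_one, div_one, one_div] at h
    rw [h, show (-2 * (π : ℂ) * I) ^ 2 = (2 * π * I) ^ 2 by ring]
  rw [key]
  exact hs

theorem invSqSum_of_im_pos {w : ℂ} (hw : 0 < w.im) :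
    invSqSum w = (2 * π * I) ^ 2 * (cexp (2 * π * I * w) / (1 - cexp (2 * π * I * w)) ^ 2) :=
  (hasSum_invSqSum_geometric hw).unique
    ((hasSum_coe_mul_geometric_of_norm_lt_one
      (UpperHalfPlane.norm_exp_two_pi_I_lt_one ⟨w, hw⟩)).mul_left _)

theorem exp_two_pi_I_ne_one_of_not_int {x : ℝ} (hx : ∀ n : ℤ, x ≠ n) :
    cexp (2 * π * I * x) ≠ 1 := by
  intro h
  obtain ⟨n, hn⟩ := Complex.exp_eq_one_iff.mp h
  refine hx n ?_
  have : (x : ℂ) = (n : ℂ) := mul_left_cancel₀ two_pi_I_ne_zero (by linear_combination hn)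
  exact_mod_cast this

theorem invSqSum_ofReal {x : ℝ} (hx : ∀ n : ℤ, x ≠ n) :
    invSqSum x = (2 * π * I) ^ 2 * (cexp (2 * π * I * x) / (1 - cexp (2 * π * I * x)) ^ 2) := by
  let w : ℝ → ℂ := fun t => x + t * I
  have hw : Tendsto w (𝓝[>] 0) (𝓝 (x : ℂ)) := by
    refine (Continuous.tendsto' (by fun_prop) _ _ ?_).mono_left nhdsWithin_le_nhds
    simp [w]
  have hd : ∀ d : ℤ, (x : ℂ) + d ≠ 0 := fun d h0 => by
    have h1 : x + (d : ℝ) = 0 := by exact_mod_cast h0
    exact hx (-d) (by push_cast; linarith)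
  have hlhs : Tendsto (fun t => invSqSum (w t)) (𝓝[>] 0) (𝓝 (invSqSum x)) := by
    refine tendsto_tsum_of_dominated_convergence (bound := fun d : ℤ => ‖(((x : ℂ) + d) ^ 2)⁻¹‖)
      (summable_invSq (x : ℂ)).norm (fun d => ?_) (Eventually.of_forall fun t d => ?_)
    · exact ((hw.add_const _).pow 2).inv₀ (pow_ne_zero 2 (hd d))
    · rw [norm_inv, norm_inv, norm_pow, norm_pow]
      have hpos : 0 < ‖(x : ℂ) + d‖ := norm_pos_iff.mpr (hd d)
      refine inv_anti₀ (by positivity) (pow_le_pow_left₀ hpos.le ?_ 2)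
      have h1 : (x : ℂ) + d = ((x + d : ℝ) : ℂ) := by push_cast; ring
      rw [h1, Complex.norm_real]
      refine le_trans (le_of_eq ?_) (Complex.abs_re_le_norm _)
      simp [w]
  have hrhs : Tendsto (fun t => (2 * π * I) ^ 2 *
      (cexp (2 * π * I * w t) / (1 - cexp (2 * π * I * w t)) ^ 2)) (𝓝[>] 0)
      (𝓝 ((2 * π * I) ^ 2 * (cexp (2 * π * I * x) / (1 - cexp (2 * π * I * x)) ^ 2))) := by
    have he : Tendsto (fun t => cexp (2 * π * I * w t)) (𝓝[>] 0) (𝓝 (cexp (2 * π * I * x))) :=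
      (Complex.continuous_exp.tendsto _).comp (hw.const_mul _)
    exact (he.div ((he.const_sub 1).pow 2)
      (pow_ne_zero 2 (sub_ne_zero.mpr (exp_two_pi_I_ne_one_of_not_int hx).symm))).const_mul _
  refine tendsto_nhds_unique (hlhs.congr' ?_) hrhs
  filter_upwards [self_mem_nhdsWithin] with t ht
  exact invSqSum_of_im_pos (by simpa [w] using ht)

end FLTAgent.LevelM
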