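import Fermat.Agent.LevelM.ModularRing

/-!
# Leading terms of integral expansions

`Lead h O f m c`: the expansion of `f` in `q_h` has coefficients in `O` and leading term
`c q^m`. It is compatible with sums, products, inverses and quotients with unit leading terms.
-/

set_option autoImplicit false

noncomputable section

open scoped UpperHalfPlane
open Filter UpperHalfPlane

namespace FLTAgent.LevelM

/-- `c` is a unit of the subring `O` of `ℂ`. -/
def IsUnitIn (O : Subring ℂ) (c : ℂ) : Prop := c ≠ 0 ∧ c ∈ O ∧ c⁻¹ ∈ O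

variable {O : Subring ℂ} {c d : ℂ}

theorem isUnitIn_one : IsUnitIn O 1 := ⟨one_ne_zero, O.one_mem, by rw [inv_one]; exact O.one_mem⟩

theorem IsUnitIn.mul (hc : IsUnitIn O c) (hd : IsUnitIn O d) : IsUnitIn O (c * d) :=
  ⟨mul_ne_zero hc.1 hd.1, O.mul_mem hc.2.1 hd.2.1, by rw [mul_inv]; exact O.mul_mem hc.2.2 hd.2.2⟩

theorem IsUnitIn.inv (hc : IsUnitIn O c) : IsUnitIn O c⁻¹ :=
  ⟨inv_ne_zero hc.1, hc.2.2, by rw [inv_inv]; exact hc.2.1⟩

theorem IsUnitIn.div (hc : IsUnitIn O c) (hd : IsUnitIn O d) : IsUnitIn O (c / d) :=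
  div_eq_mul_inv c d ▸ hc.mul hd.inv

theorem IsUnitIn.neg (hc : IsUnitIn O c) : IsUnitIn O (-c) :=
  ⟨neg_ne_zero.mpr hc.1, O.neg_mem hc.2.1, by rw [inv_neg]; exact O.neg_mem hc.2.2⟩

theorem IsUnitIn.pow (hc : IsUnitIn O c) (n : ℕ) : IsUnitIn O (c ^ n) :=
  ⟨pow_ne_zero n hc.1, O.pow_mem hc.2.1 n, by rw [← inv_pow]; exact O.pow_mem hc.2.2 n⟩

/-- `f` has an `O`-integral expansion in `q_h` whose coefficients vanish below `m` and equal `c`
in degree `m`. -/
def Lead (h : ℕ) (O : Subring ℂ) (f : ℍ → ℂ) (m : ℤ) (c : ℂ) : Prop :=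
  ∃ s, HasExp h f s ∧ (∀ n, s.coeff n ∈ O) ∧ (∀ n < m, s.coeff n = 0) ∧ s.coeff m = c

variable {h : ℕ} {f g : ℍ → ℂ} {m k : ℤ}

theorem Lead.intExp (hf : Lead h O f m c) : IntExp h O f := by
  obtain ⟨s, hs, hO, -, -⟩ := hf
  exact intExp_iff.mpr ⟨s, hs, hO⟩

theorem lead_const (hc : c ∈ O) : Lead h O (fun _ => c) 0 c :=
  ⟨_, hasExp_C h c,
    fun n => by rw [HahnSeries.C_apply, HahnSeries.coeff_single]; split <;> simp [hc],
    fun n hn => by rw [HahnSeries.C_apply, HahnSeries.coeff_single_of_ne hn.ne],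
    by simp [HahnSeries.C_apply]⟩

theorem Lead.neg (hf : Lead h O f m c) : Lead h O (-f) m (-c) := by
  obtain ⟨s, hs, h1, h2, h3⟩ := hf
  exact ⟨-s, hs.neg, fun n => by simpa using h1 n, fun n hn => by simp [h2 n hn], by simp [h3]⟩

theorem Lead.add (hf : Lead h O f m c) (hg : Lead h O g m d) : Lead h O (f + g) m (c + d) := by
  obtain ⟨s, hs, h1, h2, h3⟩ := hf
  obtain ⟨t, ht, g1, g2, g3⟩ := hg
  exact ⟨s + t, hs.add ht, fun n => by simpa using O.add_mem (h1 n) (g1 n),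
    fun n hn => by simp [h2 n hn, g2 n hn], by simp [h3, g3]⟩

theorem Lead.mul (hh : 0 < h) (hf : Lead h O f m c) (hg : Lead h O g k d) :
    Lead h O (f * g) (m + k) (c * d) := by
  have hfi := hf.intExp
  have hgi := hg.intExp
  obtain ⟨s, hs, h1, h2, h3⟩ := hf
  obtain ⟨t, ht, g1, g2, g3⟩ := hg
  exact ⟨s * t, hs.mul ht, fun n => (hs.mul ht).coeff_mem hh (hfi.mul hgi) n,
    fun n hn => coeff_mul_below h2 g2 hn, by rw [coeff_mul_lead h2 g2, h3, g3]⟩

theorem Lead.inv (hh : 0 < h) (hf : Lead h O f m c) (hc : IsUnitIn O c) :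
    Lead h O f⁻¹ (-m) c⁻¹ := by
  obtain ⟨s, hs, h1, h2, h3⟩ := hf
  have hne : s.coeff m ≠ 0 := h3 ▸ hc.1
  have hi : IntExp h O f⁻¹ := IntExp.inv hh hs h1 h2 hne (h3 ▸ hc.2.2)
  have hs0 : s ≠ 0 := fun h0 => hne (by simp [h0])
  have hinv := hs.inv hh hs0
  have hord : s.order = m := le_antisymm (HahnSeries.order_le_of_coeff_ne_zero hne)
    (by
      by_contra hlt
      push Not at hlt
      exact HahnSeries.coeff_order_eq_zero.not.mpr hs0 (h2 _ hlt))
  have hmul : s⁻¹ * s = 1 := inv_mul_cancel₀ hs0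
  have hord' : s⁻¹.order = -m := by
    have := HahnSeries.order_mul (inv_ne_zero hs0) hs0
    rw [hmul, HahnSeries.order_one, hord] at this
    omega
  refine ⟨s⁻¹, hinv, fun n => hinv.coeff_mem hh hi n,
    fun n hn => HahnSeries.coeff_eq_zero_of_lt_order (hord'.symm ▸ hn), ?_⟩
  have hlow : ∀ n < -m, s⁻¹.coeff n = 0 :=
    fun n hn => HahnSeries.coeff_eq_zero_of_lt_order (hord'.symm ▸ hn)
  have := coeff_mul_lead hlow h2
  rw [hmul, neg_add_cancel, h3] at this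
  simp only [HahnSeries.coeff_one, ↓reduceIte] at this
  exact eq_inv_of_mul_eq_one_left this.symm

theorem Lead.div (hh : 0 < h) (hf : Lead h O f m c) (hg : Lead h O g k d) (hd : IsUnitIn O d) :
    Lead h O (f / g) (m - k) (c / d) := by
  rw [div_eq_mul_inv, div_eq_mul_inv, sub_eq_add_neg]
  exact hf.mul hh (hg.inv hh hd)

end FLTAgent.LevelM
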