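import Fermat.Agent.LevelM.TorsionX
import Fermat.Agent.LevelM.Lead
import Mathlib.Algebra.Field.GeomSum

/-!
# Integrality and leading terms of torsion differences

All coefficients of `xdiff M T U` lie in any subring containing `ζ_M` and `1/M`, and the
leading coefficient is a unit there when `T ≠ ± U`.
-/

set_option autoImplicit false

noncomputable section

open Filter Complex
open scoped UpperHalfPlane Real

namespace FLTAgent.LevelM

variable {M : ℕ} {O : Subring ℂ}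

/-- The hypotheses on the coefficient ring. -/
structure GoodRing (M : ℕ) (O : Subring ℂ) : Prop where
  pos : 0 < M
  zeta_mem : zetaM M ∈ O
  inv_mem : (M : ℂ)⁻¹ ∈ O

/-- A good coefficient ring contains all powers of the root of unity. -/
theorem GoodRing.zpow_mem (hO : GoodRing M O) (k : ℤ) : zetaM M ^ k ∈ O := by
  have hM : (M : ℤ) ≠ 0 := by exact_mod_cast hO.pos.ne'
  rw [zetaM_zpow_congr hO.pos (l := k % M) ⟨k / M, by rw [Int.emod_def]; ring⟩,
    ← Int.toNat_of_nonneg (Int.emod_nonneg k hM), zpow_natCast]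
  exact O.pow_mem hO.zeta_mem _

theorem GoodRing.isUnitIn_zpow (hO : GoodRing M O) (k : ℤ) : IsUnitIn O (zetaM M ^ k) :=
  ⟨zpow_ne_zero k zetaM_ne_zero, hO.zpow_mem k, by rw [← zpow_neg]; exact hO.zpow_mem _⟩

/-- For a nontrivial `M`-th root of unity `η`, `(1 - η) · ∑ i η^i = -M`. -/
theorem one_sub_mul_sum_mul_pow {η : ℂ} (hη : η ^ M = 1) (hne : η ≠ 1) :
    (1 - η) * ∑ i ∈ Finset.range M, (i : ℂ) * η ^ i = -(M : ℂ) := by
  have hgen : ∀ n : ℕ, (1 - η) * ∑ i ∈ Finset.range n, (i : ℂ) * η ^ i =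
      ∑ i ∈ Finset.range n, η ^ (i + 1) - (n : ℂ) * η ^ n := by
    intro n
    induction n with
    | zero => simp
    | succ n ih =>
      rw [Finset.sum_range_succ, Finset.sum_range_succ, mul_add, ih]
      push_cast
      ring
  rw [hgen, hη, mul_one]
  have h0 : ∑ i ∈ Finset.range M, η ^ (i + 1) = 0 := by
    simp only [pow_succ, ← Finset.sum_mul, geom_sum_eq hne, hη, sub_self, zero_div, zero_mul]
  rw [h0, zero_sub]

theorem GoodRing.isUnitIn_one_sub (hO : GoodRing M O) {k : ℤ} (hk : ¬(M : ℤ) ∣ k) :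
    IsUnitIn O (1 - zetaM M ^ k) := by
  have hne : zetaM M ^ k ≠ 1 := fun h => hk ((zetaM_zpow_eq_one_iff hO.pos k).mp h)
  have hpow : (zetaM M ^ k) ^ M = 1 := by
    rw [← zpow_natCast, ← zpow_mul, (zetaM_zpow_eq_one_iff hO.pos _).mpr (Dvd.intro_left k rfl)]
  have h := one_sub_mul_sum_mul_pow hpow hne
  have hsum : (∑ i ∈ Finset.range M, (i : ℂ) * (zetaM M ^ k) ^ i) ∈ O :=
    O.sum_mem fun i _ => O.mul_mem (natCast_mem O i) (O.pow_mem (hO.zpow_mem k) i)
  have h1 : (1 - zetaM M ^ k) ≠ 0 := sub_ne_zero.mpr hne.symm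
  refine ⟨h1, O.sub_mem O.one_mem (hO.zpow_mem k), ?_⟩
  have hMc : (M : ℂ) ≠ 0 := by exact_mod_cast hO.pos.ne'
  have : (1 - zetaM M ^ k)⁻¹ =
      -((M : ℂ)⁻¹ * ∑ i ∈ Finset.range M, (i : ℂ) * (zetaM M ^ k) ^ i) := by
    refine inv_eq_of_mul_eq_one_right ?_
    rw [mul_neg, mul_left_comm, h]
    field_simp
  rw [this]
  exact O.neg_mem (O.mul_mem hO.inv_mem hsum)

/-- The constant term attached to `b`. -/
def xConst (M : ℕ) (b : ℤ) : ℂ := zetaM M ^ b / (1 - zetaM M ^ b) ^ 2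

theorem GoodRing.isUnitIn_xConst (hO : GoodRing M O) {b : ℤ} (hb : ¬(M : ℤ) ∣ b) :
    IsUnitIn O (xConst M b) :=
  (hO.isUnitIn_zpow b).div ((hO.isUnitIn_one_sub hb).pow 2)

theorem GoodRing.xTerm_mem (hO : GoodRing M O) (a b : ℤ) (p : ℤ × ℕ) : xTerm M a b p ∈ O := by
  rw [xTerm]
  split_ifs
  · exact O.mul_mem (natCast_mem O _) (hO.zpow_mem _)
  · exact O.zero_mem

theorem GoodRing.xCoeff_mem (hO : GoodRing M O) {a b : ℤ} (hab : ¬((M : ℤ) ∣ a ∧ (M : ℤ) ∣ b))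
    (m : ℕ) : xCoeff M a b m ∈ O := by
  rw [xCoeff]
  split_ifs with hm ha
  · exact (hO.isUnitIn_xConst fun hb => hab ⟨ha, hb⟩).2.1
  · exact O.zero_mem
  · exact O.sum_mem fun p _ => hO.xTerm_mem a b p

theorem xCoeff_zero_of_dvd {a b : ℤ} (ha : (M : ℤ) ∣ a) : xCoeff M a b 0 = xConst M b := by
  rw [xCoeff, if_pos rfl, if_pos ha, xConst]

theorem xCoeff_zero_of_not_dvd {a b : ℤ} (ha : ¬(M : ℤ) ∣ a) : xCoeff M a b 0 = 0 := by
  rw [xCoeff, if_pos rfl, if_neg ha]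

/-- The coefficients in degrees not exceeding the smallest `|e|`, `e ≡ a`, `e ≠ 0`. -/
theorem xCoeff_eq_of_le {a b : ℤ} {m : ℕ} (hm : m ≠ 0)
    (h : ∀ e : ℤ, (M : ℤ) ∣ e - a → e ≠ 0 → m ≤ e.natAbs) :
    xCoeff M a b m = (if (M : ℤ) ∣ (m : ℤ) - a then zetaM M ^ b else 0) +
      (if (M : ℤ) ∣ -(m : ℤ) - a then zetaM M ^ (-b) else 0) := by
  rw [xCoeff, if_neg hm]
  let A : Finset (ℤ × ℕ) := {((m : ℤ), 1), (-(m : ℤ), 1)}
  have hsub : A ⊆ xBox m := by
    intro p hp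
    rw [mem_xBox hm]
    simp only [A, Finset.mem_insert, Finset.mem_singleton] at hp
    rcases hp with rfl | rfl <;> simp
  have hne : (m : ℤ) ≠ 0 := by exact_mod_cast hm
  rw [← Finset.sum_subset hsub ?_]
  · rw [Finset.sum_pair (by intro heq; simp [Prod.ext_iff] at heq; omega)]
    have hm' : (0 : ℤ) < m := by omega
    congr 1
    · simp [xTerm, hm, Int.sign_eq_one_of_pos hm']
    · simp [xTerm, hm, Int.sign_eq_one_of_pos hm']
  · intro p hp hpA
    rw [xTerm]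
    split_ifs with hc
    · exfalso
      have hprod := (mem_xBox hm).mp hp
      have hle := h p.1 hc.1 hc.2
      rcases Nat.eq_zero_or_pos p.2 with h0 | h0
      · rw [h0] at hprod; simp at hprod; omega
      have h1 : p.2 = 1 := by
        by_contra hne1
        have h2 : 2 ≤ p.2 := by omega
        have h3 : 2 * p.1.natAbs ≤ p.2 * p.1.natAbs := Nat.mul_le_mul_right _ h2
        omega
      rw [h1, one_mul] at hprod
      simp only [A, Finset.mem_insert, Finset.mem_singleton, Prod.ext_iff] at hpA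
      omega
    · rfl

theorem le_natAbs_of_congr (hM : 0 < M) {a : ℕ} (ha : 2 * a ≤ M) {e : ℤ}
    (he : (M : ℤ) ∣ e - (a : ℤ)) : a ≤ e.natAbs := by
  obtain ⟨c, hc⟩ := he
  rcases le_or_gt 0 c with hc0 | hc0
  · have : 0 ≤ (M : ℤ) * c := by positivity
    omega
  · have : (M : ℤ) * c ≤ (M : ℤ) * (-1) := mul_le_mul_of_nonneg_left (by omega) (by positivity)
    omega

theorem le_natAbs_of_dvd {e : ℤ} (he : (M : ℤ) ∣ e) (he0 : e ≠ 0) : M ≤ e.natAbs :=
  Nat.le_of_dvd (Int.natAbs_pos.mpr he0) (Int.natCast_dvd.mp he)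

theorem xCoeff_eq_zero_of_lt (hM : 0 < M) {a : ℕ} (ha : 2 * a ≤ M) {b : ℤ} {m : ℕ} (hlt : m < a) :
    xCoeff M a b m = 0 := by
  rcases Nat.eq_zero_or_pos m with rfl | hm
  · refine xCoeff_zero_of_not_dvd fun h => ?_
    have := le_natAbs_of_dvd h (by omega)
    omega
  rw [xCoeff_eq_of_le hm.ne' fun e he _ => le_trans hlt.le (le_natAbs_of_congr hM ha he),
    if_neg, if_neg, add_zero]
  · intro h
    have := le_natAbs_of_congr hM ha h
    omega
  · intro h
    have := le_natAbs_of_congr hM ha h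
    omega

theorem xCoeff_self (hM : 0 < M) {a : ℕ} (ha0 : a ≠ 0) (ha : 2 * a ≤ M) (b : ℤ) :
    xCoeff M a b a = zetaM M ^ b + (if 2 * a = M then zetaM M ^ (-b) else 0) := by
  rw [xCoeff_eq_of_le ha0 fun e he _ => le_natAbs_of_congr hM ha he, if_pos (by simp)]
  congr 1
  refine if_congr ⟨fun h => ?_, fun h => ?_⟩ rfl rfl
  · have := le_natAbs_of_dvd h (by omega)
    omega
  · exact ⟨-1, by rw [← h]; push_cast; ring⟩

theorem hasExp_sub_mem (hO : GoodRing M O) {a b a' b' : ℤ} (h : ¬((M : ℤ) ∣ a ∧ (M : ℤ) ∣ b))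
    (h' : ¬((M : ℤ) ∣ a' ∧ (M : ℤ) ∣ b')) (n : ℤ) :
    (xSeries M a b - xSeries M a' b').coeff n ∈ O := by
  rw [HahnSeries.coeff_sub]
  rcases lt_or_ge n 0 with hn | hn
  · rw [xSeries_coeff_neg _ _ hn, xSeries_coeff_neg _ _ hn, sub_zero]; exact O.zero_mem
  · lift n to ℕ using hn
    rw [xSeries_coeff, xSeries_coeff]
    exact O.sub_mem (hO.xCoeff_mem h n) (hO.xCoeff_mem h' n)

/-- Building a leading term for a difference from the low coefficients. -/
theorem lead_sub_of_coeff (hO : GoodRing M O) {a b a' b' : ℤ} (h : ¬((M : ℤ) ∣ a ∧ (M : ℤ) ∣ b))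
    (h' : ¬((M : ℤ) ∣ a' ∧ (M : ℤ) ∣ b')) (m : ℕ) {c : ℂ}
    (hlow : ∀ n < m, xCoeff M a b n = xCoeff M a' b' n)
    (hm : xCoeff M a b m - xCoeff M a' b' m = c) :
    Lead M O (xvalZ M a b - xvalZ M a' b') m c := by
  refine ⟨_, hasExp_xvalZ_sub hO.pos h h', hasExp_sub_mem hO h h', fun n hn => ?_, ?_⟩
  · rw [HahnSeries.coeff_sub]
    rcases lt_or_ge n 0 with hn0 | hn0
    · rw [xSeries_coeff_neg _ _ hn0, xSeries_coeff_neg _ _ hn0, sub_zero]
    · lift n to ℕ using hn0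
      rw [xSeries_coeff, xSeries_coeff, hlow n (by exact_mod_cast hn), sub_self]
  · rw [HahnSeries.coeff_sub, xSeries_coeff, xSeries_coeff, hm]

/-- `a = 0 < a'`: constant leading term. -/
theorem lead_zero_pos (hO : GoodRing M O) {b b' : ℤ} (hb : ¬(M : ℤ) ∣ b) {a' : ℕ} (ha' : 0 < a')
    (ha'M : 2 * a' ≤ M) :
    Lead M O (xvalZ M 0 b - xvalZ M a' b') 0 (xConst M b) := by
  have h' : ¬(M : ℤ) ∣ (a' : ℤ) := fun hd => by
    have := le_natAbs_of_dvd hd (by omega)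
    omega
  refine lead_sub_of_coeff hO (fun hh => hb hh.2) (fun hh => h' hh.1) 0
    (fun n hn => absurd hn (by omega)) ?_
  rw [xCoeff_zero_of_dvd (dvd_zero _), xCoeff_zero_of_not_dvd h', sub_zero]

/-- `a = a' = 0`. -/
theorem lead_zero_zero (hO : GoodRing M O) {b b' : ℤ} (hb : ¬(M : ℤ) ∣ b) (hb' : ¬(M : ℤ) ∣ b') :
    Lead M O (xvalZ M 0 b - xvalZ M 0 b') 0 (xConst M b - xConst M b') := by
  refine lead_sub_of_coeff hO (fun hh => hb hh.2) (fun hh => hb' hh.2) 0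
    (fun n hn => absurd hn (by omega)) ?_
  rw [xCoeff_zero_of_dvd (dvd_zero _), xCoeff_zero_of_dvd (dvd_zero _)]

theorem not_dvd_of_pos_of_two_mul_le {a : ℕ} (ha : 0 < a) (haM : 2 * a ≤ M) :
    ¬(M : ℤ) ∣ (a : ℤ) := fun hd => by
  have := le_natAbs_of_dvd hd (by omega)
  omega

/-- `0 < a < a'`: leading term `ζ^b q^a`. -/
theorem lead_pos_lt (hO : GoodRing M O) {b b' : ℤ} {a a' : ℕ} (ha : 0 < a) (haa' : a < a')
    (ha'M : 2 * a' ≤ M) :
    Lead M O (xvalZ M a b - xvalZ M a' b') a (zetaM M ^ b) := by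
  refine lead_sub_of_coeff hO (fun hh => not_dvd_of_pos_of_two_mul_le ha (by omega) hh.1)
    (fun hh => not_dvd_of_pos_of_two_mul_le (by omega) ha'M hh.1) a (fun n hn => ?_) ?_
  · rw [xCoeff_eq_zero_of_lt hO.pos (by omega) hn, xCoeff_eq_zero_of_lt hO.pos ha'M (by omega)]
  · rw [xCoeff_self hO.pos ha.ne' (by omega), if_neg (by omega), add_zero,
      xCoeff_eq_zero_of_lt hO.pos ha'M haa', sub_zero]

/-- `0 < a = a'`: leading coefficient of `q^a`. -/
theorem lead_pos_eq (hO : GoodRing M O) {b b' : ℤ} {a : ℕ} (ha : 0 < a) (haM : 2 * a ≤ M) :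
    Lead M O (xvalZ M a b - xvalZ M a b') a
      ((zetaM M ^ b - zetaM M ^ b') *
        (if 2 * a = M then 1 - zetaM M ^ (-b - b') else 1)) := by
  refine lead_sub_of_coeff hO (fun hh => not_dvd_of_pos_of_two_mul_le ha haM hh.1)
    (fun hh => not_dvd_of_pos_of_two_mul_le ha haM hh.1) a (fun n hn => ?_) ?_
  · rw [xCoeff_eq_zero_of_lt hO.pos haM hn, xCoeff_eq_zero_of_lt hO.pos haM hn]
  · rw [xCoeff_self hO.pos ha.ne' haM, xCoeff_self hO.pos ha.ne' haM]
    split_ifs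
    · simp only [sub_eq_add_neg (-b) b', zpow_add₀ zetaM_ne_zero, zpow_neg]
      field_simp [zpow_ne_zero b (zetaM_ne_zero (M := M)), zpow_ne_zero b' (zetaM_ne_zero (M := M))]
      ring
    · ring

theorem GoodRing.isUnitIn_zpow_sub (hO : GoodRing M O) {b b' : ℤ} (h : ¬(M : ℤ) ∣ b' - b) :
    IsUnitIn O (zetaM M ^ b - zetaM M ^ b') := by
  have : zetaM M ^ b - zetaM M ^ b' = zetaM M ^ b * (1 - zetaM M ^ (b' - b)) := by
    rw [zpow_sub₀ zetaM_ne_zero]
    field_simp [zpow_ne_zero b (zetaM_ne_zero (M := M))]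
  rw [this]
  exact (hO.isUnitIn_zpow b).mul (hO.isUnitIn_one_sub h)

theorem GoodRing.isUnitIn_xConst_sub (hO : GoodRing M O) {b b' : ℤ} (hb : ¬(M : ℤ) ∣ b)
    (hb' : ¬(M : ℤ) ∣ b') (h : ¬(M : ℤ) ∣ b' - b) (h' : ¬(M : ℤ) ∣ b' + b) :
    IsUnitIn O (xConst M b - xConst M b') := by
  have h1 := hO.isUnitIn_one_sub hb
  have h2 := hO.isUnitIn_one_sub hb'
  have : xConst M b - xConst M b' = (zetaM M ^ b - zetaM M ^ b') * (1 - zetaM M ^ (b' + b)) /
      ((1 - zetaM M ^ b) ^ 2 * (1 - zetaM M ^ b') ^ 2) := by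
    rw [xConst, xConst, div_sub_div _ _ (pow_ne_zero 2 h1.1) (pow_ne_zero 2 h2.1),
      zpow_add₀ zetaM_ne_zero]
    congr 1
    ring
  rw [this]
  exact ((hO.isUnitIn_zpow_sub h).mul (hO.isUnitIn_one_sub h')).div ((h1.pow 2).mul (h2.pow 2))

/-- A representative with first coordinate in `[0, M/2]` of a point up to sign. -/
theorem exists_normal_lift [NeZero M] (T : Fin 2 → ZMod M) :
    ∃ b : ℤ, xval M T = xvalZ M ((T 0).valMinAbs.natAbs : ℕ) b ∧
      (T = ![(((T 0).valMinAbs.natAbs : ℕ) : ZMod M), (b : ZMod M)] ∨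
        T = -![(((T 0).valMinAbs.natAbs : ℕ) : ZMod M), (b : ZMod M)]) := by
  rcases Int.natAbs_eq (T 0).valMinAbs with h | h
  · have hT : T = ![(((T 0).valMinAbs.natAbs : ℕ) : ZMod M), (((T 1).val : ℤ) : ZMod M)] := by
      ext i; fin_cases i
      · show T 0 = (((T 0).valMinAbs.natAbs : ℕ) : ZMod M)
        rw [← Int.cast_natCast, ← h, ZMod.coe_valMinAbs]
      · simp
    refine ⟨(T 1).val, ?_, Or.inl hT⟩
    conv_lhs => rw [hT]
    rw [← Int.cast_natCast, xval_intCast]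
  · have hT : T = -![(((T 0).valMinAbs.natAbs : ℕ) : ZMod M),
        ((-((T 1).val : ℤ) : ℤ) : ZMod M)] := by
      ext i; fin_cases i
      · show T 0 = -(((T 0).valMinAbs.natAbs : ℕ) : ZMod M)
        rw [← Int.cast_natCast, ← Int.cast_neg, ← h, ZMod.coe_valMinAbs]
      · simp
    refine ⟨-((T 1).val : ℤ), ?_, Or.inr hT⟩
    conv_lhs => rw [hT, xval_neg]
    rw [← Int.cast_natCast, xval_intCast]

theorem two_mul_natAbs_valMinAbs_le [NeZero M] (x : ZMod M) : 2 * x.valMinAbs.natAbs ≤ M := by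
  have := ZMod.natAbs_valMinAbs_le x
  omega

/-- **The leading coefficient of `x_T - x_U` is a unit.** -/
theorem exists_lead_xdiff (hO : GoodRing M O) {T U : Fin 2 → ZMod M} (hT : T ≠ 0) (hU : U ≠ 0)
    (hTU : T ≠ U) (hTU' : T ≠ -U) :
    ∃ c, IsUnitIn O c ∧
      Lead M O (xdiff M T U) (min (T 0).valMinAbs.natAbs (U 0).valMinAbs.natAbs : ℕ) c := by
  have : NeZero M := ⟨hO.pos.ne'⟩
  wlog hle : (T 0).valMinAbs.natAbs ≤ (U 0).valMinAbs.natAbs generalizing T U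
  · obtain ⟨c, hc, hL⟩ := this hU hT hTU.symm (fun h => hTU' (by rw [h, neg_neg]))
      (le_of_not_ge hle)
    refine ⟨-c, hc.neg, ?_⟩
    rw [min_comm] at hL
    have : xdiff M T U = -xdiff M U T := by simp [xdiff]
    rw [this]
    exact hL.neg
  rw [min_eq_left hle]
  obtain ⟨b, hxT, hTn⟩ := exists_normal_lift T
  obtain ⟨b', hxU, hUn⟩ := exists_normal_lift U
  have haM := two_mul_natAbs_valMinAbs_le (T 0)
  have ha'M := two_mul_natAbs_valMinAbs_le (U 0)
  set a := (T 0).valMinAbs.natAbs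
  set a' := (U 0).valMinAbs.natAbs
  rw [xdiff, hxT, hxU]
  -- the two lifts are different points, also up to sign
  have hne : ![((a : ℕ) : ZMod M), (b : ZMod M)] ≠ ![((a' : ℕ) : ZMod M), (b' : ZMod M)] ∧
      ![((a : ℕ) : ZMod M), (b : ZMod M)] ≠ -![((a' : ℕ) : ZMod M), (b' : ZMod M)] := by
    constructor <;> intro h <;> rcases hTn with h1 | h1 <;> rcases hUn with h2 | h2 <;>
      rw [h] at h1 <;> (try simp only [neg_neg] at h1) <;>
      first
      | exact hTU (h1.trans h2.symm)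
      | (refine hTU' ?_; rw [h1, h2, neg_neg])
      | (refine hTU' ?_; rw [h1, h2])
  have hnz : ∀ {a : ℕ} {b : ℤ} {V : Fin 2 → ZMod M}, V ≠ 0 →
      (V = ![((a : ℕ) : ZMod M), (b : ZMod M)] ∨ V = -![((a : ℕ) : ZMod M), (b : ZMod M)]) →
      a = 0 → ¬(M : ℤ) ∣ b := by
    intro a b V hV hVn ha hb
    have h0 : ![((a : ℕ) : ZMod M), (b : ZMod M)] = 0 := by
      rw [← Int.cast_natCast, lift_eq_zero_iff]
      exact ⟨by simp [ha], hb⟩
    rcases hVn with h | h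
    · exact hV (h.trans h0)
    · exact hV (by rw [h, h0, neg_zero])
  have hdiffb : a = a' → ¬(M : ℤ) ∣ b' - b := fun haa hd => hne.1 (by
    rw [← ZMod.intCast_eq_intCast_iff_dvd_sub] at hd
    rw [haa, hd])
  have hsumb : a = a' → (M : ℤ) ∣ 2 * (a : ℤ) → ¬(M : ℤ) ∣ b' + b := fun haa h2a hd => hne.2 (by
    rw [← ZMod.intCast_zmod_eq_zero_iff_dvd] at hd h2a
    push_cast at hd h2a
    ext i
    fin_cases i
    · show ((a : ℕ) : ZMod M) = -((a' : ℕ) : ZMod M)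
      rw [← haa]; linear_combination h2a
    · show (b : ZMod M) = -(b' : ZMod M)
      linear_combination hd)
  rcases Nat.eq_zero_or_pos a with ha0 | ha0
  · have hb := hnz hT hTn ha0
    rcases Nat.eq_zero_or_pos a' with ha'0 | ha'0
    · have hb' := hnz hU hUn ha'0
      refine ⟨_, hO.isUnitIn_xConst_sub hb hb' (hdiffb (by omega))
        (hsumb (by omega) (by simp [ha0])),
        ?_⟩
      rw [ha0, ha'0]
      simpa using lead_zero_zero hO hb hb'
    · refine ⟨_, hO.isUnitIn_xConst hb, ?_⟩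
      rw [ha0]
      simpa using lead_zero_pos hO (b' := b') hb ha'0 ha'M
  rcases lt_or_eq_of_le hle with hlt | heq
  · exact ⟨_, hO.isUnitIn_zpow b, lead_pos_lt hO ha0 hlt ha'M⟩
  · refine ⟨_, ?_, by rw [← heq]; exact lead_pos_eq hO ha0 haM⟩
    refine (hO.isUnitIn_zpow_sub (hdiffb heq)).mul ?_
    split_ifs with h2
    · refine hO.isUnitIn_one_sub fun hd => hsumb heq ?_ ?_
      · rw [← h2]; exact ⟨1, by push_cast; ring⟩
      · rw [show b' + b = -(-b - b') by ring]; exact dvd_neg.mpr hd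
    · exact isUnitIn_one

end FLTAgent.LevelM
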