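import Fermat.Agent.LevelM.InvSqSum
import Mathlib.Analysis.Complex.Periodic
import Mathlib.RingTheory.RootsOfUnity.Complex

/-!
# The `q`-series of a normalised torsion value of `℘`

`xCoeff M a b` are the coefficients in `q = exp (2πiτ/M)` of
`∑_{c ∈ ℤ} (2πi)⁻² invSqSum ((a + cM)τ/M + b/M)`.
-/

set_option autoImplicit false

noncomputable section

open Filter Complex
open scoped Topology UpperHalfPlane Real

namespace FLTAgent.LevelM

local notation "𝕢" => Function.Periodic.qParam

/-- `exp (2πi/M)`. -/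
def zetaM (M : ℕ) : ℂ := cexp (2 * π * I / M)

variable {M : ℕ}

theorem zetaM_ne_zero : zetaM M ≠ 0 := Complex.exp_ne_zero _

theorem zetaM_isPrimitiveRoot (hM : 0 < M) : IsPrimitiveRoot (zetaM M) M :=
  Complex.isPrimitiveRoot_exp M hM.ne'

/-- Powers of the chosen root of unity. -/
theorem zetaM_zpow (k : ℤ) : zetaM M ^ k = cexp (2 * π * I * k / M) := by
  rw [zetaM, ← Complex.exp_int_mul]; ring_nf

theorem norm_zetaM_zpow (k : ℤ) : ‖zetaM M ^ k‖ = 1 := by
  rw [zetaM_zpow, show 2 * (π : ℂ) * I * k / M = ((2 * π * k / M : ℝ) : ℂ) * I by push_cast; ring,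
    Complex.norm_exp_ofReal_mul_I]

theorem zetaM_zpow_eq_one_iff (hM : 0 < M) (k : ℤ) : zetaM M ^ k = 1 ↔ (M : ℤ) ∣ k :=
  (zetaM_isPrimitiveRoot hM).zpow_eq_one_iff_dvd k

theorem zetaM_zpow_congr (hM : 0 < M) {k l : ℤ} (h : (M : ℤ) ∣ k - l) :
    zetaM M ^ k = zetaM M ^ l := by
  rw [← sub_add_cancel k l, zpow_add₀ zetaM_ne_zero, (zetaM_zpow_eq_one_iff hM _).mpr h, one_mul]

variable (M)

/-- The summand indexed by `(e, n)` of the torsion series (without the power of `q`). -/
def xTerm (a b : ℤ) (p : ℤ × ℕ) : ℂ :=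
  if (M : ℤ) ∣ p.1 - a ∧ p.1 ≠ 0 then (p.2 : ℂ) * zetaM M ^ (p.1.sign * b * p.2) else 0

/-- The index set contributing to the `m`-th coefficient. -/
def xBox (m : ℕ) : Finset (ℤ × ℕ) :=
  (Finset.Icc (-(m : ℤ)) m ×ˢ Finset.range (m + 1)).filter fun p => p.2 * p.1.natAbs = m

/-- The coefficients of the `q`-series of a torsion value. -/
def xCoeff (a b : ℤ) (m : ℕ) : ℂ :=
  if m = 0 then (if (M : ℤ) ∣ a then zetaM M ^ b / (1 - zetaM M ^ b) ^ 2 else 0)
  else ∑ p ∈ xBox m, xTerm M a b p

variable {M}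

theorem mem_xBox {m : ℕ} (hm : m ≠ 0) {p : ℤ × ℕ} : p ∈ xBox m ↔ p.2 * p.1.natAbs = m := by
  simp only [xBox, Finset.mem_filter, Finset.mem_product, Finset.mem_Icc, Finset.mem_range,
    and_iff_right_iff_imp]
  intro h
  have h1 : p.2 ≤ m := h ▸ Nat.le_mul_of_pos_right _ (Nat.pos_of_ne_zero fun h0 =>
    hm (by simp [← h, h0]))
  have h2 : p.1.natAbs ≤ m :=
    h ▸ Nat.le_mul_of_pos_left _ (Nat.pos_of_ne_zero fun h0 => hm (by simp [← h, h0]))
  omega

theorem qParam_pow_natAbs_mul_zeta (τ : ℍ) (e b : ℤ) (n : ℕ) :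
    cexp (2 * π * I * ((e.sign : ℂ) * ((e * (τ : ℂ) + b) / M))) ^ n =
      zetaM M ^ (e.sign * b * n) * 𝕢 (M : ℝ) τ ^ (n * e.natAbs) := by
  rw [← Complex.exp_nat_mul, zetaM_zpow, Function.Periodic.qParam, ← Complex.exp_nat_mul,
    ← Complex.exp_add]
  have he : (e.natAbs : ℂ) = (e.sign : ℂ) * e := by
    rw [← Int.cast_mul, Int.sign_mul_self_eq_natAbs, Int.cast_natCast]
  congr 1
  rw [Nat.cast_mul, he]
  push_cast
  ring

theorem summable_xTerm (hM : 0 < M) (a b : ℤ) (τ : ℍ) :
    Summable fun p : ℤ × ℕ => xTerm M a b p * 𝕢 (M : ℝ) τ ^ (p.2 * p.1.natAbs) := by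
  set r := ‖𝕢 (M : ℝ) (τ : ℂ)‖ with hrdef
  have hr0 : 0 < r := norm_pos_iff.mpr (Function.Periodic.qParam_ne_zero _)
  have hr1 : r < 1 := Function.Periodic.norm_qParam_lt_one (by exact_mod_cast hM) τ.im_pos
  have hnat : Summable fun n : ℕ => (n : ℝ) * r ^ n :=
    (hasSum_coe_mul_geometric_of_norm_lt_one
      (by rwa [Real.norm_eq_abs, abs_of_pos hr0])).summable
  have hgeo : Summable fun n : ℕ => r ^ n := summable_geometric_of_lt_one hr0.le hr1
  have hint : Summable fun e : ℤ => r ^ e.natAbs :=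
    Summable.of_nat_of_neg (by simpa using hgeo) (by simpa using hgeo)
  refine Summable.of_norm_bounded (g := fun p : ℤ × ℕ =>
    r⁻¹ * (r ^ p.1.natAbs * ((p.2 : ℝ) * r ^ p.2)))
    ((hint.mul_of_nonneg hnat (fun _ => by positivity) (fun _ => by positivity)).mul_left r⁻¹) ?_
  rintro ⟨e, n⟩
  rcases Nat.eq_zero_or_pos n with rfl | hn
  · simp [xTerm]
  simp only [xTerm]
  split_ifs with hcond
  · have hle : n + e.natAbs ≤ n * e.natAbs + 1 := by
      have := Int.natAbs_pos.mpr hcond.2
      nlinarith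
    rw [norm_mul, norm_mul, norm_zetaM_zpow, mul_one, norm_pow, Complex.norm_natCast, ← hrdef]
    calc (n : ℝ) * r ^ (n * e.natAbs) = r⁻¹ * ((n : ℝ) * r ^ (n * e.natAbs + 1)) := by
          rw [pow_succ]; field_simp
      _ ≤ r⁻¹ * ((n : ℝ) * r ^ (n + e.natAbs)) := by
          exact mul_le_mul_of_nonneg_left
            (mul_le_mul_of_nonneg_left (pow_le_pow_of_le_one hr0.le hr1.le hle) n.cast_nonneg)
            (by positivity)
      _ = r⁻¹ * (r ^ e.natAbs * ((n : ℝ) * r ^ n)) := by rw [pow_add]; ring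
  · rw [zero_mul, norm_zero]; positivity

/-- The `q`-series sums to the lattice row sums. -/
theorem hasSum_rowSums (hM : 0 < M) {a b : ℤ} (hab : ¬((M : ℤ) ∣ a ∧ (M : ℤ) ∣ b)) (τ : ℍ) :
    ∃ X, HasSum (fun m : ℕ => xCoeff M a b m * 𝕢 (M : ℝ) τ ^ m) X ∧
      HasSum (fun c : ℤ => ((2 * π * I) ^ 2)⁻¹ *
        invSqSum ((((a + c * M : ℤ) : ℂ) * τ + b) / M)) X := by
  set q := 𝕢 (M : ℝ) (τ : ℂ)
  let F : ℤ × ℕ → ℂ := fun p => xTerm M a b p * q ^ (p.2 * p.1.natAbs)
  have hF : Summable F := summable_xTerm hM a b τ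
  set K : ℂ := if (M : ℤ) ∣ a then zetaM M ^ b / (1 - zetaM M ^ b) ^ 2 else 0 with hK
  refine ⟨(∑' p, F p) + K, ?_, ?_⟩
  · let π' : ℤ × ℕ → ℕ := fun p => p.2 * p.1.natAbs
    have hsig : HasSum (fun x : Σ m, {p // π' p = m} => F x.2.1) (∑' p, F p) :=
      ((Equiv.sigmaFiberEquiv π').hasSum_iff (f := F)).2 hF.hasSum
    have h0 := (hsig.sigma (g := fun m => if m = 0 then 0 else xCoeff M a b m * q ^ m) fun m => ?_)
    · have hK' : HasSum (fun m : ℕ => if m = 0 then K else 0) K := hasSum_ite_eq 0 K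
      convert h0.add hK' using 1
      funext m
      rcases eq_or_ne m 0 with rfl | hm
      · simp [xCoeff, hK]
      · simp [hm]
    · rcases eq_or_ne m 0 with rfl | hm
      · rw [if_pos rfl]
        convert hasSum_zero using 1
        funext x
        obtain ⟨⟨e, n⟩, hx⟩ := x
        simp only [F, xTerm]
        split_ifs with hc
        · rcases mul_eq_zero.mp (hx : n * e.natAbs = 0) with h | h
          · have hn0 : n = 0 := h
            simp [hn0]
          · exact absurd (Int.natAbs_eq_zero.mp h) hc.2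
        · rw [zero_mul]
      · rw [if_neg hm, xCoeff, if_neg hm, Finset.sum_mul]
        have := hasSum_sum_of_ne_finset_zero (s := (xBox m).subtype fun p => π' p = m)
          (f := fun x : {p // π' p = m} => F x.1) (L := .unconditional _) fun x hx => absurd
            (Finset.mem_subtype.mpr ((mem_xBox hm).mpr x.2)) hx
        convert this using 1
        rw [Finset.sum_subtype_of_mem F fun p hp => (mem_xBox hm).mp hp]
        refine Finset.sum_congr rfl fun p hp => ?_
        simp only [F, (mem_xBox hm).mp hp]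
  · let G : ℤ → ℂ := fun e =>
      if (M : ℤ) ∣ e - a then ((2 * π * I) ^ 2)⁻¹ * invSqSum (((e : ℂ) * τ + b) / M) else 0
    have hne : ((2 * (π : ℂ) * I) ^ 2) ≠ 0 := pow_ne_zero 2 two_pi_I_ne_zero
    have hfib : ∀ e : ℤ, HasSum (fun n : ℕ => F (e, n)) (if e = 0 then 0 else G e) := by
      intro e
      rcases eq_or_ne e 0 with rfl | he
      · rw [if_pos rfl]
        convert hasSum_zero using 1
        funext n
        simp [F, xTerm]
      rw [if_neg he]
      simp only [G]
      by_cases hd : (M : ℤ) ∣ e - a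
      · rw [if_pos hd]
        have hM' : (0 : ℝ) < M := by exact_mod_cast hM
        have him : 0 < ((e.sign : ℂ) * ((e * (τ : ℂ) + b) / M)).im := by
          have : ((e.sign : ℂ) * ((e * (τ : ℂ) + b) / M)).im =
            ((e.sign * e : ℤ) : ℝ) * τ.im / M := by
            have h1 : (e.sign : ℂ) * ((e * (τ : ℂ) + b) / M) =
                ((((e.sign * e : ℤ) : ℝ) / M : ℝ) : ℂ) * τ +
                  ((((e.sign : ℤ) : ℝ) * b / M : ℝ) : ℂ) := by
              push_cast; ring
            rw [h1, Complex.add_im, Complex.im_ofReal_mul, Complex.ofReal_im, add_zero]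
            simp only [UpperHalfPlane.coe_im]
            ring
          rw [this]
          have : (0 : ℝ) < ((e.sign * e : ℤ) : ℝ) := by
            rw [Int.sign_mul_self_eq_natAbs]; exact_mod_cast Int.natAbs_pos.mpr he
          have := τ.im_pos
          positivity
        have h := (hasSum_invSqSum_geometric him).mul_left ((2 * (π : ℂ) * I) ^ 2)⁻¹
        have hsym : invSqSum ((e.sign : ℂ) * ((e * (τ : ℂ) + b) / M)) =
            invSqSum ((e * (τ : ℂ) + b) / M) := by
          rcases lt_or_gt_of_ne he with hlt | hgt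
          · rw [Int.sign_eq_neg_one_of_neg hlt]; simp [invSqSum_neg]
          · rw [Int.sign_eq_one_of_pos hgt]; simp
        rw [hsym] at h
        refine h.congr_fun fun n => ?_
        simp only [F, xTerm, if_pos (And.intro hd he), qParam_pow_natAbs_mul_zeta, q]
        field_simp
      · rw [if_neg hd]
        convert hasSum_zero using 1
        funext n
        simp [F, xTerm, hd]
    have hG : HasSum G ((∑' p, F p) + K) := by
      have h1 := hF.hasSum.prod_fiberwise hfib
      have h2 : HasSum (fun e : ℤ => if e = 0 then K else 0) K := hasSum_ite_eq 0 K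
      convert h1.add h2 using 1
      funext e
      rcases eq_or_ne e 0 with rfl | he
      · simp only [↓reduceIte, zero_add, G, Int.cast_zero, zero_mul, zero_add,
          zero_sub, dvd_neg, hK]
        split_ifs with ha
        · have hb : ∀ n : ℤ, (b : ℝ) / M ≠ n := fun n hn => hab ⟨ha, ⟨n, by
            rw [div_eq_iff (by exact_mod_cast hM.ne')] at hn
            have : b = n * M := by exact_mod_cast hn
            rw [this]; ring⟩⟩
          have := invSqSum_ofReal hb
          push_cast at this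
          rw [this, zetaM_zpow, inv_mul_cancel_left₀ hne, mul_div_assoc]
        · rfl
      · simp [he]
    have hinj : Function.Injective fun c : ℤ => a + c * M := fun x y hxy => by
      simpa [hM.ne'] using hxy
    have := (hinj.hasSum_iff (f := G) fun e he => ?_).mpr hG
    · convert this using 1
      funext c
      simp [G]
    · simp only [G]
      rw [if_neg]
      rintro ⟨c, hc⟩
      exact he ⟨c, by simp only; linarith⟩

end FLTAgent.LevelM
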