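import Mathlib.Analysis.SpecialFunctions.Elliptic.Weierstrass
import Mathlib.Analysis.Normed.Module.Connected
import Mathlib.Analysis.Analytic.Uniqueness

/-!
# Injectivity of the Weierstrass `℘` function up to sign

`℘ a = ℘ b` iff `b ≡ ± a` modulo the lattice (for `a, b` outside the lattice).
-/

set_option autoImplicit false

noncomputable section

open Filter
open scoped Topology PeriodPair

namespace FLTAgent.LevelM

variable (L : PeriodPair)

/-- A lattice-periodic function all whose singularities are removable is constant. -/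
theorem eq_const_of_periodic_of_removable {F : ℂ → ℂ}
    (hper : ∀ l ∈ L.lattice, ∀ z, F (z + l) = F z)
    (hrem : ∀ x, ∃ G : ℂ → ℂ, AnalyticAt ℂ G x ∧ F =ᶠ[𝓝[≠] x] G) :
    ∃ c, ∀ x, (ContinuousAt F x → F x = c) ∧ F =ᶠ[𝓝[≠] x] fun _ => c := by
  choose G hG hFG using hrem
  let F' : ℂ → ℂ := fun x => limUnder (𝓝[≠] x) F
  have hlim : ∀ x, Tendsto F (𝓝[≠] x) (𝓝 (G x x)) := fun x =>
    ((hG x).continuousAt.tendsto.mono_left nhdsWithin_le_nhds).congr' (hFG x).symm
  have hF' : ∀ x, F' x = G x x := fun x => (hlim x).limUnder_eq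
  have hloc : ∀ x, F' =ᶠ[𝓝 x] G x := by
    intro x
    obtain ⟨U, hU, hUo, hxU⟩ := eventually_nhds_iff.mp (eventually_nhdsWithin_iff.mp (hFG x))
    have hGc : ∀ᶠ y in 𝓝 x, ContinuousAt (G x) y :=
      (hG x).eventually_analyticAt.mono fun y hy => hy.continuousAt
    filter_upwards [hUo.mem_nhds hxU, hGc] with y hy hyc
    rcases eq_or_ne y x with rfl | hne
    · exact hF' y
    refine ((hyc.tendsto.mono_left nhdsWithin_le_nhds).congr' ?_).limUnder_eq
    filter_upwards [nhdsWithin_le_nhds (hUo.mem_nhds hy),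
      nhdsWithin_le_nhds (isOpen_compl_singleton.mem_nhds hne)] with w hw hwx
    exact (hU w hw hwx).symm
  have hper' : ∀ z w, w ∈ L.lattice → F' (z + w) = F' z := by
    intro z w hw
    refine (Tendsto.limUnder_eq ?_ : F' (z + w) = _)
    have hmap : Tendsto (fun y => y - w) (𝓝[≠] (z + w)) (𝓝[≠] z) := by
      refine tendsto_nhdsWithin_iff.mpr ⟨?_, ?_⟩
      · refine (Continuous.tendsto' (by fun_prop) _ _ (by ring)).mono_left nhdsWithin_le_nhds
      · filter_upwards [self_mem_nhdsWithin] with y hy h0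
        exact hy (by simp only [Set.mem_singleton_iff] at h0 ⊢; linear_combination h0)
    rw [hF' z]
    refine ((hlim z).comp hmap).congr fun y => ?_
    simp only [Function.comp]
    rw [← hper w hw (y - w), sub_add_cancel]
  have hdiff : Differentiable ℂ F' := fun x =>
    (hG x).differentiableAt.congr_of_eventuallyEq (hloc x)
  have hbdd := (IsZLattice.isCompact_range_of_periodic L.lattice _ hdiff.continuous hper').isBounded
  refine ⟨F' 0, fun x => ⟨fun hc => ?_, ?_⟩⟩
  · rw [← hdiff.apply_eq_apply_of_bounded hbdd x 0, hF' x]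
    exact tendsto_nhds_unique (hc.tendsto.mono_left nhdsWithin_le_nhds) (hlim x)
  · filter_upwards [hFG x, nhdsWithin_le_nhds (hloc x)] with y hy hy'
    rw [hy, ← hy', hdiff.apply_eq_apply_of_bounded hbdd y 0]

theorem removable_translate {F : ℂ → ℂ} (hper : ∀ l ∈ L.lattice, ∀ z, F (z + l) = F z)
    {x₀ x : ℂ} (hx : x - x₀ ∈ L.lattice)
    (h : ∃ G : ℂ → ℂ, AnalyticAt ℂ G x₀ ∧ F =ᶠ[𝓝[≠] x₀] G) :
    ∃ G : ℂ → ℂ, AnalyticAt ℂ G x ∧ F =ᶠ[𝓝[≠] x] G := by
  obtain ⟨G, hG, hFG⟩ := h
  refine ⟨fun y => G (y - (x - x₀)), ?_, ?_⟩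
  · have : x₀ = x - (x - x₀) := by ring
    exact (this ▸ hG).comp (f := fun y => y - (x - x₀)) (by fun_prop)
  · have hmap : Tendsto (fun y => y - (x - x₀)) (𝓝[≠] x) (𝓝[≠] x₀) := by
      refine tendsto_nhdsWithin_iff.mpr ⟨?_, ?_⟩
      · exact (Continuous.tendsto' (by fun_prop) _ _ (by ring)).mono_left nhdsWithin_le_nhds
      · filter_upwards [self_mem_nhdsWithin] with y hy h0
        exact hy (by simp only [Set.mem_singleton_iff] at h0 ⊢; linear_combination h0)
    filter_upwards [hmap.eventually hFG] with y hy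
    rw [← hy, ← hper _ hx (y - (x - x₀)), sub_add_cancel]

/-- An even function vanishing at `0` is divisible by `z ^ 2`. -/
theorem exists_sq_mul_of_even {N : ℂ → ℂ} (hN : AnalyticAt ℂ N 0) (h0 : N 0 = 0)
    (heven : ∀ z, N (-z) = N z) :
    ∃ μ : ℂ → ℂ, AnalyticAt ℂ μ 0 ∧ (∀ z, N z = z ^ 2 * μ z) ∧ ∀ z, μ (-z) = μ z := by
  have han : ∀ {f : ℂ → ℂ}, AnalyticAt ℂ f 0 → AnalyticAt ℂ (dslope f 0) 0 :=
    fun ⟨p, hp⟩ => ⟨_, hp.has_fpower_series_dslope_fslope⟩
  set ν := dslope N 0 with hν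
  have hNν : ∀ z, N z = z * ν z := fun z => by
    simpa [h0] using (sub_smul_dslope N 0 z).symm
  have hodd : ∀ z, z ≠ 0 → ν (-z) = -ν z := fun z hz => by
    have := heven z
    rw [hNν, hNν, neg_mul] at this
    exact mul_left_cancel₀ hz (by linear_combination -this)
  have hν0 : ν 0 = 0 := by
    have h1 : Tendsto (fun z => ν (-z) + ν z) (𝓝[≠] 0) (𝓝 (ν 0 + ν 0)) := by
      have hc := (han hN).continuousAt.tendsto
      exact ((hc.comp (Continuous.tendsto' continuous_neg 0 0 neg_zero)).add hc).mono_left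
        nhdsWithin_le_nhds
    have h2 : Tendsto (fun z => ν (-z) + ν z) (𝓝[≠] 0) (𝓝 0) := by
      refine tendsto_const_nhds.congr' ?_
      filter_upwards [self_mem_nhdsWithin] with z hz
      rw [hodd z hz, neg_add_cancel]
    linear_combination (tendsto_nhds_unique h1 h2) / 2
  refine ⟨dslope ν 0, han (han hN), fun z => ?_, fun z => ?_⟩
  · rw [hNν z]
    have := sub_smul_dslope ν 0 z
    simp only [sub_zero, smul_eq_mul, hν0] at this
    linear_combination (-z) * this
  · rcases eq_or_ne z 0 with rfl | hz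
    · rw [neg_zero]
    · rw [dslope_of_ne _ (neg_ne_zero.mpr hz), dslope_of_ne _ hz, slope_def_field, slope_def_field,
        hodd z hz, hν0]
      simp only [sub_zero]
      rw [neg_div_neg_eq]

variable {L}

theorem eventually_notMem_lattice (x : ℂ) : ∀ᶠ z in 𝓝[≠] x, z ∉ L.lattice := by
  filter_upwards [self_mem_nhdsWithin,
    mem_nhdsWithin_of_mem_nhds (L.compl_lattice_sdiff_singleton_mem_nhds x)] with z hz hz'
  simp_all

theorem weierstrassP_eq_inv_sq_add {z : ℂ} : ℘[L] z = 1 / z ^ 2 + ℘[L - (0 : ℂ)] z := by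
  have := L.weierstrassPExcept_add 0 z
  simp only [ZeroMemClass.coe_zero, sub_zero] at this
  rw [← this]; ring

theorem derivWeierstrassP_eq_add {z : ℂ} : ℘'[L] z = -2 / z ^ 3 + ℘'[L - (0 : ℂ)] z := by
  have := L.derivWeierstrassPExcept_def 0 z
  simp only [ZeroMemClass.coe_zero, sub_zero] at this
  rw [this]; ring

theorem weierstrassPExcept_zero_even (z : ℂ) : ℘[L - (0 : ℂ)] (-z) = ℘[L - (0 : ℂ)] z := by
  rw [L.weierstrassPExcept_neg, neg_zero]

theorem derivWeierstrassPExcept_zero_odd (z : ℂ) :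
    ℘'[L - (0 : ℂ)] (-z) = -℘'[L - (0 : ℂ)] z := by
  rw [L.derivWeierstrassPExcept_neg, neg_zero]

theorem eventually_weierstrassP_ne (c : ℂ) : ∀ᶠ z in 𝓝[≠] (0 : ℂ), ℘[L] z ≠ c := by
  have h : ∀ᶠ z in 𝓝 (0 : ℂ), (1 : ℂ) + z ^ 2 * (℘[L - (0 : ℂ)] z - c) ≠ 0 := by
    have := (L.analyticAt_weierstrassPExcept 0).continuousAt
    refine ContinuousAt.eventually_ne (by fun_prop) (by simp)
  filter_upwards [nhdsWithin_le_nhds h, self_mem_nhdsWithin] with z hz hz0
  intro heq
  apply hz
  have hz0' : z ≠ 0 := hz0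
  rw [← heq, weierstrassP_eq_inv_sq_add]
  field_simp
  ring

/-- `℘` is not constant on the neighbourhood of a regular point. -/
theorem not_eventually_weierstrassP_eq {a : ℂ} (ha : a ∉ L.lattice) (c : ℂ) :
    ¬ ∀ᶠ z in 𝓝 a, ℘[L] z = c := by
  intro h
  have hconn : IsPreconnected (L.lattice : Set ℂ)ᶜ :=
    ((@Set.to_countable _ (L.lattice : Set ℂ)
      L.latticeEquivProd.toEquiv.injective.countable).isConnected_compl_of_one_lt_rank
      (by rw [Complex.rank_real_complex]; norm_num)).isPreconnected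
  have heq := L.analyticOnNhd_weierstrassP.eqOn_of_preconnected_of_eventuallyEq
    analyticOnNhd_const hconn ha h
  obtain ⟨z, hz1, hz2⟩ := ((eventually_weierstrassP_ne c).and (eventually_notMem_lattice 0)).exists
  exact hz1 (heq hz2)

theorem hasDerivAt_weierstrassP {z : ℂ} (hz : z ∉ L.lattice) :
    HasDerivAt ℘[L] (℘'[L] z) z := by
  have := (L.analyticOnNhd_weierstrassP z hz).differentiableAt.hasDerivAt
  rwa [L.deriv_weierstrassP] at this

/-- `℘ z - ℘ a` is divisible by `z - a`. -/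
theorem exists_sub_eq_mul {a : ℂ} (ha : a ∉ L.lattice) :
    ∃ φ : ℂ → ℂ, AnalyticAt ℂ φ a ∧ φ a = ℘'[L] a ∧
      ∀ z, ℘[L] z - ℘[L] a = (z - a) * φ z := by
  obtain ⟨p, hp⟩ := L.analyticOnNhd_weierstrassP a ha
  refine ⟨dslope ℘[L] a, ⟨_, hp.has_fpower_series_dslope_fslope⟩, ?_, fun z => ?_⟩
  · rw [dslope_same, L.deriv_weierstrassP]
  · simpa using (sub_smul_dslope ℘[L] a z).symm

theorem weierstrassP_periodic' {z l : ℂ} (hl : l ∈ L.lattice) : ℘[L] (z + l) = ℘[L] z :=
  L.weierstrassP_add_coe z ⟨l, hl⟩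

theorem derivWeierstrassP_periodic' {z l : ℂ} (hl : l ∈ L.lattice) :
    ℘'[L] (z + l) = ℘'[L] z :=
  L.derivWeierstrassP_add_coe z ⟨l, hl⟩

theorem derivWeierstrassP_eq_zero_of_two_mul_mem {a : ℂ} (h2 : 2 * a ∈ L.lattice) :
    ℘'[L] a = 0 := by
  have h := derivWeierstrassP_periodic' (z := -a) h2
  rw [show -a + 2 * a = a by ring, L.derivWeierstrassP_neg] at h
  linear_combination h / 2

/-- For a `2`-torsion point `a`, `(℘ z - ℘ a) (℘ (z + a) - ℘ a)` is a nonzero constant. -/
theorem exists_product_const {a : ℂ} (ha : a ∉ L.lattice) (h2 : 2 * a ∈ L.lattice) :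
    ∃ c ≠ (0 : ℂ), ∀ z, z ∉ L.lattice → z + a ∉ L.lattice →
      (℘[L] z - ℘[L] a) * (℘[L] (z + a) - ℘[L] a) = c := by
  set e := ℘[L] a
  let F : ℂ → ℂ := fun z => (℘[L] z - e) * (℘[L] (z + a) - e)
  have hper : ∀ l ∈ L.lattice, ∀ z, F (z + l) = F z := fun l hl z => by
    simp only [F]
    rw [weierstrassP_periodic' hl, add_right_comm, weierstrassP_periodic' hl]
  have hP0 := L.analyticAt_weierstrassPExcept 0
  obtain ⟨φ, hφ, hφa, hφeq⟩ := exists_sub_eq_mul ha
  obtain ⟨ψ, hψ, hψeq⟩ : ∃ ψ : ℂ → ℂ, AnalyticAt ℂ ψ a ∧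
      ∀ z, ℘[L] z - e = (z - a) ^ 2 * ψ z := by
    obtain ⟨p, hp⟩ := hφ
    refine ⟨dslope φ a, ⟨_, hp.has_fpower_series_dslope_fslope⟩, fun z => ?_⟩
    have := sub_smul_dslope φ a z
    rw [hφa, derivWeierstrassP_eq_zero_of_two_mul_mem h2, smul_eq_mul, sub_zero] at this
    rw [hφeq, ← this]; ring
  have h0 : ∃ G : ℂ → ℂ, AnalyticAt ℂ G 0 ∧ F =ᶠ[𝓝[≠] 0] G := by
    refine ⟨fun z => (1 + z ^ 2 * (℘[L - (0 : ℂ)] z - e)) * ψ (z + a), ?_, ?_⟩
    · have : AnalyticAt ℂ (fun z => ψ (z + a)) 0 :=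
        (show AnalyticAt ℂ ψ (0 + a) by rwa [zero_add]).comp (f := fun z => z + a) (by fun_prop)
      exact (analyticAt_const.add ((analyticAt_id.pow 2).mul (hP0.sub analyticAt_const))).mul this
    · filter_upwards [self_mem_nhdsWithin] with z hz
      have hz' : z ≠ 0 := hz
      simp only [F]
      rw [hψeq (z + a), weierstrassP_eq_inv_sq_add]
      field_simp
      ring
  have hsymm : ∀ z, F (z + a) = F z := fun z => by
    simp only [F]
    rw [show z + a + a = z + 2 * a by ring, weierstrassP_periodic' h2]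
    ring
  have hrem : ∀ x, ∃ G : ℂ → ℂ, AnalyticAt ℂ G x ∧ F =ᶠ[𝓝[≠] x] G := by
    intro x
    by_cases hx : x ∈ L.lattice
    · exact removable_translate L hper (x₀ := 0) (by simpa using hx) h0
    by_cases hxa : x + a ∈ L.lattice
    · refine removable_translate L hper (x₀ := -a) (by simpa using hxa) ?_
      obtain ⟨G, hG, hFG⟩ := h0
      refine ⟨fun z => G (z + a), ?_, ?_⟩
      · exact (show AnalyticAt ℂ G (-a + a) by rwa [neg_add_cancel]).comp
          (f := fun z => z + a) (by fun_prop)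
      · have hmap : Tendsto (fun z => z + a) (𝓝[≠] (-a)) (𝓝[≠] 0) := by
          refine tendsto_nhdsWithin_iff.mpr ⟨?_, ?_⟩
          · exact (Continuous.tendsto' (by fun_prop) _ _ (by ring)).mono_left nhdsWithin_le_nhds
          · filter_upwards [self_mem_nhdsWithin] with y hy h0'
            exact hy (by simp only [Set.mem_singleton_iff] at h0' ⊢; linear_combination h0')
        filter_upwards [hmap.eventually hFG] with y hy
        rw [← hsymm y]; exact hy
    · refine ⟨F, ?_, EventuallyEq.rfl⟩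
      have h1 := L.analyticOnNhd_weierstrassP x hx
      have h2 : AnalyticAt ℂ (fun z => ℘[L] (z + a)) x :=
        (L.analyticOnNhd_weierstrassP (x + a) hxa).comp (f := fun z => z + a) (by fun_prop)
      fun_prop
  obtain ⟨c, hc⟩ := eq_const_of_periodic_of_removable L hper hrem
  refine ⟨c, ?_, fun z hz hza => (hc z).1 ?_⟩
  · rintro rfl
    apply not_eventually_weierstrassP_eq ha e
    have h' : ∀ᶠ z in 𝓝[≠] (0 : ℂ), ℘[L] (z + a) = e := by
      filter_upwards [(hc 0).2, eventually_weierstrassP_ne e] with z hz hne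
      exact sub_eq_zero.mp ((mul_eq_zero.mp hz).resolve_left (sub_ne_zero.mpr hne))
    have h'' := eventually_nhdsWithin_iff.mp h'
    have hmap : Tendsto (fun y => y - a) (𝓝 a) (𝓝 0) :=
      Continuous.tendsto' (by fun_prop) _ _ (by ring)
    filter_upwards [hmap.eventually h''] with y hy
    rcases eq_or_ne (y - a) 0 with h | h
    · rw [sub_eq_zero.mp h]
    · simpa using hy h
  · have h1 := (L.analyticOnNhd_weierstrassP z hz).continuousAt
    have h2 : ContinuousAt (fun w => ℘[L] (w + a)) z :=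
      (L.analyticOnNhd_weierstrassP (z + a) hza).continuousAt.comp
        (f := fun w => w + a) (by fun_prop)
    show ContinuousAt F z
    fun_prop

theorem mem_add_of_two_mul_mem {a b : ℂ} (ha : a ∉ L.lattice) (hb : b ∉ L.lattice)
    (h2 : 2 * a ∈ L.lattice) (h : ℘[L] a = ℘[L] b) : b + a ∈ L.lattice := by
  obtain ⟨c, hc, hprod⟩ := exists_product_const ha h2
  by_contra hba
  have := hprod b hb hba
  rw [← h, sub_self, zero_mul] at this
  exact hc this.symm

/-- The defect of the addition-formula identity, an odd elliptic function of `z`. -/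
private def addDefect (L : PeriodPair) (a z : ℂ) : ℂ :=
  (℘[L] (z + a) - ℘[L] (z - a)) * (℘[L] z - ℘[L] a) ^ 2 + ℘'[L] a * ℘'[L] z

/-- The defect is periodic. -/
private theorem addDefect_add_lattice {a l : ℂ} (hl : l ∈ L.lattice) (z : ℂ) :
    addDefect L a (z + l) = addDefect L a z := by
  simp only [addDefect]
  rw [weierstrassP_periodic' hl, add_right_comm, weierstrassP_periodic' hl,
    derivWeierstrassP_periodic' hl, add_sub_right_comm, weierstrassP_periodic' hl]

/-- The defect is odd. -/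
private theorem addDefect_neg (a z : ℂ) : addDefect L a (-z) = -addDefect L a z := by
  simp only [addDefect]
  rw [show -z + a = -(z - a) by ring, show -z - a = -(z + a) by ring, L.weierstrassP_neg,
    L.weierstrassP_neg, L.weierstrassP_neg, L.derivWeierstrassP_neg]
  ring

/-- The defect vanishes at the half periods. -/
private theorem addDefect_half_eq_zero {a w : ℂ} (hw : w ∈ L.lattice) :
    addDefect L a (w / 2) = 0 := by
  have h1 := addDefect_add_lattice (a := a) hw (-(w / 2))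
  rw [show -(w / 2) + w = w / 2 by ring, addDefect_neg] at h1
  linear_combination h1 / 2

/-- The defect is analytic away from its poles. -/
private theorem analyticAt_addDefect {a x : ℂ} (hx : x ∉ L.lattice) (hxa : x + a ∉ L.lattice)
    (hxa' : x - a ∉ L.lattice) : AnalyticAt ℂ (addDefect L a) x := by
  have h1 := L.analyticOnNhd_weierstrassP x hx
  have h1' := L.analyticOnNhd_derivWeierstrassP x hx
  have h3 : AnalyticAt ℂ (fun z => ℘[L] (z + a)) x :=
    (L.analyticOnNhd_weierstrassP (x + a) hxa).comp (f := fun z => z + a) (by fun_prop)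
  have h4 : AnalyticAt ℂ (fun z => ℘[L] (z - a)) x :=
    (L.analyticOnNhd_weierstrassP (x - a) hxa').comp (f := fun z => z - a) (by fun_prop)
  unfold addDefect
  fun_prop

/-- Near `0` the odd function `℘ (z + a) - ℘ (z - a)` is `z` times an even function which is
`2 ℘' a` at `0`. -/
private theorem exists_diff_eq_mul {a : ℂ} (ha : a ∉ L.lattice) :
    ∃ φ : ℂ → ℂ, AnalyticAt ℂ φ 0 ∧ φ 0 = 2 * ℘'[L] a ∧ (∀ z, φ (-z) = φ z) ∧
      ∀ z, ℘[L] (z + a) - ℘[L] (z - a) = z * φ z := by
  let Δ : ℂ → ℂ := fun z => ℘[L] (z + a) - ℘[L] (z - a)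
  have hna : -a ∉ L.lattice := fun h => ha (by simpa using neg_mem h)
  have hΔan : AnalyticAt ℂ Δ 0 :=
    ((L.analyticOnNhd_weierstrassP (0 + a) (by simpa using ha)).comp
        (f := fun z => z + a) (by fun_prop)).sub
      ((L.analyticOnNhd_weierstrassP (0 - a) (by simpa using hna)).comp
        (f := fun z => z - a) (by fun_prop))
  have hΔd : deriv Δ 0 = 2 * ℘'[L] a := by
    have h1 : HasDerivAt (fun z => ℘[L] (z + a)) (℘'[L] a) 0 :=
      HasDerivAt.comp_add_const 0 a (by simpa using hasDerivAt_weierstrassP ha)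
    have h2 : HasDerivAt (fun z => ℘[L] (z - a)) (-℘'[L] a) 0 :=
      HasDerivAt.comp_sub_const 0 a (by
        simpa [L.derivWeierstrassP_neg] using hasDerivAt_weierstrassP hna)
    rw [show Δ = (fun z => ℘[L] (z + a)) - fun z => ℘[L] (z - a) from rfl, (h1.sub h2).deriv]
    ring
  have hΔφ : ∀ z, Δ z = z * dslope Δ 0 z := fun z => by
    simpa [show Δ 0 = 0 by simp [Δ]] using (sub_smul_dslope Δ 0 z).symm
  obtain ⟨q, hq⟩ := hΔan
  refine ⟨dslope Δ 0, ⟨_, hq.has_fpower_series_dslope_fslope⟩, by rw [dslope_same, hΔd],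
    fun z => ?_, hΔφ⟩
  rcases eq_or_ne z 0 with rfl | hz
  · rw [neg_zero]
  · have hodd : Δ (-z) = -Δ z := by
      simp only [Δ]
      rw [show -z + a = -(z - a) by ring, show -z - a = -(z + a) by ring, L.weierstrassP_neg,
        L.weierstrassP_neg]
      ring
    rw [hΔφ, hΔφ, neg_mul] at hodd
    exact mul_left_cancel₀ hz (by linear_combination -hodd)

/-- The defect has at most a simple pole at `0`. -/
private theorem exists_addDefect_eq_div {a : ℂ} (ha : a ∉ L.lattice) :
    ∃ ν : ℂ → ℂ, AnalyticAt ℂ ν 0 ∧ (∀ z, ν (-z) = ν z) ∧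
      ∀ z, z ≠ 0 → addDefect L a z = ν z / z := by
  obtain ⟨φ, hφan, hφ0, hφeven, hφ⟩ := exists_diff_eq_mul ha
  let H : ℂ → ℂ := fun z => 1 + z ^ 2 * (℘[L - (0 : ℂ)] z - ℘[L] a)
  have hP0 := L.analyticAt_weierstrassPExcept 0
  have hD0 := L.analyticAt_derivWeierstrassPExcept 0
  have hHan : AnalyticAt ℂ H 0 := by
    simp only [H]; fun_prop
  obtain ⟨μ, hμan, hμeq, hμeven⟩ := exists_sq_mul_of_even
    (N := fun z => φ z * H z ^ 2 - 2 * ℘'[L] a) (by fun_prop)
    (by simp [H, hφ0]) (fun z => by simp only [H, hφeven, neg_sq, weierstrassPExcept_zero_even])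
  refine ⟨fun z => μ z + z * (℘'[L] a * ℘'[L - (0 : ℂ)] z), by fun_prop,
    fun z => by simp only [hμeven, derivWeierstrassPExcept_zero_odd]; ring, fun z hz => ?_⟩
  have hμz := hμeq z
  simp only [addDefect]
  rw [hφ, weierstrassP_eq_inv_sq_add (z := z), derivWeierstrassP_eq_add (z := z)]
  simp only [H] at hμz
  field_simp
  linear_combination hμz

/-- If the defect is `ν z / z`, the square of the defect minus `ν 0 ^ 2 ℘` is analytic at `0`. -/
private theorem removable_zero_addDefect_sq_sub {a : ℂ} {ν : ℂ → ℂ} (hν : AnalyticAt ℂ ν 0)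
    (heven : ∀ z, ν (-z) = ν z) (hD : ∀ z, z ≠ 0 → addDefect L a z = ν z / z) :
    ∃ G : ℂ → ℂ, AnalyticAt ℂ G 0 ∧
      (fun z => addDefect L a z ^ 2 - ν 0 ^ 2 * ℘[L] z) =ᶠ[𝓝[≠] 0] G := by
  have hP0 := L.analyticAt_weierstrassPExcept 0
  obtain ⟨μ, hμan, hμeq, -⟩ := exists_sq_mul_of_even
    (N := fun z => ν z ^ 2 - ν 0 ^ 2 * (1 + z ^ 2 * ℘[L - (0 : ℂ)] z)) (by fun_prop)
    (by simp) (fun z => by simp only [heven, neg_sq, weierstrassPExcept_zero_even])
  refine ⟨μ, hμan, ?_⟩
  filter_upwards [self_mem_nhdsWithin] with z hz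
  have hz' : z ≠ 0 := hz
  rw [hD z hz', weierstrassP_eq_inv_sq_add]
  field_simp
  linear_combination hμeq z

/-- The square of the defect minus a multiple of `℘` has a removable singularity at `a`. -/
private theorem removable_self_addDefect_sq_sub {a : ℂ} (ha : a ∉ L.lattice)
    (h2 : 2 * a ∉ L.lattice) (k : ℂ) :
    ∃ G : ℂ → ℂ, AnalyticAt ℂ G a ∧
      (fun z => addDefect L a z ^ 2 - k * ℘[L] z) =ᶠ[𝓝[≠] a] G := by
  obtain ⟨ψ, hψan, -, hψeq⟩ := exists_sub_eq_mul ha
  let Q : ℂ → ℂ := fun z => ℘[L] (z + a) * (℘[L] z - ℘[L] a) ^ 2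
    - (1 + (z - a) ^ 2 * ℘[L - (0 : ℂ)] (z - a)) * ψ z ^ 2 + ℘'[L] a * ℘'[L] z
  refine ⟨fun z => Q z ^ 2 - k * ℘[L] z, ?_, ?_⟩
  · have h1 := L.analyticOnNhd_weierstrassP a ha
    have h1' := L.analyticOnNhd_derivWeierstrassP a ha
    have h3 : AnalyticAt ℂ (fun z => ℘[L] (z + a)) a :=
      (L.analyticOnNhd_weierstrassP (a + a) (by rw [← two_mul]; exact h2)).comp
        (f := fun z => z + a) (by fun_prop)
    have h4 : AnalyticAt ℂ (fun z => ℘[L - (0 : ℂ)] (z - a)) a :=
      (show AnalyticAt ℂ ℘[L - (0 : ℂ)] (a - a) by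
        rw [sub_self]; exact L.analyticAt_weierstrassPExcept 0).comp
        (f := fun z => z - a) (by fun_prop)
    simp only [Q]; fun_prop
  · filter_upwards [self_mem_nhdsWithin] with z hz
    have hz' : z - a ≠ 0 := sub_ne_zero.mpr hz
    have hQ : addDefect L a z = Q z := by
      simp only [addDefect, Q]
      rw [hψeq z, weierstrassP_eq_inv_sq_add (z := z - a)]
      field_simp
      try ring
    rw [hQ]

/-- A removable singularity of an even function at `a` gives one at `-a`. -/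
private theorem removable_neg_of_even {F : ℂ → ℂ} (heven : ∀ z, F (-z) = F z) {a : ℂ}
    (h : ∃ G : ℂ → ℂ, AnalyticAt ℂ G a ∧ F =ᶠ[𝓝[≠] a] G) :
    ∃ G : ℂ → ℂ, AnalyticAt ℂ G (-a) ∧ F =ᶠ[𝓝[≠] (-a)] G := by
  obtain ⟨G, hG, hFG⟩ := h
  refine ⟨fun z => G (-z), ?_, ?_⟩
  · exact (show AnalyticAt ℂ G (- -a) by rwa [neg_neg]).comp (f := fun z => -z) (by fun_prop)
  · have hmap : Tendsto (fun z : ℂ => -z) (𝓝[≠] (-a)) (𝓝[≠] a) := by
      refine tendsto_nhdsWithin_iff.mpr ⟨?_, ?_⟩
      · exact (Continuous.tendsto' (by fun_prop) _ _ (neg_neg a)).mono_left nhdsWithin_le_nhds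
      · filter_upwards [self_mem_nhdsWithin] with y hy h0'
        exact hy (by simp only [Set.mem_singleton_iff] at h0' ⊢; linear_combination -h0')
    filter_upwards [hmap.eventually hFG] with y hy
    rw [← hy, heven]

/-- `℘` separates the half periods `ω₁ / 2` and `ω₂ / 2`. -/
private theorem weierstrassP_half_ω₁_ne : ℘[L] (L.ω₁ / 2) ≠ ℘[L] (L.ω₂ / 2) := by
  intro heq
  have hsum : L.ω₂ / 2 + L.ω₁ / 2 ∉ L.lattice := by
    have := (L.mul_ω₁_add_mul_ω₂_mem_lattice (α := 1 / 2) (β := 1 / 2)).not.mpr (by norm_num)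
    convert this using 2
    push_cast; ring
  exact hsum (mem_add_of_two_mul_mem L.ω₁_div_two_notMem_lattice L.ω₂_div_two_notMem_lattice
    (by convert L.ω₁_mem_lattice using 1; ring) heq)

/-- The addition-formula identity: for `a` not of order dividing `2`,
`(℘ (z + a) - ℘ (z - a)) (℘ z - ℘ a)² + ℘' a ℘' z = 0`. -/
theorem addition_identity {a : ℂ} (ha : a ∉ L.lattice) (h2 : 2 * a ∉ L.lattice) {z : ℂ}
    (hz : z ∉ L.lattice) (hza : z + a ∉ L.lattice) (hza' : z - a ∉ L.lattice) :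
    (℘[L] (z + a) - ℘[L] (z - a)) * (℘[L] z - ℘[L] a) ^ 2 + ℘'[L] a * ℘'[L] z = 0 := by
  show addDefect L a z = 0
  -- `E = D² - ν(0)² ℘` is elliptic without poles, hence constant
  obtain ⟨ν, hνan, hνeven, hνD⟩ := exists_addDefect_eq_div ha
  let E : ℂ → ℂ := fun z => addDefect L a z ^ 2 - ν 0 ^ 2 * ℘[L] z
  have hEper : ∀ l ∈ L.lattice, ∀ z, E (z + l) = E z := fun l hl z => by
    simp only [E]; rw [addDefect_add_lattice hl, weierstrassP_periodic' hl]
  have hEeven : ∀ z, E (-z) = E z := fun z => by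
    simp only [E]; rw [addDefect_neg, L.weierstrassP_neg, neg_sq]
  have hEa := removable_self_addDefect_sq_sub ha h2 (ν 0 ^ 2)
  have han : ∀ x, x ∉ L.lattice → x + a ∉ L.lattice → x - a ∉ L.lattice → AnalyticAt ℂ E x :=
    fun x hx hxa hxa' =>
      ((analyticAt_addDefect hx hxa hxa').pow 2).sub
        (analyticAt_const.mul (L.analyticOnNhd_weierstrassP x hx))
  have hrem : ∀ x, ∃ G : ℂ → ℂ, AnalyticAt ℂ G x ∧ E =ᶠ[𝓝[≠] x] G := by
    intro x
    by_cases hx : x ∈ L.lattice
    · exact removable_translate L hEper (x₀ := 0) (by simpa using hx)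
        (removable_zero_addDefect_sq_sub hνan hνeven hνD)
    by_cases hxa : x + a ∈ L.lattice
    · exact removable_translate L hEper (x₀ := -a) (by simpa using hxa)
        (removable_neg_of_even hEeven hEa)
    by_cases hxa' : x - a ∈ L.lattice
    · exact removable_translate L hEper (x₀ := a) hxa' hEa
    exact ⟨E, han x hx hxa hxa', EventuallyEq.rfl⟩
  obtain ⟨c, hc⟩ := eq_const_of_periodic_of_removable L hEper hrem
  -- evaluation at the half periods
  have hhalf : ∀ w : ℂ, w ∈ L.lattice → w / 2 ∉ L.lattice →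
      -(ν 0 ^ 2 * ℘[L] (w / 2)) = c := by
    intro w hw hw2
    have hna' : w / 2 + a ∉ L.lattice := fun h => h2 (by
      have := sub_mem (add_mem h h) hw
      rwa [show w / 2 + a + (w / 2 + a) - w = 2 * a by ring] at this)
    have hna'' : w / 2 - a ∉ L.lattice := fun h => h2 (by
      have := sub_mem hw (add_mem h h)
      rwa [show w - (w / 2 - a + (w / 2 - a)) = 2 * a by ring] at this)
    rw [← (hc _).1 (han _ hw2 hna' hna'').continuousAt]
    simp only [E, addDefect_half_eq_zero hw]; ring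
  have h1 := hhalf _ L.ω₁_mem_lattice L.ω₁_div_two_notMem_lattice
  have h2' := hhalf _ L.ω₂_mem_lattice L.ω₂_div_two_notMem_lattice
  have hν0 : ν 0 = 0 := by
    by_contra hne
    exact weierstrassP_half_ω₁_ne
      (mul_left_cancel₀ (pow_ne_zero 2 hne) (by linear_combination h2' - h1))
  rw [hν0] at h1
  have := (hc z).1 (han z hz hza hza').continuousAt
  simp only [E, hν0] at this
  exact pow_eq_zero_iff two_ne_zero |>.mp (by linear_combination this - h1)

/-- `℘'` vanishes only at points of order dividing `2`. -/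
theorem two_mul_mem_of_derivWeierstrassP_eq_zero {a : ℂ} (ha : a ∉ L.lattice)
    (hp : ℘'[L] a = 0) : 2 * a ∈ L.lattice := by
  by_contra h2
  have hU : ∀ z, z ∉ L.lattice → z + a ∉ L.lattice → z - a ∉ L.lattice → ℘[L] z ≠ ℘[L] a →
      ℘[L] (z + a) = ℘[L] (z - a) := by
    intro z hz hza hza' hne
    have := addition_identity ha h2 hz hza hza'
    rw [hp, zero_mul, add_zero] at this
    exact sub_eq_zero.mp ((mul_eq_zero.mp this).resolve_right (pow_ne_zero 2 (sub_ne_zero.mpr hne)))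
  -- near `a`, where `z - a` tends to the pole
  have hev : ∀ᶠ z in 𝓝[≠] a, ℘[L] (z + a) = ℘[L] (z - a) := by
    obtain ⟨φ, hφ, hφa, hφeq⟩ := exists_sub_eq_mul ha
    have hne : ∀ᶠ z in 𝓝[≠] a, ℘[L] z ≠ ℘[L] a := by
      rcases (L.analyticOnNhd_weierstrassP a ha).eventually_eq_or_eventually_ne
        (analyticAt_const (v := ℘[L] a)) with h | h
      · exact absurd h (not_eventually_weierstrassP_eq ha _)
      · exact h
    have hmap : ∀ c : ℂ, Tendsto (fun z => z + c) (𝓝[≠] a) (𝓝[≠] (a + c)) := fun c => by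
      refine tendsto_nhdsWithin_iff.mpr ⟨?_, ?_⟩
      · exact (Continuous.tendsto' (by fun_prop) _ _ rfl).mono_left nhdsWithin_le_nhds
      · filter_upwards [self_mem_nhdsWithin] with y hy h0'
        exact hy (by simp only [Set.mem_singleton_iff] at h0' ⊢; linear_combination h0')
    filter_upwards [hne, eventually_notMem_lattice a,
      (hmap a).eventually (eventually_notMem_lattice _),
      (hmap (-a)).eventually (eventually_notMem_lattice _)] with z h1 h2' h3 h4
    exact hU z h2' h3 (by rwa [sub_eq_add_neg]) h1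
  have hcont : Tendsto (fun z => ℘[L] (z + a)) (𝓝[≠] a) (𝓝 (℘[L] (a + a))) := by
    have := (L.analyticOnNhd_weierstrassP (a + a) (by rw [← two_mul]; exact h2)).continuousAt
    exact (this.comp (f := fun z => z + a) (by fun_prop)).tendsto.mono_left nhdsWithin_le_nhds
  have hmap : Tendsto (fun z => z - a) (𝓝[≠] a) (𝓝[≠] 0) := by
    refine tendsto_nhdsWithin_iff.mpr ⟨?_, ?_⟩
    · exact ((by fun_prop : Continuous fun z : ℂ => z - a).tendsto' _ _ (sub_self a)).mono_left
        nhdsWithin_le_nhds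
    · filter_upwards [self_mem_nhdsWithin] with y hy h0'
      exact hy (by simp only [Set.mem_singleton_iff] at h0' ⊢; linear_combination h0')
  have hlim := hcont.congr' hev
  -- `(z - a)² ℘ (z - a) → 1`, contradiction
  have hone : Tendsto (fun z => (z - a) ^ 2 * ℘[L] (z - a)) (𝓝[≠] a) (𝓝 1) := by
    have hg : Tendsto (fun w : ℂ => 1 + w ^ 2 * ℘[L - (0 : ℂ)] w) (𝓝[≠] 0) (𝓝 1) := by
      have := (L.analyticAt_weierstrassPExcept 0).continuousAt
      have hc : ContinuousAt (fun w : ℂ => 1 + w ^ 2 * ℘[L - (0 : ℂ)] w) 0 := by fun_prop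
      simpa using hc.tendsto.mono_left nhdsWithin_le_nhds
    refine (hg.comp hmap).congr' ?_
    filter_upwards [self_mem_nhdsWithin] with z hz
    have hz' : z - a ≠ 0 := sub_ne_zero.mpr hz
    simp only [Function.comp]
    rw [weierstrassP_eq_inv_sq_add (z := z - a)]
    field_simp
  have hzero : Tendsto (fun z => (z - a) ^ 2 * ℘[L] (z - a)) (𝓝[≠] a) (𝓝 0) := by
    have h0 : Tendsto (fun z : ℂ => (z - a) ^ 2) (𝓝[≠] a) (𝓝 0) :=
      (Continuous.tendsto' (by fun_prop) _ _ (by ring)).mono_left nhdsWithin_le_nhds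
    simpa using h0.mul hlim
  exact one_ne_zero (tendsto_nhds_unique hone hzero)

/-- **Injectivity of `℘` up to sign.** -/
theorem weierstrassP_eq_iff {a b : ℂ} (ha : a ∉ L.lattice) (hb : b ∉ L.lattice) :
    ℘[L] a = ℘[L] b ↔ b - a ∈ L.lattice ∨ b + a ∈ L.lattice := by
  refine ⟨fun h => ?_, ?_⟩
  · by_cases ha2 : 2 * a ∈ L.lattice
    · exact Or.inr (mem_add_of_two_mul_mem ha hb ha2 h)
    by_cases hb2 : 2 * b ∈ L.lattice
    · exact Or.inr (add_comm a b ▸ mem_add_of_two_mul_mem hb ha hb2 h.symm)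
    by_contra hcon
    push Not at hcon
    have := addition_identity ha ha2 hb hcon.2 hcon.1
    rw [← h, sub_self, zero_pow two_ne_zero, mul_zero, zero_add, mul_eq_zero] at this
    rcases this with h0 | h0
    · exact ha2 (two_mul_mem_of_derivWeierstrassP_eq_zero ha h0)
    · exact hb2 (two_mul_mem_of_derivWeierstrassP_eq_zero hb h0)
  · rintro (h | h)
    · rw [← weierstrassP_periodic' (z := a) h, add_sub_cancel]
    · have := weierstrassP_periodic' (z := -a) h
      rw [show -a + (b + a) = b by ring, L.weierstrassP_neg] at this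
      exact this.symm

end FLTAgent.LevelM
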