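import Fermat.Agent.LevelM.TorsionSeries
import Fermat.Agent.LevelM.WeierstrassInj
import Fermat.Agent.LevelM.ModularRing
import Mathlib.Data.ZMod.Basic

/-!
# Normalised torsion values of `℘` as functions of `τ`

`xvalZ M a b τ = (2πi)⁻² ℘_τ((aτ + b)/M)`; `xval M T` is the same for `T : Fin 2 → ZMod M`.
Only differences `xdiff M T U` have good expansions.
-/

set_option autoImplicit false

noncomputable section

open Filter Complex
open UpperHalfPlane hiding I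
open scoped Topology UpperHalfPlane Real PeriodPair MatrixGroups Manifold

namespace FLTAgent.LevelM

local notation "𝕢" => Function.Periodic.qParam

theorem periodPair_indep (τ : ℍ) : LinearIndependent ℝ ![(τ : ℂ), 1] := by
  rw [LinearIndependent.pair_iff]
  intro s t h
  have him := congrArg Complex.im h
  simp [Complex.real_smul] at him
  have hs : s = 0 := by
    rcases him with h' | h'
    · exact h'
    · exact absurd h' τ.im_pos.ne'
  subst hs
  refine ⟨rfl, ?_⟩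
  simpa [Complex.real_smul] using h

/-- The period pair `(τ, 1)`. -/
def periodPair (τ : ℍ) : PeriodPair := ⟨(τ : ℂ), 1, periodPair_indep τ⟩

theorem mem_periodPair_lattice {τ : ℍ} {z : ℂ} :
    z ∈ (periodPair τ).lattice ↔ ∃ m n : ℤ, (m : ℂ) * τ + n = z := by
  simp [PeriodPair.mem_lattice, periodPair]

variable {M : ℕ}

theorem torsionPt_mem_iff (hM : 0 < M) (τ : ℍ) (a b : ℤ) :
    ((a : ℂ) * τ + b) / M ∈ (periodPair τ).lattice ↔ (M : ℤ) ∣ a ∧ (M : ℤ) ∣ b := by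
  have hMc : (M : ℂ) ≠ 0 := by exact_mod_cast hM.ne'
  rw [mem_periodPair_lattice]
  constructor
  · rintro ⟨m, n, h⟩
    rw [eq_div_iff hMc] at h
    have hi := LinearIndependent.pair_iff.mp (periodPair_indep τ) ((a : ℝ) - m * M)
      ((b : ℝ) - n * M)
      (by simp [Complex.real_smul]; linear_combination -h)
    simp only [sub_eq_zero] at hi
    exact ⟨⟨m, by rw [mul_comm]; exact_mod_cast hi.1⟩, ⟨n, by rw [mul_comm]; exact_mod_cast hi.2⟩⟩
  · rintro ⟨⟨m, rfl⟩, ⟨n, rfl⟩⟩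
    exact ⟨m, n, by push_cast; field_simp⟩

variable (M)

/-- `(2πi)⁻² ℘_τ((aτ + b)/M)`. -/
def xvalZ (a b : ℤ) (τ : ℍ) : ℂ :=
  ℘[periodPair τ] (((a : ℂ) * τ + b) / M) / (2 * π * I) ^ 2

/-- `(2πi)⁻² ℘_τ(z_T)` for `T ∈ (ℤ/M)²`. -/
def xval (T : Fin 2 → ZMod M) : ℍ → ℂ := xvalZ M ((T 0).val : ℤ) ((T 1).val : ℤ)

/-- Difference of two torsion values. -/
def xdiff (T U : Fin 2 → ZMod M) : ℍ → ℂ := xval M T - xval M U

variable {M}

theorem xvalZ_congr (hM : 0 < M) {a b a' b' : ℤ} (ha : (M : ℤ) ∣ a - a') (hb : (M : ℤ) ∣ b - b') :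
    xvalZ M a b = xvalZ M a' b' := by
  funext τ
  obtain ⟨m, hm⟩ := ha
  obtain ⟨n, hn⟩ := hb
  have hMc : (M : ℂ) ≠ 0 := by exact_mod_cast hM.ne'
  have h : ((a : ℂ) * τ + b) / M = ((a' : ℂ) * τ + b') / M + ((m : ℂ) * τ + n) := by
    rw [sub_eq_iff_eq_add] at hm hn
    rw [hm, hn]
    push_cast
    field_simp
    ring
  rw [xvalZ, xvalZ, h, weierstrassP_periodic' (mem_periodPair_lattice.mpr ⟨m, n, rfl⟩)]

theorem xvalZ_neg (a b : ℤ) : xvalZ M (-a) (-b) = xvalZ M a b := by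
  funext τ
  rw [xvalZ, xvalZ]
  congr 1
  rw [← PeriodPair.weierstrassP_neg]
  congr 1
  push_cast
  ring

theorem intCast_val_sub [NeZero M] (a : ℤ) : (M : ℤ) ∣ (((a : ZMod M).val : ℤ) - a) := by
  rw [← ZMod.intCast_eq_intCast_iff_dvd_sub]
  push_cast
  rw [ZMod.natCast_zmod_val]

theorem xval_intCast [NeZero M] (a b : ℤ) : xval M ![(a : ZMod M), (b : ZMod M)] = xvalZ M a b :=
  xvalZ_congr (Nat.pos_of_ne_zero (NeZero.ne M)) (intCast_val_sub a) (intCast_val_sub b)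

theorem exists_lift [NeZero M] (T : Fin 2 → ZMod M) :
    ∃ a b : ℤ, T = ![(a : ZMod M), (b : ZMod M)] :=
  ⟨(T 0).val, (T 1).val, by ext i; fin_cases i <;> simp⟩

theorem xval_neg [NeZero M] (T : Fin 2 → ZMod M) : xval M (-T) = xval M T := by
  obtain ⟨a, b, rfl⟩ := exists_lift T
  rw [show -![(a : ZMod M), (b : ZMod M)] = ![((-a : ℤ) : ZMod M), ((-b : ℤ) : ZMod M)] by simp,
    xval_intCast, xval_intCast, xvalZ_neg]

theorem lift_eq_zero_iff (a b : ℤ) :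
    ![(a : ZMod M), (b : ZMod M)] = 0 ↔ (M : ℤ) ∣ a ∧ (M : ℤ) ∣ b := by
  rw [← ZMod.intCast_zmod_eq_zero_iff_dvd, ← ZMod.intCast_zmod_eq_zero_iff_dvd]
  exact ⟨fun h => ⟨congrFun h 0, congrFun h 1⟩, fun h => by simp [h.1, h.2]⟩

/-! ## Series and expansions of differences -/

theorem exists_hasSum_xvalZ (hM : 0 < M) {a b a' b' : ℤ} (h : ¬((M : ℤ) ∣ a ∧ (M : ℤ) ∣ b))
    (h' : ¬((M : ℤ) ∣ a' ∧ (M : ℤ) ∣ b')) (τ : ℍ) :
    HasSum (fun m : ℕ => (xCoeff M a b m - xCoeff M a' b' m) * 𝕢 (M : ℝ) τ ^ m)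
      (xvalZ M a b τ - xvalZ M a' b' τ) := by
  obtain ⟨X, hX, hrX⟩ := hasSum_rowSums hM h τ
  obtain ⟨Y, hY, hrY⟩ := hasSum_rowSums hM h' τ
  set L := periodPair τ
  set z : ℂ := ((a : ℂ) * τ + b) / M with hz
  set w : ℂ := ((a' : ℂ) * τ + b') / M with hw
  have hlat : HasSum (fun l : L.lattice => 1 / (z - l) ^ 2 - 1 / (w - l) ^ 2)
      (℘[L] z - ℘[L] w) := by
    refine ((L.hasSum_weierstrassP z).sub (L.hasSum_weierstrassP w)).congr_fun fun l => ?_
    ring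
  let e : ℤ × ℤ ≃ L.lattice := (Equiv.neg _).trans L.latticeEquivProd.symm.toEquiv
  have hprod : HasSum (fun p : ℤ × ℤ =>
      ((z + p.1 * τ + p.2) ^ 2)⁻¹ - ((w + p.1 * τ + p.2) ^ 2)⁻¹) (℘[L] z - ℘[L] w) := by
    refine ((e.hasSum_iff).mpr hlat).congr_fun fun p => ?_
    have he : ((e p : L.lattice) : ℂ) = -(p.1 * τ + p.2) := by
      show ((L.latticeEquivProd.symm (-p)).1 : ℂ) = _
      rw [PeriodPair.latticeEquiv_symm_apply]
      simp [L, periodPair]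
      ring
    simp only [Function.comp, he, sub_neg_eq_add, one_div, add_assoc]
  have hrows : HasSum (fun c : ℤ => invSqSum (z + c * τ) - invSqSum (w + c * τ))
      (℘[L] z - ℘[L] w) := by
    refine HasSum.prod_fiberwise
      (f := fun p : ℤ × ℤ => ((z + p.1 * τ + p.2) ^ 2)⁻¹ - ((w + p.1 * τ + p.2) ^ 2)⁻¹) hprod ?_
    intro c
    exact (hasSum_invSqSum (z + c * τ)).sub (hasSum_invSqSum (w + c * τ))
  have hMc : (M : ℂ) ≠ 0 := by exact_mod_cast hM.ne'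
  have hshift : ∀ c u v : ℤ, (((u + c * M : ℤ) : ℂ) * τ + v) / M =
    ((u : ℂ) * τ + v) / M + c * τ := by
    intro c u v; push_cast; field_simp; ring
  have hXY : HasSum (fun c : ℤ => ((2 * (π : ℂ) * I) ^ 2)⁻¹ *
      (invSqSum (z + c * τ) - invSqSum (w + c * τ))) (X - Y) := by
    refine HasSum.congr_fun (hrX.sub hrY) fun c => ?_
    rw [hshift, hshift, mul_sub]
  have hval : xvalZ M a b τ - xvalZ M a' b' τ = X - Y := by
    rw [xvalZ, xvalZ, ← sub_div, div_eq_inv_mul]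
    exact (hrows.mul_left ((2 * (π : ℂ) * I) ^ 2)⁻¹).unique hXY
  rw [hval]
  refine HasSum.congr_fun (hX.sub hY) fun m => ?_
  rw [sub_mul]

/-- The Laurent series of `xvalZ M a b` up to a common additive function. -/
def xSeries (M : ℕ) (a b : ℤ) : LaurentSeries ℂ :=
  HahnSeries.ofPowerSeries ℤ ℂ (PowerSeries.mk (xCoeff M a b))

theorem xSeries_coeff (a b : ℤ) (m : ℕ) : (xSeries M a b).coeff m = xCoeff M a b m := by
  rw [xSeries, HahnSeries.ofPowerSeries_apply_coeff, PowerSeries.coeff_mk]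

theorem xSeries_coeff_neg (a b : ℤ) {m : ℤ} (hm : m < 0) : (xSeries M a b).coeff m = 0 :=
  ModularCurve.ofPowerSeries_coeff_of_neg _ hm

theorem hasExp_xvalZ_sub (hM : 0 < M) {a b a' b' : ℤ} (h : ¬((M : ℤ) ∣ a ∧ (M : ℤ) ∣ b))
    (h' : ¬((M : ℤ) ∣ a' ∧ (M : ℤ) ∣ b')) :
    HasExp M (xvalZ M a b - xvalZ M a' b') (xSeries M a b - xSeries M a' b') := by
  refine Eventually.of_forall fun τ => ?_
  have hinj : Function.Injective (fun n : ℕ => (n : ℤ)) := Nat.cast_injective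
  refine (hinj.hasSum_iff fun k hk => ?_).mp ?_
  · have hk' : k < 0 := by
      by_contra hneg
      exact hk ⟨k.toNat, Int.toNat_of_nonneg (not_lt.mp hneg)⟩
    simp [HahnSeries.coeff_sub, xSeries_coeff_neg _ _ hk']
  · refine (exists_hasSum_xvalZ hM h h' τ).congr_fun fun m => ?_
    simp [Function.comp, HahnSeries.coeff_sub, xSeries_coeff, zpow_natCast]

theorem mdifferentiable_xvalZ_sub (hM : 0 < M) {a b a' b' : ℤ}
    (h : ¬((M : ℤ) ∣ a ∧ (M : ℤ) ∣ b)) (h' : ¬((M : ℤ) ∣ a' ∧ (M : ℤ) ∣ b')) :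
    MDiff (xvalZ M a b - xvalZ M a' b') := by
  let c : ℕ → ℂ := fun m => xCoeff M a b m - xCoeff M a' b' m
  let p : FormalMultilinearSeries ℂ ℂ ℂ := .ofScalars ℂ c
  have hM' : (0 : ℝ) < M := by exact_mod_cast hM
  have hrad : 1 ≤ p.radius := by
    refine le_of_forall_lt_imp_le_of_dense fun r hr => ?_
    rcases eq_or_ne r 0 with rfl | hr0
    · simp
    lift r to NNReal using hr.ne_top
    apply FormalMultilinearSeries.le_radius_of_summable
    have hrpos : (0 : ℝ) < r := by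
      have : r ≠ 0 := by simpa using hr0
      positivity
    have hr1 : (r : ℝ) < 1 := by exact_mod_cast hr
    let τ : ℍ := ⟨Function.Periodic.invQParam (M : ℝ) ((r : ℝ) : ℂ),
      Function.Periodic.im_invQParam_pos_of_norm_lt_one hM'
        (by rw [Complex.norm_real, Real.norm_eq_abs, abs_of_pos hrpos]; exact hr1)
        (by exact_mod_cast hrpos.ne')⟩
    have hq : 𝕢 (M : ℝ) (τ : ℂ) = ((r : ℝ) : ℂ) :=
      Function.Periodic.qParam_right_inv hM'.ne' (by exact_mod_cast hrpos.ne')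
    refine (exists_hasSum_xvalZ hM h h' τ).summable.norm.congr fun m => ?_
    simp [p, c, hq, Real.norm_eq_abs]
  have hball := (p.hasFPowerSeriesOnBall (zero_lt_one.trans_le hrad)).mono zero_lt_one hrad
  have hd : DifferentiableOn ℂ p.sum (Metric.ball 0 1) := by
    have := hball.differentiableOn
    rwa [← ENNReal.coe_one, Metric.eball_coe, NNReal.coe_one] at this
  rw [UpperHalfPlane.mdifferentiable_iff]
  refine DifferentiableOn.congr (f := fun z : ℂ => p.sum (𝕢 (M : ℝ) z))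
    (hd.comp (Function.Periodic.differentiable_qParam.differentiableOn) fun z hz => ?_) ?_
  · simpa using Function.Periodic.norm_qParam_lt_one hM' hz
  · intro z hz
    simp only [Function.comp]
    rw [UpperHalfPlane.ofComplex_apply_of_im_pos hz, Pi.sub_apply,
      ← (exists_hasSum_xvalZ hM h h' ⟨z, hz⟩).tsum_eq, FormalMultilinearSeries.sum]
    refine tsum_congr fun m => ?_
    simp [p, c, mul_comm]

/-! ## Modular transformation -/

theorem weierstrassP_scale {L L' : PeriodPair} {c : ℂ} (hc : c ≠ 0)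
    (h : ∀ l, c * l ∈ L'.lattice ↔ l ∈ L.lattice) (z : ℂ) :
    ℘[L'] (c * z) = (c ^ 2)⁻¹ * ℘[L] z := by
  let e : L.lattice ≃ L'.lattice :=
    { toFun := fun l => ⟨c * l, (h _).mpr l.2⟩
      invFun := fun l => ⟨c⁻¹ * l, (h _).mp (by rw [mul_inv_cancel_left₀ hc]; exact l.2)⟩
      left_inv := fun l => Subtype.ext (inv_mul_cancel_left₀ hc _)
      right_inv := fun l => Subtype.ext (mul_inv_cancel_left₀ hc _) }
  rw [PeriodPair.weierstrassP, PeriodPair.weierstrassP, ← e.tsum_eq, ← tsum_mul_left]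
  refine tsum_congr fun l => ?_
  show 1 / (c * z - c * (l : ℂ)) ^ 2 - 1 / (c * (l : ℂ)) ^ 2 = _
  rw [← mul_sub, mul_pow, mul_pow]
  field_simp

theorem xvalZ_smul (hM : 0 < M) (γ : SL(2, ℤ)) (a b : ℤ) (τ : ℍ) :
    xvalZ M a b (γ • τ) = ((γ 1 0 : ℂ) * τ + γ 1 1) ^ 2 *
      xvalZ M (a * γ 0 0 + b * γ 1 0) (a * γ 0 1 + b * γ 1 1) τ := by
  set A : ℂ := ((γ 0 0 : ℤ) : ℂ)
  set B : ℂ := ((γ 0 1 : ℤ) : ℂ)
  set C : ℂ := ((γ 1 0 : ℤ) : ℂ)
  set D : ℂ := ((γ 1 1 : ℤ) : ℂ)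
  set j := C * τ + D with hj
  have hdet : (γ 0 0) * (γ 1 1) - (γ 0 1) * (γ 1 0) = 1 := by
    have := γ.2; rwa [Matrix.det_fin_two] at this
  have hdetC : A * D - B * C = 1 := by
    simp only [A, B, C, D]; exact_mod_cast hdet
  have hsmul : ((γ • τ : ℍ) : ℂ) = (A * τ + B) / j := by
    rw [UpperHalfPlane.coe_specialLinearGroup_apply]; simp [A, B, C, D, hj]
  have hj0 : j ≠ 0 := by
    intro hj'
    rw [hj', div_zero] at hsmul
    have := (γ • τ).im_pos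
    rw [← UpperHalfPlane.coe_im, hsmul, Complex.zero_im] at this
    exact lt_irrefl _ this
  have hlat : ∀ l, j⁻¹ * l ∈ (periodPair (γ • τ)).lattice ↔ l ∈ (periodPair τ).lattice := by
    intro l
    simp only [mem_periodPair_lattice, hsmul]
    constructor
    · rintro ⟨m, n, h⟩
      refine ⟨m * γ 0 0 + n * γ 1 0, m * γ 0 1 + n * γ 1 1, ?_⟩
      field_simp at h
      push_cast
      simp only [A, B, C, D, hj] at h ⊢
      linear_combination h
    · rintro ⟨m, n, h⟩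
      refine ⟨m * γ 1 1 - n * γ 1 0, n * γ 0 0 - m * γ 0 1, ?_⟩
      field_simp
      push_cast
      simp only [A, B, C, D, hj] at hdetC ⊢
      linear_combination h + ((m : ℂ) * τ + n) * hdetC
  have hz : ((a : ℂ) * ((γ • τ : ℍ) : ℂ) + b) / M =
      j⁻¹ * ((((a * γ 0 0 + b * γ 1 0 : ℤ) : ℂ) * τ + (a * γ 0 1 + b * γ 1 1 : ℤ)) / M) := by
    have hMc : (M : ℂ) ≠ 0 := by exact_mod_cast hM.ne'
    rw [hsmul]
    push_cast
    field_simp
    simp only [A, B, C, D, hj]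
    ring
  rw [xvalZ, xvalZ, hz, weierstrassP_scale (inv_ne_zero hj0) hlat, inv_pow, inv_inv, mul_div_assoc]

/-- Reduction modulo `M` of an element of `SL(2, ℤ)`, as a matrix. -/
def redMat (M : ℕ) (γ : SL(2, ℤ)) : Matrix (Fin 2) (Fin 2) (ZMod M) :=
  (γ : Matrix (Fin 2) (Fin 2) ℤ).map (Int.cast : ℤ → ZMod M)

theorem xval_smul [NeZero M] (γ : SL(2, ℤ)) (T : Fin 2 → ZMod M) (τ : ℍ) :
    xval M T (γ • τ) = ((γ 1 0 : ℂ) * τ + γ 1 1) ^ 2 * xval M (Matrix.vecMul T (redMat M γ)) τ := by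
  obtain ⟨a, b, rfl⟩ := exists_lift T
  rw [xval_intCast, xvalZ_smul (Nat.pos_of_ne_zero (NeZero.ne M)), ← xval_intCast]
  congr 2
  ext i
  fin_cases i <;> simp [redMat, Matrix.vecMul, dotProduct, Fin.sum_univ_two]

theorem xvalZ_eq_iff (hM : 0 < M) {a b a' b' : ℤ} (h : ¬((M : ℤ) ∣ a ∧ (M : ℤ) ∣ b))
    (h' : ¬((M : ℤ) ∣ a' ∧ (M : ℤ) ∣ b')) (τ : ℍ) :
    xvalZ M a b τ = xvalZ M a' b' τ ↔
      ((M : ℤ) ∣ a' - a ∧ (M : ℤ) ∣ b' - b) ∨ ((M : ℤ) ∣ a' + a ∧ (M : ℤ) ∣ b' + b) := by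
  rw [xvalZ, xvalZ, div_left_inj' (pow_ne_zero 2 two_pi_I_ne_zero),
    weierstrassP_eq_iff ((torsionPt_mem_iff hM τ a b).not.mpr h)
      ((torsionPt_mem_iff hM τ a' b').not.mpr h'),
    show ((a' : ℂ) * τ + b') / M - ((a : ℂ) * τ + b) / M =
      (((a' - a : ℤ) : ℂ) * τ + (b' - b : ℤ)) / M by push_cast; ring,
    show ((a' : ℂ) * τ + b') / M + ((a : ℂ) * τ + b) / M =
      (((a' + a : ℤ) : ℂ) * τ + (b' + b : ℤ)) / M by push_cast; ring,
    torsionPt_mem_iff hM, torsionPt_mem_iff hM]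

end FLTAgent.LevelM
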